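import Fermat.Agent.S20.FDefs
import Fermat.Agent.S24.JPoly

/-!
P8 / FREE: level-one auxiliary facts involving the `j`-function (part of the `LevelOneAux`
interface): `E₄`, `E₆` have no common zero; level-one forms with value `1` at a given point;
the vanishing of a level-one form at a point depends only on the value of `J` there.
-/

set_option autoImplicit false

namespace Fermat.Agent.S20

open UpperHalfPlane ModularForm EisensteinSeries Filter Topology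
open Fermat.Agent.S23 Fermat.Agent.S24
open scoped MatrixGroups Manifold

theorem E₄_ne_zero_or_E₆_ne_zero (z : ℍ) : E₄ z ≠ 0 ∨ E₆ z ≠ 0 := by
  by_contra hcon
  rw [not_or, not_not, not_not] at hcon
  have := ModularForm.discriminant_eq_E₄_cube_sub_E₆_sq z
  rw [hcon.1, hcon.2] at this
  exact ModularForm.discriminant_ne_zero z (by rw [this]; norm_num)

/-- The monomial `E₄^a E₆^b` as a level-one form of weight `w = 4 a + 6 b`. -/
noncomputable def monoE (a b : ℕ) (w : ℤ) (hw : w = 4 * (a : ℤ) + 6 * (b : ℤ)) :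
    ModularForm 𝒮ℒ w :=
  ModularForm.mcast (by rw [hw]; ring) ((E₄.pow a).mul (E₆.pow b))

theorem monoE_apply (a b : ℕ) (w : ℤ) (hw : w = 4 * (a : ℤ) + 6 * (b : ℤ)) (z : ℍ) :
    monoE a b w hw z = E₄ z ^ a * E₆ z ^ b := by
  have h4 : (E₄.pow a) z = E₄ z ^ a := by rw [coe_pow]; rfl
  have h6 : (E₆.pow b) z = E₆ z ^ b := by rw [coe_pow]; rfl
  rw [← h4, ← h6]; rfl

theorem exists_monoE_eval_eq_one (a b : ℕ) (w : ℤ) (hw : w = 4 * (a : ℤ) + 6 * (b : ℤ)) (z₀ : ℍ)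
    (h : E₄ z₀ ^ a * E₆ z₀ ^ b ≠ 0) : ∃ f : ModularForm 𝒮ℒ w, f z₀ = 1 := by
  refine ⟨(E₄ z₀ ^ a * E₆ z₀ ^ b)⁻¹ • monoE a b w hw, ?_⟩
  show (E₄ z₀ ^ a * E₆ z₀ ^ b)⁻¹ • (monoE a b w hw z₀) = 1
  rw [monoE_apply, smul_eq_mul, inv_mul_cancel₀ h]

/-- a level-one form with prescribed nonzero value at a point where `E₄ E₆ ≠ 0` -/
theorem exists_levelOne_eval_eq_one {w : ℤ} (hw : 4 ≤ w) (hw2 : Even w) (z₀ : ℍ)
    (h4 : E₄ z₀ ≠ 0) (h6 : E₆ z₀ ≠ 0) : ∃ a : ModularForm 𝒮ℒ w, a z₀ = 1 := by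
  obtain ⟨r, hr⟩ := hw2
  rcases Int.emod_two_eq_zero_or_one r with h0 | h1
  · -- `w = 4 a`
    obtain ⟨a, ha⟩ := Int.eq_ofNat_of_zero_le (show 0 ≤ r / 2 by omega)
    exact exists_monoE_eval_eq_one a 0 w (by omega) z₀
      (mul_ne_zero (pow_ne_zero _ h4) (pow_ne_zero _ h6))
  · -- `w = 4 a + 6`
    obtain ⟨a, ha⟩ := Int.eq_ofNat_of_zero_le (show 0 ≤ (r - 3) / 2 by omega)
    exact exists_monoE_eval_eq_one a 1 w (by omega) z₀
      (mul_ne_zero (pow_ne_zero _ h4) (pow_ne_zero _ h6))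

theorem exists_levelOne_eval_eq_one_of_four_dvd {w : ℤ} (hw : 0 ≤ w) (hw4 : (4 : ℤ) ∣ w) (z₀ : ℍ)
    (h4 : E₄ z₀ ≠ 0) : ∃ a : ModularForm 𝒮ℒ w, a z₀ = 1 := by
  obtain ⟨r, hr⟩ := hw4
  obtain ⟨a, ha⟩ := Int.eq_ofNat_of_zero_le (show 0 ≤ r by omega)
  exact exists_monoE_eval_eq_one a 0 w (by omega) z₀ (by simpa using pow_ne_zero a h4)

theorem exists_levelOne_eval_eq_one_of_six_dvd {w : ℤ} (hw : 0 ≤ w) (hw6 : (6 : ℤ) ∣ w) (z₀ : ℍ)
    (h6 : E₆ z₀ ≠ 0) : ∃ a : ModularForm 𝒮ℒ w, a z₀ = 1 := by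
  obtain ⟨r, hr⟩ := hw6
  obtain ⟨b, hb⟩ := Int.eq_ofNat_of_zero_le (show 0 ≤ r by omega)
  exact exists_monoE_eval_eq_one 0 b w (by omega) z₀ (by simpa using pow_ne_zero b h6)

/-- the vanishing of a level-one form at a point depends only on the value of `J` there -/
theorem levelOne_eq_zero_of_Jfun_eq {w : ℤ} (c : ModularForm 𝒮ℒ w) {z₁ z₂ : ℍ}
    (hJ : Jfun z₁ = Jfun z₂) (h : c z₁ = 0) : c z₂ = 0 := by
  rcases lt_or_ge w 0 with hw | hw
  · have := ModularFormClass.levelOne_neg_weight_eq_zero hw c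
    rw [this]; rfl
  · obtain ⟨m, rfl⟩ := Int.eq_ofNat_of_zero_le hw
    let G : ModularForm 𝒮ℒ (12 * (m : ℤ)) := ModularForm.mcast (by push_cast; ring) (c.pow 12)
    have hG : ∀ z : ℍ, G z = c z ^ 12 := by
      intro z
      have h4 : (c.pow 12) z = c z ^ 12 := by rw [coe_pow]; rfl
      rw [← h4]; rfl
    obtain ⟨P, -, hP⟩ := exists_polynomial_Jfun ⊤ m G (fun n => Subfield.mem_top _)
    have h1 := hP z₁
    have h2 := hP z₂
    rw [hG, h, zero_pow (by norm_num)] at h1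
    have h3 : (P.map (⊤ : Subfield ℂ).subtype).eval (Jfun z₁) = 0 := by
      rcases mul_eq_zero.mp h1.symm with h3 | h3
      · exact h3
      · exact absurd (pow_eq_zero_iff'.mp h3).1 (ModularForm.discriminant_ne_zero z₁)
    rw [hG, ← hJ, h3, zero_mul] at h2
    exact (pow_eq_zero_iff (by norm_num)).mp h2

end Fermat.Agent.S20
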