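import Fermat.Agent.S23.Translates
import Fermat.Agent.S24.JDefs

/-!
P8 / FREE (route to S20): modular forms on `Γ₀(N)` as a free graded module over the level-one
forms. Core definitions (interface file).
-/

set_option autoImplicit false

namespace Fermat.Agent.S20

open UpperHalfPlane ModularForm
open Fermat.Agent.S23
open scoped MatrixGroups Manifold

/-- A homogeneous family `g i` (of weights `κ i`) of modular forms on `Γ₀(N)` which is a free
basis of the graded module of all modular forms on `Γ₀(N)` over the graded ring of level-one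
modular forms: every form of weight `k` is a combination `∑ a i * g i` with `a i` level-one
of weight `k - κ i`, and such combinations vanish only trivially. -/
structure IsFreeFamily (N : ℕ) {ι : Type} (κ : ι → ℤ)
    (g : (i : ι) → ModularForm (Γ0 N) (κ i)) : Prop where
  span : ∀ (k : ℤ) (f : ModularForm (Γ0 N) k),
    ∃ (s : Finset ι) (a : (i : ι) → ModularForm 𝒮ℒ (k - κ i)),
      ∀ z : ℍ, f z = ∑ i ∈ s, a i z * g i z
  indep : ∀ (k : ℤ) (s : Finset ι) (a : (i : ι) → ModularForm 𝒮ℒ (k - κ i)),
    (∀ z : ℍ, ∑ i ∈ s, a i z * g i z = 0) → ∀ i ∈ s, a i = 0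

/-- The permutation of the cosets `Q N` given by (left) multiplication by `γ ∈ SL(2, ℤ)`. -/
noncomputable def permQ (N : ℕ) (γ : SL(2, ℤ)) : Equiv.Perm (Q N) :=
  MulAction.toPerm (slElt γ)

/-- The number of orbits (cycles, fixed points included) of a permutation. -/
noncomputable def orbCount {α : Type*} (σ : Equiv.Perm α) : ℕ :=
  Nat.card (Quotient (Equiv.Perm.SameCycle.setoid σ))

end Fermat.Agent.S20
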