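import Mathlib
import Fermat.Agent.S20.FDefs

/-!
P8 / FREE: division of modular forms on `Γ₀(N)` by level-one forms.

* `exists_div_of_simple_zeros`: division by a level-one form with only simple zeros which does
  not vanish at `i∞`, of a form vanishing at all its zeros;
* `exists_div_discriminant`: division by `Δ` of a form all of whose translates are `O(Δ)`.
-/

set_option autoImplicit false

namespace Fermat.Agent.S20

open UpperHalfPlane ModularForm EisensteinSeries Filter Topology Matrix.SpecialLinearGroup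
open Fermat.Agent.S23 Fermat.Agent.S24
open scoped MatrixGroups Manifold

namespace DivAux

/-- The pointwise quotient `g / h`, extended by `g' / h'` at the zeros of `h`. -/
noncomputable def quot (g h : ℂ → ℂ) (z : ℂ) : ℂ :=
  if h z = 0 then deriv g z / deriv h z else g z / h z

theorem quot_mul {U : Set ℂ} {g h : ℂ → ℂ} (hzero : ∀ z ∈ U, h z = 0 → g z = 0) {z : ℂ}
    (hz : z ∈ U) : g z = h z * quot g h z := by
  unfold quot
  by_cases h0 : h z = 0
  · rw [if_pos h0, h0, zero_mul]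
    exact hzero z hz h0
  · rw [if_neg h0, mul_div_cancel₀ _ h0]

/-- Division of a holomorphic function by a holomorphic function with only simple zeros. -/
theorem differentiableOn_quot {U : Set ℂ} (hU : IsOpen U) {g h : ℂ → ℂ}
    (hg : DifferentiableOn ℂ g U) (hh : DifferentiableOn ℂ h U)
    (hsimple : ∀ z ∈ U, h z = 0 → deriv h z ≠ 0) (hzero : ∀ z ∈ U, h z = 0 → g z = 0) :
    DifferentiableOn ℂ (quot g h) U := by
  intro z₀ hz₀
  apply DifferentiableAt.differentiableWithinAt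
  have hUn : U ∈ 𝓝 z₀ := hU.mem_nhds hz₀
  by_cases h0 : h z₀ = 0
  · have g0 : g z₀ = 0 := hzero z₀ hz₀ h0
    have hDg : DifferentiableOn ℂ (dslope g z₀) U := (Complex.differentiableOn_dslope hUn).mpr hg
    have hDh : DifferentiableOn ℂ (dslope h z₀) U := (Complex.differentiableOn_dslope hUn).mpr hh
    have hDh0 : dslope h z₀ z₀ ≠ 0 := by
      rw [dslope_same]
      exact hsimple z₀ hz₀ h0
    have hDgAt : DifferentiableAt ℂ (dslope g z₀) z₀ := hDg.differentiableAt hUn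
    have hDhAt : DifferentiableAt ℂ (dslope h z₀) z₀ := hDh.differentiableAt hUn
    have hq : DifferentiableAt ℂ (fun z => dslope g z₀ z / dslope h z₀ z) z₀ :=
      hDgAt.div hDhAt hDh0
    refine hq.congr_of_eventuallyEq ?_
    have hev : ∀ᶠ z in 𝓝 z₀, dslope h z₀ z ≠ 0 := hDhAt.continuousAt.eventually_ne hDh0
    filter_upwards [hev] with z hz
    by_cases hzz : z = z₀
    · subst hzz
      simp only [quot, h0, if_true, dslope_same]
    · have e1 : h z = (z - z₀) * dslope h z₀ z := by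
        have := sub_smul_dslope h z₀ z
        rw [h0, sub_zero, smul_eq_mul] at this
        exact this.symm
      have e2 : g z = (z - z₀) * dslope g z₀ z := by
        have := sub_smul_dslope g z₀ z
        rw [g0, sub_zero, smul_eq_mul] at this
        exact this.symm
      have hsub : z - z₀ ≠ 0 := sub_ne_zero.mpr hzz
      have hne : h z ≠ 0 := by
        rw [e1]
        exact mul_ne_zero hsub hz
      simp only [quot, hne, if_false]
      rw [e1, e2, mul_div_mul_left _ _ hsub]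
  · have hgAt := hg.differentiableAt hUn
    have hhAt := hh.differentiableAt hUn
    have hq : DifferentiableAt ℂ (fun z => g z / h z) z₀ := hgAt.div hhAt h0
    refine hq.congr_of_eventuallyEq ?_
    filter_upwards [hhAt.continuousAt.eventually_ne h0] with z hz
    simp only [quot, hz, if_false]

/-- A holomorphic function on the upper half plane which vanishes on a neighbourhood of a point
has vanishing derivative there. -/
theorem deriv_eq_zero_of_eventually_eq_zero {φ : ℍ → ℂ} {z₀ : ℍ}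
    (h : ∀ᶠ z in 𝓝 z₀, φ z = 0) : deriv (φ ∘ ofComplex) (z₀ : ℂ) = 0 := by
  have hcont : ContinuousAt (ofComplex : ℂ → ℍ) (z₀ : ℂ) := by
    have hmem : (z₀ : ℂ) ∈ {z : ℂ | 0 < z.im} := z₀.im_pos
    exact (contMDiffAt_ofComplex (n := 0) hmem).continuousAt
  have htend : Tendsto (ofComplex : ℂ → ℍ) (𝓝 (z₀ : ℂ)) (𝓝 z₀) := by
    have := hcont.tendsto
    rwa [ofComplex_apply] at this
  have hev : (φ ∘ ofComplex) =ᶠ[𝓝 (z₀ : ℂ)] fun _ => (0 : ℂ) := htend.eventually h
  rw [hev.deriv_eq]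
  exact deriv_const _ _

/-- If `φ` has only simple zeros and `φ * F₁ = φ * F₂` with `F₁`, `F₂` continuous, then
`F₁ = F₂`. -/
theorem eq_of_mul_eq {φ F₁ F₂ : ℍ → ℂ}
    (hφ : ∀ z : ℍ, φ z = 0 → deriv (φ ∘ ofComplex) (z : ℂ) ≠ 0)
    (h₁ : Continuous F₁) (h₂ : Continuous F₂) (h : ∀ z, φ z * F₁ z = φ z * F₂ z) :
    F₁ = F₂ := by
  funext z₀
  by_contra hne
  have hsub : F₁ z₀ - F₂ z₀ ≠ 0 := sub_ne_zero.mpr hne
  have hcont : ContinuousAt (fun z => F₁ z - F₂ z) z₀ := (h₁.sub h₂).continuousAt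
  have hev : ∀ᶠ z in 𝓝 z₀, F₁ z - F₂ z ≠ 0 := hcont.eventually_ne hsub
  have hφ0 : ∀ᶠ z in 𝓝 z₀, φ z = 0 := by
    filter_upwards [hev] with z hz
    have h1 : φ z * (F₁ z - F₂ z) = 0 := by rw [mul_sub, h z, sub_self]
    exact (mul_eq_zero.mp h1).resolve_right hz
  exact hφ z₀ hφ0.self_of_nhds (deriv_eq_zero_of_eventually_eq_zero hφ0)

/-- A function `G` with `f = φ * G` eventually near `i∞`, `f` bounded and `φ → c ≠ 0`, is
bounded at `i∞`. -/
theorem isBoundedAtImInfty_of_mul {f φ G : ℍ → ℂ} (hf : IsBoundedAtImInfty f)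
    (hinf : ∃ c : ℂ, c ≠ 0 ∧ Tendsto φ atImInfty (𝓝 c)) (h : ∀ z, f z = φ z * G z) :
    IsBoundedAtImInfty G := by
  obtain ⟨c, hc, hlim⟩ := hinf
  have hcpos : 0 < ‖c‖ / 2 := by positivity
  have hev : ∀ᶠ z in atImInfty, ‖c‖ / 2 < ‖φ z‖ := by
    have h1 : Tendsto (fun z => ‖φ z‖) atImInfty (𝓝 ‖c‖) := hlim.norm
    exact h1.eventually (lt_mem_nhds (by linarith [norm_pos_iff.mpr hc]))
  rw [IsBoundedAtImInfty, BoundedAtFilter] at hf ⊢
  refine Asymptotics.IsBigO.trans ?_ hf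
  refine Asymptotics.IsBigO.of_bound (2 / ‖c‖) ?_
  filter_upwards [hev] with z hz
  have hφpos : 0 < ‖φ z‖ := lt_trans hcpos hz
  have h1 : ‖f z‖ = ‖φ z‖ * ‖G z‖ := by rw [h z, norm_mul]
  rw [h1]
  have h2 : ‖c‖ / 2 * ‖G z‖ ≤ ‖φ z‖ * ‖G z‖ :=
    mul_le_mul_of_nonneg_right hz.le (norm_nonneg _)
  have hcn : 0 < ‖c‖ := norm_pos_iff.mpr hc
  calc ‖G z‖ = 2 / ‖c‖ * (‖c‖ / 2 * ‖G z‖) := by field_simp
    _ ≤ 2 / ‖c‖ * (‖φ z‖ * ‖G z‖) := mul_le_mul_of_nonneg_left h2 (by positivity)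

end DivAux

open DivAux

/-- division of a form on `Γ₀(N)` by a level-one form with only simple zeros, nonzero at `i∞` -/
theorem exists_div_of_simple_zeros (N : ℕ) [NeZero N] {k w : ℤ} (f : ModularForm (Γ0 N) k)
    (φ : ModularForm 𝒮ℒ w)
    (hφ : ∀ z : ℍ, φ z = 0 → deriv (⇑φ ∘ ofComplex) (z : ℂ) ≠ 0)
    (hinf : ∃ c : ℂ, c ≠ 0 ∧ Tendsto (⇑φ) atImInfty (𝓝 c))
    (hf : ∀ z : ℍ, φ z = 0 → f z = 0) :
    ∃ f' : ModularForm (Γ0 N) (k - w), ∀ z : ℍ, f z = φ z * f' z := by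
  -- the quotient function
  let F : ℍ → ℂ := fun z => quot (⇑f ∘ ofComplex) (⇑φ ∘ ofComplex) (z : ℂ)
  have hfd : DifferentiableOn ℂ (⇑f ∘ ofComplex) {z : ℂ | 0 < z.im} :=
    UpperHalfPlane.mdifferentiable_iff.mp (ModularFormClass.holo f)
  have hφd : DifferentiableOn ℂ (⇑φ ∘ ofComplex) {z : ℂ | 0 < z.im} :=
    UpperHalfPlane.mdifferentiable_iff.mp (ModularFormClass.holo φ)
  have hsimple : ∀ z ∈ {z : ℂ | 0 < z.im}, (⇑φ ∘ ofComplex) z = 0 →
      deriv (⇑φ ∘ ofComplex) z ≠ 0 := by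
    intro z hz h0
    have := hφ ⟨z, hz⟩ (by rwa [Function.comp_apply, ofComplex_apply_of_im_pos hz] at h0)
    exact this
  have hzero : ∀ z ∈ {z : ℂ | 0 < z.im}, (⇑φ ∘ ofComplex) z = 0 → (⇑f ∘ ofComplex) z = 0 := by
    intro z hz h0
    rw [Function.comp_apply, ofComplex_apply_of_im_pos hz] at h0 ⊢
    exact hf _ h0
  have hmul : ∀ z : ℍ, f z = φ z * F z := by
    intro z
    have := quot_mul (U := {z : ℂ | 0 < z.im}) hzero (z := (z : ℂ)) z.im_pos
    simpa [Function.comp_apply, ofComplex_apply] using this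
  have hholo : MDiff F := by
    rw [UpperHalfPlane.mdifferentiable_iff]
    refine (differentiableOn_quot isOpen_upperHalfPlaneSet hfd hφd hsimple hzero).congr ?_
    intro z hz
    show F (ofComplex z) = _
    rw [ofComplex_apply_of_im_pos hz]
  have hFcont : Continuous F := hholo.continuous
  -- slash relations
  have hslash_mul : ∀ γ : SL(2, ℤ), (⇑f : ℍ → ℂ) ∣[k] γ = ⇑φ * (F ∣[k - w] γ) := by
    intro γ
    have h1 : (⇑f : ℍ → ℂ) = ⇑φ * F := funext hmul
    have h2 : (⇑φ * F) ∣[w + (k - w)] γ = (⇑φ ∣[w] γ) * (F ∣[k - w] γ) := mul_slash_SL2 w (k - w) γ _ _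
    have h3 : (⇑φ : ℍ → ℂ) ∣[w] γ = ⇑φ := by
      rw [SL_slash]
      exact SlashInvariantForm.slash_action_eqn φ _ ⟨γ, rfl⟩
    have h4 : w + (k - w) = k := by ring
    rw [h4, h3] at h2
    rw [← h2, ← h1]
  have hinv : ∀ γ : SL(2, ℤ), (mapGL ℝ γ : GL (Fin 2) ℝ) ∈ Γ0 N → F ∣[k - w] γ = F := by
    intro γ hγ
    have h1 := hslash_mul γ
    have h2 : (⇑f : ℍ → ℂ) ∣[k] γ = ⇑f := by
      rw [SL_slash]
      exact SlashInvariantForm.slash_action_eqn f _ hγ
    rw [h2] at h1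
    refine eq_of_mul_eq hφ ((hholo.slash (k - w) (mapGL ℝ γ)).continuous) hFcont ?_
    intro z
    have h3 := congrFun h1 z
    rw [Pi.mul_apply] at h3
    rw [← hmul z]
    exact h3.symm
  refine ⟨{ toFun := F
            slash_action_eq' := ?_
            holo' := hholo
            bdd_at_cusps' := ?_ }, hmul⟩
  · intro A hA
    obtain ⟨γ, hγ, rfl⟩ : ∃ γ : SL(2, ℤ), γ ∈ CongruenceSubgroup.Gamma0 N ∧
        (mapGL ℝ γ : GL (Fin 2) ℝ) = A := by
      obtain ⟨γ, hγ, rfl⟩ := hA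
      exact ⟨γ, hγ, rfl⟩
    exact hinv γ ⟨γ, hγ, rfl⟩
  · intro c hc
    rw [Subgroup.IsArithmetic.isCusp_iff_isCusp_SL2Z] at hc
    rw [OnePoint.isBoundedAt_iff_forall_SL2Z hc]
    intro γ _
    refine isBoundedAtImInfty_of_mul (f := (⇑f : ℍ → ℂ) ∣[k] γ) (φ := ⇑φ)
      (ModularFormClass.bdd_at_infty_slash f γ) hinf ?_
    intro z
    have := congrFun (hslash_mul γ) z
    rwa [Pi.mul_apply] at this

/-- division by `Δ` of a form all of whose translates are `O(Δ)` at `i∞` -/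
theorem exists_div_discriminant (N : ℕ) [NeZero N] {k : ℤ} (f : ModularForm (Γ0 N) k)
    (hf : ∀ q : Q N, IsBoundedAtImInfty (fun z => tr f q z / ModularForm.discriminant z)) :
    ∃ f' : ModularForm (Γ0 N) (k - 12), ∀ z : ℍ, f z = ModularForm.discriminant z * f' z := by
  have hΔslash : ∀ γ : SL(2, ℤ), (⇑CuspForm.discriminant : ℍ → ℂ) ∣[(12 : ℤ)] γ =
      ⇑CuspForm.discriminant := by
    intro γ
    rw [SL_slash]
    exact SlashInvariantForm.slash_action_eqn CuspForm.discriminant _ ⟨γ, rfl⟩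
  have hslash : ∀ γ : SL(2, ℤ), (fun z => f z / ModularForm.discriminant z) ∣[k - 12] γ =
      ((⇑f : ℍ → ℂ) ∣[k] γ) / ⇑CuspForm.discriminant := by
    intro γ
    change ((⇑f : ℍ → ℂ) / ⇑CuspForm.discriminant) ∣[k - 12] γ = _
    rw [div_slash_SL2, hΔslash]
  refine ⟨{ toFun := fun z => f z / ModularForm.discriminant z
            slash_action_eq' := ?_
            holo' := (ModularFormClass.holo f).div CuspForm.discriminant.holo'
              ModularForm.discriminant_ne_zero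
            bdd_at_cusps' := ?_ }, fun z => ?_⟩
  · intro A hA
    obtain ⟨γ, hγ, rfl⟩ := hA
    have h1 := hslash γ
    have h2 : (⇑f : ℍ → ℂ) ∣[k] γ = ⇑f := by
      rw [SL_slash]
      exact SlashInvariantForm.slash_action_eqn f _ ⟨γ, hγ, rfl⟩
    rw [h2] at h1
    rw [SL_slash] at h1
    exact h1
  · intro c hc
    rw [Subgroup.IsArithmetic.isCusp_iff_isCusp_SL2Z] at hc
    rw [OnePoint.isBoundedAt_iff_forall_SL2Z hc]
    intro γ _
    rw [hslash γ]
    -- the translate `f ∣[k] γ` is `tr f q` for `q = (slElt γ)⁻¹`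
    have hq : tr f (QuotientGroup.mk (slElt γ)⁻¹ : Q N) = (⇑f : ℍ → ℂ) ∣[k] γ := by
      rw [tr_mk, SL_slash]
      congr 1
    have := hf (QuotientGroup.mk (slElt γ)⁻¹ : Q N)
    rw [hq] at this
    exact this
  · show f z = ModularForm.discriminant z * (f z / ModularForm.discriminant z)
    rw [mul_div_cancel₀ _ (ModularForm.discriminant_ne_zero z)]

end Fermat.Agent.S20
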