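import Fermat.Agent.S20.FDefs
import Fermat.Agent.S24.JBasic
import Mathlib.RingTheory.RootsOfUnity.Complex

/-!
P8 / FREE: behaviour of the translates of a form on `Γ₀(N)` at the elliptic points `i` and `ρ`
under the elliptic elements `S` and `S * T`, and the relevant roots of unity.
-/

set_option autoImplicit false

namespace Fermat.Agent.S20

open UpperHalfPlane ModularForm
open Fermat.Agent.S23 Fermat.Agent.S24
open scoped MatrixGroups Manifold

/-! ### The permutations `permQ N γ` -/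

theorem permQ_mul (N : ℕ) (γ δ : SL(2, ℤ)) : permQ N (γ * δ) = permQ N γ * permQ N δ := by
  have h : slElt (γ * δ) = slElt γ * slElt δ :=
    map_mul (Matrix.SpecialLinearGroup.mapGL ℝ).rangeRestrict γ δ
  show MulAction.toPermHom 𝒮ℒ (Q N) (slElt (γ * δ)) = _
  rw [h, map_mul]
  rfl

theorem permQ_one (N : ℕ) : permQ N 1 = 1 := by
  have h : slElt 1 = 1 := map_one (Matrix.SpecialLinearGroup.mapGL ℝ).rangeRestrict
  show MulAction.toPermHom 𝒮ℒ (Q N) (slElt 1) = _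
  rw [h, map_one]

theorem permQ_pow (N : ℕ) (γ : SL(2, ℤ)) (n : ℕ) : permQ N (γ ^ n) = permQ N γ ^ n := by
  induction n with
  | zero => rw [pow_zero, pow_zero, permQ_one]
  | succ n ih => rw [pow_succ, pow_succ, permQ_mul, ih]

theorem permQ_inv_apply (N : ℕ) (γ : SL(2, ℤ)) (q : Q N) :
    (permQ N γ)⁻¹ q = (slElt γ)⁻¹ • q := rfl

theorem permQ_apply (N : ℕ) (γ : SL(2, ℤ)) (q : Q N) : permQ N γ q = slElt γ • q := rfl

theorem slElt_neg_one_mem (N : ℕ) : slElt (-1) ∈ (Γ0 N).subgroupOf 𝒮ℒ := by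
  rw [Subgroup.mem_subgroupOf]
  refine ⟨-1, ?_, rfl⟩
  rw [SetLike.mem_coe, CongruenceSubgroup.Gamma0_mem]
  simp

/-- `-1` acts trivially on the cosets of `Γ₀(N)`. -/
theorem permQ_neg_one (N : ℕ) : permQ N (-1) = 1 := by
  ext q
  induction q using QuotientGroup.induction_on with
  | H g =>
    obtain ⟨γ, rfl⟩ := exists_slElt_eq g
    rw [permQ_apply, Equiv.Perm.one_apply, MulAction.Quotient.smul_mk, smul_eq_mul]
    have hmul : ∀ a b : SL(2, ℤ), slElt (a * b) = slElt a * slElt b :=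
      fun a b => map_mul (Matrix.SpecialLinearGroup.mapGL ℝ).rangeRestrict a b
    have hcomm : slElt (-1) * slElt γ = slElt γ * slElt (-1) := by
      rw [← hmul, ← hmul]
      congr 1
      simp
    rw [hcomm]
    refine (QuotientGroup.eq.mpr ?_).symm
    rw [← mul_assoc, inv_mul_cancel, one_mul]
    exact slElt_neg_one_mem N

theorem modS_sq : (ModularGroup.S : SL(2, ℤ)) * ModularGroup.S = -1 := by
  ext i j
  fin_cases i <;> fin_cases j <;>
    simp [ModularGroup.coe_S, Matrix.mul_apply, Fin.sum_univ_two]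

theorem modST_cube :
    (ModularGroup.S * ModularGroup.T : SL(2, ℤ)) * (ModularGroup.S * ModularGroup.T) *
      (ModularGroup.S * ModularGroup.T) = -1 := by
  ext i j
  fin_cases i <;> fin_cases j <;>
    simp [ModularGroup.coe_S, ModularGroup.coe_T, Matrix.mul_apply, Fin.sum_univ_two]

/-- `permQ N S` is an involution. -/
theorem permQ_S_mul_self (N : ℕ) : permQ N ModularGroup.S * permQ N ModularGroup.S = 1 := by
  rw [← permQ_mul, modS_sq, permQ_neg_one]

/-- `permQ N (S * T)` has order dividing three. -/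
theorem permQ_ST_mul_self_mul_self (N : ℕ) :
    permQ N (ModularGroup.S * ModularGroup.T) * permQ N (ModularGroup.S * ModularGroup.T) *
      permQ N (ModularGroup.S * ModularGroup.T) = 1 := by
  rw [← permQ_mul, ← permQ_mul, modST_cube, permQ_neg_one]

theorem permQ_ST_pow_three (N : ℕ) : permQ N (ModularGroup.S * ModularGroup.T) ^ 3 = 1 := by
  rw [pow_succ, pow_two]
  exact permQ_ST_mul_self_mul_self N

theorem permQ_S_inv (N : ℕ) : (permQ N ModularGroup.S)⁻¹ = permQ N ModularGroup.S :=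
  inv_eq_of_mul_eq_one_left (permQ_S_mul_self N)

/-! ### Translates at the elliptic points -/

/-- the translate by `γ⁻¹` is the slash by `γ` -/
theorem tr_permQ_inv (N : ℕ) [NeZero N] {k : ℤ} (f : ModularForm (Γ0 N) k) (γ : SL(2, ℤ))
    (q : Q N) (z : ℍ) :
    tr f ((permQ N γ)⁻¹ q) z = tr f q (γ • z) * denom γ z ^ (-k) := by
  rw [permQ_inv_apply, ← (isEquivFamily_tr f).slash_SL γ q, SL_slash_apply]

theorem denom_ST_ptRho :
    denom ((ModularGroup.S * ModularGroup.T : SL(2, ℤ)) : GL (Fin 2) ℝ) (ptRho : ℂ) =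
      (ptRho : ℂ) + 1 := by
  simp [denom, ModularGroup.coe_S, ModularGroup.coe_T, Matrix.mul_apply, Fin.sum_univ_two]

theorem tr_S_ptI (N : ℕ) [NeZero N] {k : ℤ} (f : ModularForm (Γ0 N) k) (q : Q N) :
    tr f ((permQ N ModularGroup.S)⁻¹ q) ptI = Complex.I ^ (-k) * tr f q ptI := by
  rw [tr_permQ_inv, S_smul_ptI, ModularGroup.denom_S, coe_ptI, mul_comm]

theorem tr_ST_ptRho (N : ℕ) [NeZero N] {k : ℤ} (f : ModularForm (Γ0 N) k) (q : Q N) :
    tr f ((permQ N (ModularGroup.S * ModularGroup.T))⁻¹ q) ptRho =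
      ((ptRho : ℂ) + 1) ^ (-k) * tr f q ptRho := by
  rw [tr_permQ_inv, ST_smul_ptRho, denom_ST_ptRho, mul_comm]

/-! ### The roots of unity `i ^ (-k)` and `(ρ + 1) ^ (-k)` -/

theorem ptRho_add_one_sq : ((ptRho : ℂ) + 1) ^ 2 = (ptRho : ℂ) := by
  linear_combination ptRho_sq_add

theorem ptRho_cube : (ptRho : ℂ) ^ 3 = 1 := by
  linear_combination ((ptRho : ℂ) - 1) * ptRho_sq_add

theorem ptRho_ne_one : (ptRho : ℂ) ≠ 1 := by
  intro h
  have h2 := ptRho_sq_add
  rw [h] at h2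
  norm_num at h2

theorem ptRho_sq_ne_one : (ptRho : ℂ) ^ 2 ≠ 1 := by
  intro h
  have h2 := ptRho_sq_add
  have h3 : (ptRho : ℂ) = -2 := by linear_combination h2 - h
  rw [h3] at h
  norm_num at h

theorem ptRho_add_one_ne_zero : (ptRho : ℂ) + 1 ≠ 0 := by
  intro h
  have h2 := ptRho_sq_add
  have h3 : (ptRho : ℂ) = -1 := by linear_combination h
  rw [h3] at h2
  norm_num at h2

/-- `ρ` is a primitive cube root of unity. -/
theorem isPrimitiveRoot_ptRho : IsPrimitiveRoot (ptRho : ℂ) 3 := by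
  refine IsPrimitiveRoot.mk_of_lt _ (by norm_num) ptRho_cube ?_
  intro l hl0 hl3
  interval_cases l
  · simpa using ptRho_ne_one
  · exact ptRho_sq_ne_one

theorem ptRho_add_one_pow_three : ((ptRho : ℂ) + 1) ^ 3 = -1 := by
  linear_combination ((ptRho : ℂ) + 2) * ptRho_sq_add

/-- `ρ + 1` is a primitive sixth root of unity. -/
theorem isPrimitiveRoot_ptRho_add_one : IsPrimitiveRoot ((ptRho : ℂ) + 1) 6 := by
  have h2 := ptRho_add_one_sq
  have h3 := ptRho_add_one_pow_three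
  refine IsPrimitiveRoot.mk_of_lt _ (by norm_num) ?_ ?_
  · rw [show (6 : ℕ) = 3 * 2 from rfl, pow_mul, h3]; norm_num
  · intro l hl0 hl6
    interval_cases l
    · rw [pow_one]
      intro h
      exact ne_zero ptRho (by linear_combination h)
    · rw [h2]; exact ptRho_ne_one
    · rw [h3]; norm_num
    · rw [show (4 : ℕ) = 2 * 2 from rfl, pow_mul, h2]; exact ptRho_sq_ne_one
    · rw [show (5 : ℕ) = 3 + 2 from rfl, pow_add, h3, h2]
      intro h
      have h4 := ptRho_sq_add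
      have h5 : (ptRho : ℂ) = -1 := by linear_combination -h
      rw [h5] at h4
      norm_num at h4

theorem I_zpow_neg_eq_one_iff (k : ℤ) : Complex.I ^ (-k) = 1 ↔ (4 : ℤ) ∣ k := by
  rw [Complex.isPrimitiveRoot_I.zpow_eq_one_iff_dvd, dvd_neg]
  rfl

theorem ptRho_add_one_zpow_neg_eq_one_iff (k : ℤ) :
    ((ptRho : ℂ) + 1) ^ (-k) = 1 ↔ (6 : ℤ) ∣ k := by
  rw [isPrimitiveRoot_ptRho_add_one.zpow_eq_one_iff_dvd, dvd_neg]
  rfl

/-- for even weight `k = 2 m`, the factor at `i` is the sign `(-1) ^ m` -/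
theorem I_zpow_neg_two_mul (m : ℤ) : Complex.I ^ (-(2 * m)) = (-1 : ℂ) ^ m := by
  rw [show -(2 * m) = 2 * (-m) by ring, zpow_mul, zpow_ofNat, Complex.I_sq, zpow_neg,
    ← inv_zpow]
  norm_num

theorem I_zpow_neg_eq_neg_one {k : ℤ} (hk : k % 4 = 2) : Complex.I ^ (-k) = -1 := by
  obtain ⟨m, rfl⟩ : ∃ m : ℤ, k = 2 * (2 * m + 1) := ⟨k / 4, by omega⟩
  rw [I_zpow_neg_two_mul, zpow_add₀ (by norm_num), zpow_mul]
  norm_num

/-- for even weight `k = 2 m`, the factor at `ρ` is `ρ ^ (-m)` -/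
theorem ptRho_add_one_zpow_neg_two_mul (m : ℤ) :
    ((ptRho : ℂ) + 1) ^ (-(2 * m)) = (ptRho : ℂ) ^ (-m) := by
  rw [show -(2 * m) = 2 * (-m) by ring, zpow_mul, zpow_ofNat, ptRho_add_one_sq]

theorem ptRho_zpow_three_mul (m : ℤ) : (ptRho : ℂ) ^ (3 * m) = 1 := by
  rw [zpow_mul, zpow_ofNat, ptRho_cube, one_zpow]

theorem ptRho_add_one_zpow_neg_of_mod_two {k : ℤ} (hk : k % 6 = 2) :
    ((ptRho : ℂ) + 1) ^ (-k) = (ptRho : ℂ) ^ 2 := by
  obtain ⟨m, rfl⟩ : ∃ m : ℤ, k = 2 * (3 * m + 1) := ⟨k / 6, by omega⟩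
  rw [ptRho_add_one_zpow_neg_two_mul, show -(3 * m + 1) = 3 * (-m - 1) + 2 by ring,
    zpow_add₀ (ne_zero ptRho), ptRho_zpow_three_mul, one_mul, zpow_ofNat]

theorem ptRho_add_one_zpow_neg_of_mod_four {k : ℤ} (hk : k % 6 = 4) :
    ((ptRho : ℂ) + 1) ^ (-k) = (ptRho : ℂ) := by
  obtain ⟨m, rfl⟩ : ∃ m : ℤ, k = 2 * (3 * m + 2) := ⟨k / 6, by omega⟩
  rw [ptRho_add_one_zpow_neg_two_mul, show -(3 * m + 2) = 3 * (-m - 1) + 1 by ring,
    zpow_add₀ (ne_zero ptRho), ptRho_zpow_three_mul, one_mul, zpow_one]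

end Fermat.Agent.S20
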