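import Fermat.Agent.S23.Translates
import Fermat.Agent.S23.NormPoly
import Fermat.Agent.S24.JDefs
import Fermat.Agent.S20.LevelOneJ

/-!
P8 / FREE: vanishing of all translates of a form on `Γ₀(N)` at a point depends only on the
value of `J` there.
-/

set_option autoImplicit false

namespace Fermat.Agent.S20

open UpperHalfPlane ModularForm
open Fermat.Agent.S23 Fermat.Agent.S24
open scoped MatrixGroups Manifold

/-- If all translates of `f` vanish at `z₁` and `J z₁ = J z₂`, then all translates of `f` vanish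
at `z₂`. -/
theorem tr_eq_zero_of_Jfun_eq (N : ℕ) [NeZero N] {k : ℤ} (f : ModularForm (Γ0 N) k) {z₁ z₂ : ℍ}
    (hJ : Jfun z₁ = Jfun z₂) (h : ∀ q : Q N, tr f q z₁ = 0) : ∀ q : Q N, tr f q z₂ = 0 := by
  classical
  have hψ : IsEquivFamily N k (tr f) := isEquivFamily_tr f
  choose E hE using fun j : ℕ => hψ.exists_esymm j
  -- all positive elementary symmetric functions vanish at `z₁`
  have h1 : ∀ j : ℕ, 0 < j → E j z₁ = 0 := by
    intro j hj
    rw [hE, Finset.esymm_map_val]
    refine Finset.sum_eq_zero fun t ht => ?_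
    have hcard : t.card = j := (Finset.mem_powersetCard.mp ht).2
    obtain ⟨q0, hq0⟩ := Finset.card_pos.mp (hcard ▸ hj)
    exact Finset.prod_eq_zero hq0 (h q0)
  -- hence at `z₂`
  have h2 : ∀ j : ℕ, 0 < j → (Finset.univ.val.map (fun q : Q N => tr f q z₂)).esymm j = 0 := by
    intro j hj
    rw [← hE]
    exact levelOne_eq_zero_of_Jfun_eq (E j) hJ (h1 j hj)
  intro q
  have hmem : tr f q z₂ ∈ Finset.univ.val.map (fun q : Q N => tr f q z₂) := by
    rw [Multiset.mem_map]
    exact ⟨q, Finset.mem_univ_val _, rfl⟩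
  have hV := sum_esymm_eq_zero_of_mem _ hmem
  have hsum : ∑ i : Fin (Finset.univ.val.map (fun q : Q N => tr f q z₂)).card,
      ((-1 : ℂ) ^ ((Finset.univ.val.map (fun q : Q N => tr f q z₂)).card - (i : ℕ)) *
        (Finset.univ.val.map (fun q : Q N => tr f q z₂)).esymm
          ((Finset.univ.val.map (fun q : Q N => tr f q z₂)).card - (i : ℕ))) *
        tr f q z₂ ^ (i : ℕ) = 0 := by
    refine Finset.sum_eq_zero fun i _ => ?_
    rw [h2 _ (Nat.sub_pos_of_lt i.2), mul_zero, zero_mul]
  rw [hsum, add_zero] at hV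
  exact pow_eq_zero_iff (by
    rw [Multiset.card_map]
    exact Fintype.card_ne_zero) |>.mp hV

end Fermat.Agent.S20
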