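import Fermat.Agent.S20.LevelOneAux
import Fermat.Agent.S20.Division
import Fermat.Agent.S20.Propagate
import Fermat.Agent.S20.Elliptic
import Fermat.Agent.S24.JOrder
import Fermat.Agent.S24.JBasic

/-!
P8 / FREE (route to S20): the vectors `q ↦ tr (g i) q z₀` attached to a free family are linearly
independent at generic points and at the two elliptic points.
-/

set_option autoImplicit false

namespace Fermat.Agent.S20

open UpperHalfPlane ModularForm EisensteinSeries Filter Topology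
open Fermat.Agent.S23 Fermat.Agent.S24
open scoped MatrixGroups Manifold

namespace PointIndep

/-- Splitting a family of relations according to the eigenvalues `u ^ m i` of a finite order
operator. -/
theorem root_split {ι : Type} (s : Finset ι) (n : ℕ) (hn : 0 < n) (u : ℂ) (hu : u ^ n = 1)
    (hprim : ∀ j : ℤ, u ^ j = 1 → (n : ℤ) ∣ j) (m : ι → ℤ) (x : ι → ℂ)
    (hx : ∀ j : ℕ, ∑ i ∈ s, (u ^ m i) ^ j * x i = 0) (r : ℤ) :
    ∑ i ∈ s with (n : ℤ) ∣ m i - r, x i = 0 := by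
  have hu0 : u ≠ 0 := by
    intro h0
    rw [h0, zero_pow hn.ne'] at hu
    exact zero_ne_one hu
  have key : ∑ j ∈ Finset.range n, (u ^ (-r)) ^ j * ∑ i ∈ s, (u ^ m i) ^ j * x i = 0 :=
    Finset.sum_eq_zero fun j _ => by rw [hx j, mul_zero]
  have h1 : ∑ j ∈ Finset.range n, (u ^ (-r)) ^ j * ∑ i ∈ s, (u ^ m i) ^ j * x i =
      ∑ i ∈ s, x i * ∑ j ∈ Finset.range n, (u ^ (m i - r)) ^ j := by
    simp_rw [Finset.mul_sum]
    rw [Finset.sum_comm]
    refine Finset.sum_congr rfl fun i _ => Finset.sum_congr rfl fun j _ => ?_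
    have : u ^ (m i - r) = u ^ (-r) * u ^ m i := by
      rw [← zpow_add₀ hu0]
      congr 1
      ring
    rw [this, mul_pow]
    ring
  have h2 : ∀ i ∈ s, x i * ∑ j ∈ Finset.range n, (u ^ (m i - r)) ^ j =
      if (n : ℤ) ∣ m i - r then (n : ℂ) * x i else 0 := by
    intro i _
    split_ifs with hd
    · obtain ⟨t, ht⟩ := hd
      have h1 : u ^ (m i - r) = 1 := by
        rw [ht, zpow_mul, zpow_natCast, hu, one_zpow]
      rw [h1]
      simp [mul_comm]
    · have hne : u ^ (m i - r) ≠ 1 := fun h => hd (hprim _ h)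
      have hpow : (u ^ (m i - r)) ^ n = 1 := by
        rw [← zpow_natCast, ← zpow_mul, mul_comm, zpow_mul, zpow_natCast, hu, one_zpow]
      have hg := geom_sum_mul (u ^ (m i - r)) n
      rw [hpow, sub_self] at hg
      have hz : ∑ j ∈ Finset.range n, (u ^ (m i - r)) ^ j = 0 :=
        (mul_eq_zero.mp hg).resolve_right (sub_ne_zero.mpr hne)
      rw [hz, mul_zero]
  rw [h1, Finset.sum_congr rfl h2, ← Finset.sum_filter, ← Finset.mul_sum] at key
  exact (mul_eq_zero.mp key).resolve_left (Nat.cast_ne_zero.mpr hn.ne')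

/-- A uniform description of the translates by slashes with elements of `SL(2, ℤ)`. -/
theorem exists_SL_tr {N : ℕ} (q : Q N) :
    ∃ γ : SL(2, ℤ), ∀ (k : ℤ) (f : ModularForm (Γ0 N) k), tr f q = (f : ℍ → ℂ) ∣[k] γ := by
  induction q using Quotient.inductionOn with
  | h r =>
    obtain ⟨γ, rfl⟩ := exists_slElt_eq r
    refine ⟨γ⁻¹, fun k f => ?_⟩
    show (f : ℍ → ℂ) ∣[k] (Matrix.SpecialLinearGroup.mapGL ℝ γ)⁻¹ =
      (f : ℍ → ℂ) ∣[k] (Matrix.SpecialLinearGroup.mapGL ℝ γ⁻¹)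
    rw [map_inv]

variable {N : ℕ} [NeZero N] {ι : Type} {κ : ι → ℤ} {g : (i : ι) → ModularForm (Γ0 N) (κ i)}

/-- A combination of the `g i` with level-one coefficients, together with its translates. -/
theorem exists_comb (g : (i : ι) → ModularForm (Γ0 N) (κ i)) (s : Finset ι) (c : ι → ℂ) (k : ℤ)
    (a : (i : ι) → ModularForm 𝒮ℒ (k - κ i)) :
    ∃ F : ModularForm (Γ0 N) k, (∀ z : ℍ, F z = ∑ i ∈ s, c i * (a i z * g i z)) ∧
      ∀ (q : Q N) (z : ℍ), tr F q z = ∑ i ∈ s, c i * (a i z * tr (g i) q z) := by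
  classical
  have hex : ∃ F : ModularForm (Γ0 N) k, ∀ z : ℍ, F z = ∑ i ∈ s, c i * (a i z * g i z) := by
    induction s using Finset.induction_on with
    | empty => exact ⟨0, fun z => by simp⟩
    | insert i s hi ih =>
      obtain ⟨F, hF⟩ := ih
      obtain ⟨P, hP⟩ := exists_levelOne_mul N (a i) (g i)
      refine ⟨c i • ModularForm.mcast (by ring) P + F, fun z => ?_⟩
      rw [Finset.sum_insert hi, ← hF z, ← hP z]
      rfl
  obtain ⟨F, hF⟩ := hex
  refine ⟨F, hF, fun q z => ?_⟩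
  obtain ⟨γ, hγ⟩ := exists_SL_tr q
  rw [hγ k F, SL_slash_apply, hF, Finset.sum_mul]
  refine Finset.sum_congr rfl fun i _ => ?_
  rw [hγ (κ i) (g i), SL_slash_apply, levelOne_smul_apply (a i) γ z]
  have hd : denom γ z ≠ 0 := denom_ne_zero γ z
  have h1 : denom γ z ^ (-k) = denom γ z ^ (-(k - κ i)) * denom γ z ^ (-κ i) := by
    rw [← zpow_add₀ hd]
    congr 1
    ring
  have h2 : denom γ z ^ (k - κ i) * denom γ z ^ (-(k - κ i)) = 1 := by
    rw [← zpow_add₀ hd]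
    simp
  rw [h1]
  linear_combination (c i * a i z * g i (γ • z) * denom γ z ^ (-κ i)) * h2

/-- The core argument: independence of the vectors `q ↦ tr (g i) q z₀` for `i ∈ s`, given a
level-one form `φ` with simple zeros whose zero set is contained in the `J`-fibre of `z₀`,
and level-one forms `a i` of the complementary weights with `a i z₀ = 1`. -/
theorem indep_core (h : IsFreeFamily N κ g) (z₀ : ℍ) {w : ℤ} (φ : ModularForm 𝒮ℒ w)
    (hφ : ∀ z : ℍ, φ z = 0 → deriv (⇑φ ∘ ofComplex) (z : ℂ) ≠ 0)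
    (hinf : ∃ c : ℂ, c ≠ 0 ∧ Tendsto (⇑φ) atImInfty (𝓝 c))
    (hφJ : ∀ z : ℍ, φ z = 0 → Jfun z₀ = Jfun z) (hφ0 : φ z₀ = 0)
    (s : Finset ι) (c : ι → ℂ) (k : ℤ) (a : (i : ι) → ModularForm 𝒮ℒ (k - κ i))
    (ha : ∀ i ∈ s, a i z₀ = 1)
    (hc : ∀ q : Q N, ∑ i ∈ s, c i * tr (g i) q z₀ = 0) : ∀ i ∈ s, c i = 0 := by
  classical
  obtain ⟨F, hF, hFtr⟩ := exists_comb g s c k a
  have hF0 : ∀ q : Q N, tr F q z₀ = 0 := by
    intro q
    rw [hFtr q z₀, ← hc q]
    refine Finset.sum_congr rfl fun i hi => ?_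
    rw [ha i hi, one_mul]
  have hFφ : ∀ z : ℍ, φ z = 0 → F z = 0 := by
    intro z hz
    have := tr_eq_zero_of_Jfun_eq N F (hφJ z hz) hF0 (QuotientGroup.mk 1)
    rwa [tr_one] at this
  obtain ⟨F', hF'⟩ := exists_div_of_simple_zeros N F φ hφ hinf hFφ
  obtain ⟨s', b, hb⟩ := h.span (k - w) F'
  let A : (i : ι) → ModularForm 𝒮ℒ (k - κ i) := fun i =>
    (if i ∈ s then c i • a i else 0) -
      (if i ∈ s' then ModularForm.mcast (by ring) (φ.mul (b i)) else 0)
  have hAz : ∀ (i : ι) (z : ℍ), A i z =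
      (if i ∈ s then c i * a i z else 0) - (if i ∈ s' then φ z * b i z else 0) := by
    intro i z
    simp only [A]
    by_cases h1 : i ∈ s <;> by_cases h2 : i ∈ s' <;>
      simp [h1, h2, ModularForm.mcast_apply]
  have hA : ∀ z : ℍ, ∑ i ∈ s ∪ s', A i z * g i z = 0 := by
    intro z
    have h1 : ∀ i ∈ s ∪ s', A i z * g i z =
        (if i ∈ s then c i * (a i z * g i z) else 0) -
          (if i ∈ s' then φ z * (b i z * g i z) else 0) := by
      intro i _
      rw [hAz]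
      by_cases h1 : i ∈ s <;> by_cases h2 : i ∈ s' <;> simp [h1, h2] <;> ring
    rw [Finset.sum_congr rfl h1, Finset.sum_sub_distrib, Finset.sum_ite_mem, Finset.sum_ite_mem,
      Finset.union_inter_cancel_left, Finset.union_inter_cancel_right, ← hF z, ← Finset.mul_sum,
      ← hb z, ← hF' z, sub_self]
  have hzero := h.indep k (s ∪ s') A hA
  intro i hi
  have hAi : A i z₀ = 0 := by
    rw [hzero i (Finset.mem_union_left _ hi)]
    rfl
  rw [hAz, if_pos hi, ha i hi, hφ0] at hAi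
  simpa using hAi

omit [NeZero N] in
/-- Splitting the relations `hc` according to the eigenvalues `u ^ m i` of the permutation `σ`
acting on the vectors `q ↦ tr (g i) q z₀`. -/
theorem split (σ : Equiv.Perm (Q N)) (z₀ : ℍ) (n : ℕ) (hn : 0 < n) (u : ℂ) (hu : u ^ n = 1)
    (hprim : ∀ j : ℤ, u ^ j = 1 → (n : ℤ) ∣ j) (m : ι → ℤ) (s : Finset ι) (c : ι → ℂ)
    (hσ : ∀ i ∈ s, ∀ q : Q N, tr (g i) (σ⁻¹ q) z₀ = u ^ m i * tr (g i) q z₀)
    (hc : ∀ q : Q N, ∑ i ∈ s, c i * tr (g i) q z₀ = 0) (r : ℤ) (q : Q N) :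
    ∑ i ∈ s with (n : ℤ) ∣ m i - r, c i * tr (g i) q z₀ = 0 := by
  have hx : ∀ (j : ℕ) (q : Q N), ∑ i ∈ s, (u ^ m i) ^ j * (c i * tr (g i) q z₀) = 0 := by
    intro j
    induction j with
    | zero =>
      intro q
      simpa using hc q
    | succ j ih =>
      intro q
      rw [← ih (σ⁻¹ q)]
      refine Finset.sum_congr rfl fun i hi => ?_
      rw [hσ i hi q, pow_succ]
      ring
  exact root_split s n hn u hu hprim m (fun i => c i * tr (g i) q z₀) (fun j => hx j q) r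

/-- Independence at a point `z₀` at which the translates are permuted by `σ` up to the
eigenvalues `u ^ (κ i / 2)`, `u` a primitive `n`-th root of unity. -/
theorem indep_elliptic (h : IsFreeFamily N κ g) (z₀ : ℍ) {w : ℤ} (φ : ModularForm 𝒮ℒ w)
    (hφ : ∀ z : ℍ, φ z = 0 → deriv (⇑φ ∘ ofComplex) (z : ℂ) ≠ 0)
    (hinf : ∃ c : ℂ, c ≠ 0 ∧ Tendsto (⇑φ) atImInfty (𝓝 c))
    (hφJ : ∀ z : ℍ, φ z = 0 → Jfun z₀ = Jfun z) (hφ0 : φ z₀ = 0)
    (σ : Equiv.Perm (Q N)) (n : ℕ) (hn : 0 < n) (u : ℂ) (hu : u ^ n = 1)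
    (hprim : ∀ j : ℤ, u ^ j = 1 → (n : ℤ) ∣ j)
    (hσ : ∀ (i : ι) (q : Q N), tr (g i) (σ⁻¹ q) z₀ = u ^ (κ i / 2) * tr (g i) q z₀)
    (hlev : ∀ v : ℤ, 0 ≤ v → (2 * (n : ℤ)) ∣ v → ∃ a : ModularForm 𝒮ℒ v, a z₀ = 1)
    (hweven : ∀ i, Even (κ i)) (hwnonneg : ∀ i, 0 ≤ κ i)
    (s : Finset ι) (c : ι → ℂ)
    (hc : ∀ q : Q N, ∑ i ∈ s, c i * tr (g i) q z₀ = 0) : ∀ i ∈ s, c i = 0 := by
  classical
  intro i₀ hi₀
  have hκ : ∀ i, κ i = 2 * (κ i / 2) := fun i =>
    (Int.two_mul_ediv_two_of_even (hweven i)).symm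
  obtain ⟨M, hM⟩ := (s.image κ).exists_le
  have hM' : ∀ i ∈ s, κ i ≤ M := fun i hi => hM _ (Finset.mem_image_of_mem κ hi)
  have hi₀' : i₀ ∈ s.filter (fun i => (n : ℤ) ∣ κ i / 2 - κ i₀ / 2) := by
    simp [hi₀]
  obtain ⟨k, hk⟩ : ∃ k : ℤ, k = κ i₀ + 2 * n * |M| := ⟨_, rfl⟩
  have hex : ∀ i, ∃ a : ModularForm 𝒮ℒ (k - κ i),
      i ∈ s.filter (fun i => (n : ℤ) ∣ κ i / 2 - κ i₀ / 2) → a z₀ = 1 := by
    intro i
    by_cases hi : i ∈ s.filter (fun i => (n : ℤ) ∣ κ i / 2 - κ i₀ / 2)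
    · have his : i ∈ s := (Finset.mem_filter.mp hi).1
      obtain ⟨t, ht⟩ := (Finset.mem_filter.mp hi).2
      have h1 : 0 ≤ k - κ i := by
        have h0 := hwnonneg i₀
        have h2 := hM' i his
        have h3 := le_abs_self M
        have h4 := abs_nonneg M
        have h5 : (1 : ℤ) ≤ n := by exact_mod_cast hn
        have h6 := mul_nonneg (sub_nonneg.mpr h5) h4
        rw [hk]
        nlinarith
      have h2 : (2 * (n : ℤ)) ∣ k - κ i := by
        refine ⟨|M| - t, ?_⟩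
        have e1 := hκ i
        have e2 := hκ i₀
        rw [hk]
        linear_combination e2 - e1 - 2 * ht
      obtain ⟨a, ha⟩ := hlev _ h1 h2
      exact ⟨a, fun _ => ha⟩
    · exact ⟨0, fun hi' => absurd hi' hi⟩
  choose a ha using hex
  exact indep_core h z₀ φ hφ hinf hφJ hφ0 _ c k a ha
    (fun q => split σ z₀ n hn u hu hprim (fun i => κ i / 2) s c (fun i _ q => hσ i q) hc
      (κ i₀ / 2) q) i₀ hi₀'

end PointIndep

section

variable {N : ℕ} [NeZero N] {ι : Type} {κ : ι → ℤ} {g : (i : ι) → ModularForm (Γ0 N) (κ i)}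

omit [NeZero N] in
theorem IsFreeFamily.ne_zero (h : IsFreeFamily N κ g) (i : ι) : g i ≠ 0 := by
  classical
  intro hg
  let a : (j : ι) → ModularForm 𝒮ℒ (κ i - κ j) := fun j =>
    if hj : j = i then ModularForm.mcast (by rw [hj, sub_self]) (1 : ModularForm 𝒮ℒ 0) else 0
  have h0 := h.indep (κ i) {i} a (fun z => by simp [hg]) i (Finset.mem_singleton_self i)
  have h1 : a i UpperHalfPlane.I = 1 := by
    simp [a, ModularForm.mcast_apply]
  rw [h0] at h1
  simp at h1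

theorem IsFreeFamily.weight_nonneg (h : IsFreeFamily N κ g) (i : ι) : 0 ≤ κ i := by
  by_contra hlt
  exact h.ne_zero i (Γ0_eq_zero_of_weight_neg N (not_le.mp hlt) (g i))

theorem IsFreeFamily.weight_even (h : IsFreeFamily N κ g) (i : ι) : Even (κ i) := by
  by_contra hodd
  exact h.ne_zero i (Γ0_eq_zero_of_weight_odd N (Int.not_even_iff_odd.mp hodd) (g i))

theorem IsFreeFamily.indep_generic (h : IsFreeFamily N κ g) (z₀ : ℍ) (h4 : E₄ z₀ ≠ 0)
    (h6 : E₆ z₀ ≠ 0) (s : Finset ι) (c : ι → ℂ)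
    (hc : ∀ q : Q N, ∑ i ∈ s, c i * tr (g i) q z₀ = 0) : ∀ i ∈ s, c i = 0 := by
  classical
  have hJ0 : Jfun z₀ ≠ 0 := fun h0 => h4 ((Jfun_eq_zero_iff z₀).mp h0)
  have hJ1 : Jfun z₀ ≠ 1728 := fun h1 => h6 ((Jfun_eq_1728_iff z₀).mp h1)
  obtain ⟨M, hM⟩ := (s.image κ).exists_le
  have hM' : ∀ i ∈ s, κ i ≤ M := fun i hi => hM _ (Finset.mem_image_of_mem κ hi)
  obtain ⟨k, hk⟩ : ∃ k : ℤ, k = 2 * |M| + 4 := ⟨_, rfl⟩
  have hex : ∀ i, ∃ a : ModularForm 𝒮ℒ (k - κ i), i ∈ s → a z₀ = 1 := by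
    intro i
    by_cases hi : i ∈ s
    · have h1 : 4 ≤ k - κ i := by
        have h2 := hM' i hi
        have h3 := le_abs_self M
        have h4 := abs_nonneg M
        rw [hk]
        linarith
      have h2 : Even (k - κ i) := by
        obtain ⟨m, hm⟩ := h.weight_even i
        exact ⟨|M| + 2 - m, by rw [hk, hm]; ring⟩
      obtain ⟨a, ha⟩ := exists_levelOne_eval_eq_one h1 h2 z₀ h4 h6
      exact ⟨a, fun _ => ha⟩
    · exact ⟨0, fun hi' => absurd hi' hi⟩
  choose a ha using hex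
  have hJz : ∀ z : ℍ, jAux (Jfun z₀) z = 0 → Jfun z₀ = Jfun z := by
    intro z hz
    rw [jAux_apply] at hz
    rw [Jfun_apply z, eq_div_iff (discriminant_ne_zero z)]
    linear_combination -hz
  refine PointIndep.indep_core h z₀ (jAux (Jfun z₀)) ?_ ⟨1, one_ne_zero, tendsto_jAux _⟩ hJz ?_
    s c k a ha hc
  · intro z hz
    have hJ := hJz z hz
    have hfun : (⇑(jAux (Jfun z₀)) ∘ ofComplex) = fun x : ℂ =>
        (ModularForm.discriminant ∘ ofComplex) x * ((Jfun ∘ ofComplex) x - Jfun z₀) := by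
      funext x
      show jAux (Jfun z₀) (ofComplex x) =
        ModularForm.discriminant (ofComplex x) * (Jfun (ofComplex x) - Jfun z₀)
      have hΔ := discriminant_ne_zero (ofComplex x)
      rw [jAux_apply, Jfun_apply (ofComplex x)]
      field_simp
    have hdΔ : DifferentiableAt ℂ (ModularForm.discriminant ∘ ofComplex) (z : ℂ) :=
      mdifferentiableAt_iff.mp (CuspForm.discriminant.holo' z)
    have hdJ : DifferentiableAt ℂ (Jfun ∘ ofComplex) (z : ℂ) :=
      mdifferentiableAt_iff.mp (mdifferentiable_Jfun z)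
    have hd : HasDerivAt (fun x : ℂ =>
          (ModularForm.discriminant ∘ ofComplex) x * ((Jfun ∘ ofComplex) x - Jfun z₀))
        (deriv (ModularForm.discriminant ∘ ofComplex) (z : ℂ) *
            ((Jfun ∘ ofComplex) (z : ℂ) - Jfun z₀) +
          (ModularForm.discriminant ∘ ofComplex) (z : ℂ) * deriv (Jfun ∘ ofComplex) (z : ℂ))
        (z : ℂ) :=
      hdΔ.hasDerivAt.mul (hdJ.hasDerivAt.sub_const (Jfun z₀))
    rw [hfun, hd.deriv]
    simp only [Function.comp_apply, ofComplex_apply, ← hJ, sub_self, mul_zero, zero_add]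
    refine mul_ne_zero (discriminant_ne_zero z) (deriv_Jfun_ne_zero z ?_ ?_)
    · rw [← hJ]; exact hJ0
    · rw [← hJ]; exact hJ1
  · rw [jAux_apply, Jfun_apply]
    field_simp [discriminant_ne_zero z₀]
    ring

theorem IsFreeFamily.indep_ptI (h : IsFreeFamily N κ g) (s : Finset ι) (c : ι → ℂ)
    (hc : ∀ q : Q N, ∑ i ∈ s, c i * tr (g i) q ptI = 0) : ∀ i ∈ s, c i = 0 := by
  have hE4 : E₄ ptI ≠ 0 := by
    intro h0
    have h1 := (Jfun_eq_zero_iff ptI).mpr h0
    rw [Jfun_ptI] at h1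
    norm_num at h1
  have hI : (Complex.I : ℂ) ^ (-2 : ℤ) = -1 := by
    rw [zpow_neg, zpow_ofNat, Complex.I_sq]
    norm_num
  refine PointIndep.indep_elliptic h ptI E₆ (fun z hz => deriv_E₆_ne_zero z hz)
    ⟨1, one_ne_zero, Fermat.Agent.S24.tendsto_E₆_atImInfty⟩ ?_ E₆_ptI (permQ N ModularGroup.S) 2
    (by norm_num) (-1) (by norm_num) ?_ ?_ ?_ h.weight_even h.weight_nonneg s c hc
  · intro z hz
    rw [Jfun_ptI, (Jfun_eq_1728_iff z).mpr hz]
  · intro j hj
    by_contra hodd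
    rw [Nat.cast_ofNat, ← even_iff_two_dvd, Int.not_even_iff_odd] at hodd
    rw [hodd.neg_one_zpow] at hj
    norm_num at hj
  · intro i q
    rw [tr_S_ptI, ← hI, ← zpow_mul]
    congr 2
    have := Int.two_mul_ediv_two_of_even (h.weight_even i)
    omega
  · intro v hv hdvd
    exact exists_levelOne_eval_eq_one_of_four_dvd hv (by norm_num at hdvd ⊢; exact hdvd) ptI hE4

theorem IsFreeFamily.indep_ptRho (h : IsFreeFamily N κ g) (s : Finset ι) (c : ι → ℂ)
    (hc : ∀ q : Q N, ∑ i ∈ s, c i * tr (g i) q ptRho = 0) : ∀ i ∈ s, c i = 0 := by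
  have hE6 : E₆ ptRho ≠ 0 := by
    intro h0
    have h1 := (Jfun_eq_1728_iff ptRho).mpr h0
    rw [Jfun_ptRho] at h1
    norm_num at h1
  have hρ := ptRho_sq_add
  obtain ⟨v, hv⟩ : ∃ v : ℂ, v = (ptRho : ℂ) + 1 := ⟨_, rfl⟩
  have hv2 : v ^ 2 - v + 1 = 0 := by
    rw [hv]
    linear_combination hρ
  have hv0 : v ≠ 0 := by
    intro h0
    rw [h0] at hv2
    norm_num at hv2
  obtain ⟨u, hu⟩ : ∃ u : ℂ, u = v ^ (-2 : ℤ) := ⟨_, rfl⟩
  have hu' : u * v ^ 2 = 1 := by
    rw [hu, zpow_neg, zpow_ofNat]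
    exact inv_mul_cancel₀ (pow_ne_zero 2 hv0)
  have huv : u = -v := by
    linear_combination (1 - v) ^ 2 * hu' + (u * (1 + v - v ^ 2) + 1) * hv2
  have hu2 : u ^ 2 + u + 1 = 0 := by
    rw [huv]
    linear_combination hv2
  have hu3 : u ^ 3 = 1 := by
    linear_combination (u - 1) * hu2
  have hu0 : u ≠ 0 := by
    intro h0
    rw [h0] at hu2
    norm_num at hu2
  refine PointIndep.indep_elliptic h ptRho E₄ (fun z hz => deriv_E₄_ne_zero z hz)
    ⟨1, one_ne_zero, Fermat.Agent.S24.tendsto_E₄_atImInfty⟩ ?_ E₄_ptRho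
    (permQ N (ModularGroup.S * ModularGroup.T)) 3
    (by norm_num) u hu3 ?_ ?_ ?_ h.weight_even h.weight_nonneg s c hc
  · intro z hz
    rw [Jfun_ptRho, (Jfun_eq_zero_iff z).mpr hz]
  · intro j hj
    have hj3 : j = 3 * (j / 3) + j % 3 := (Int.mul_ediv_add_emod j 3).symm
    have hpow : u ^ j = u ^ (j % 3) := by
      conv_lhs => rw [hj3]
      rw [zpow_add₀ hu0, zpow_mul, zpow_ofNat, hu3, one_zpow, one_mul]
    rw [hpow] at hj
    have hmod : j % 3 = 0 ∨ j % 3 = 1 ∨ j % 3 = 2 := by omega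
    rcases hmod with h0 | h1 | h2
    · exact Int.dvd_of_emod_eq_zero h0
    · exfalso
      rw [h1, zpow_one] at hj
      rw [hj] at hu2
      norm_num at hu2
    · exfalso
      rw [h2, zpow_ofNat] at hj
      have hu1 : u = -2 := by linear_combination hu2 - hj
      rw [hu1] at hj
      norm_num at hj
  · intro i q
    rw [tr_ST_ptRho, ← hv, hu, ← zpow_mul]
    congr 2
    have := Int.two_mul_ediv_two_of_even (h.weight_even i)
    omega
  · intro v' hv' hdvd
    exact exists_levelOne_eval_eq_one_of_six_dvd hv' (by norm_num at hdvd ⊢; exact hdvd) ptRho hE6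

end

end Fermat.Agent.S20
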