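import Mathlib.LinearAlgebra.Lagrange
import Mathlib.LinearAlgebra.Matrix.ToLinearEquiv
import Mathlib.LinearAlgebra.Matrix.Nondegenerate
import Mathlib.LinearAlgebra.Dimension.Constructions
import Mathlib.LinearAlgebra.Dimension.Finite
import Fermat.Agent.S20.LevelOneJ
import Fermat.Agent.S20.PointIndep
import Fermat.Agent.S23.Lagrange
import Fermat.Agent.S23.DeltaN

/-!
P8 / FREE (route to S20): a free family of modular forms on `Γ₀(N)` over the level-one forms
has exactly `[SL(2, ℤ) : Γ₀(N)]` members, and the vectors of translates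
`q ↦ tr (g i) q z` are linearly independent at *every* point `z` of the upper half plane.
-/

set_option autoImplicit false

namespace Fermat.Agent.S20

open UpperHalfPlane ModularForm EisensteinSeries Filter Topology
open Fermat.Agent.S23 Fermat.Agent.S24
open scoped MatrixGroups Manifold

variable {N : ℕ} [NeZero N] {ι : Type} {κ : ι → ℤ} {g : (i : ι) → ModularForm (Γ0 N) (κ i)}

/-! ### Generic points -/

/-- There is a point of the upper half plane where neither `E₄` nor `E₆` vanishes. -/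
theorem exists_E₄_ne_zero_and_E₆_ne_zero : ∃ z₀ : ℍ, E₄ z₀ ≠ 0 ∧ E₆ z₀ ≠ 0 := by
  obtain ⟨z₀, hz⟩ := Jfun_surjective 1
  refine ⟨z₀, fun h => ?_, fun h => ?_⟩
  · rw [(Jfun_eq_zero_iff z₀).mpr h] at hz
    exact zero_ne_one hz
  · rw [(Jfun_eq_1728_iff z₀).mpr h] at hz
    norm_num at hz

/-- The vector of the values at `z` of the translates of the `i`-th member of a family. -/
noncomputable def trVec (g : (i : ι) → ModularForm (Γ0 N) (κ i)) (z : ℍ) (i : ι) : Q N → ℂ :=
  fun q => tr (g i) q z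

omit [NeZero N] in
theorem trVec_apply (z : ℍ) (i : ι) (q : Q N) : trVec g z i q = tr (g i) q z := rfl

theorem IsFreeFamily.linearIndependent_trVec (h : IsFreeFamily N κ g) (z₀ : ℍ)
    (h4 : E₄ z₀ ≠ 0) (h6 : E₆ z₀ ≠ 0) : LinearIndependent ℂ (trVec g z₀) := by
  rw [linearIndependent_iff']
  intro s c hc i hi
  refine h.indep_generic z₀ h4 h6 s c (fun q => ?_) i hi
  have := congrFun hc q
  simpa [trVec, Finset.sum_apply] using this

theorem IsFreeFamily.finite (h : IsFreeFamily N κ g) : Finite ι := by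
  obtain ⟨z₀, h4, h6⟩ := exists_E₄_ne_zero_and_E₆_ne_zero
  exact (h.linearIndependent_trVec z₀ h4 h6).finite_of_isNoetherian

theorem IsFreeFamily.card_le (h : IsFreeFamily N κ g) : Nat.card ι ≤ Nat.card (Q N) := by
  obtain ⟨z₀, h4, h6⟩ := exists_E₄_ne_zero_and_E₆_ne_zero
  have : Finite ι := h.finite
  have : Fintype ι := Fintype.ofFinite ι
  have := (h.linearIndependent_trVec z₀ h4 h6).fintype_card_le_finrank
  rwa [Module.finrank_fintype_fun_eq_card, ← Nat.card_eq_fintype_card,
    ← Nat.card_eq_fintype_card] at this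

/-! ### Translates of combinations with level-one coefficients -/

omit [NeZero N] in
/-- Every coset has a representative in `SL(2, ℤ)` computing the translates of all forms. -/
theorem exists_tr_eq_slash_uniform (q : Q N) :
    ∃ γ : SL(2, ℤ), ∀ (k : ℤ) (f : ModularForm (Γ0 N) k), tr f q = (f : ℍ → ℂ) ∣[k] γ := by
  induction q using Quotient.inductionOn with
  | h r =>
    obtain ⟨γ, rfl⟩ := exists_slElt_eq r
    refine ⟨γ⁻¹, fun k f => ?_⟩
    show (f : ℍ → ℂ) ∣[k] (Matrix.SpecialLinearGroup.mapGL ℝ γ)⁻¹ =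
      (f : ℍ → ℂ) ∣[k] (Matrix.SpecialLinearGroup.mapGL ℝ γ⁻¹)
    rw [map_inv]

/-- A level-one form is invariant under the slash action of `SL(2, ℤ)`. -/
theorem levelOne_slash_SL_eq_self {w : ℤ} (a : ModularForm 𝒮ℒ w) (γ : SL(2, ℤ)) :
    (a : ℍ → ℂ) ∣[w] γ = a :=
  SlashInvariantForm.slash_action_eqn a _ ⟨γ, rfl⟩

theorem mul_slash_SL2_of_weight_eq {k k₁ k₂ : ℤ} (hk : k = k₁ + k₂) (γ : SL(2, ℤ)) (f₁ f₂ : ℍ → ℂ) :
    (f₁ * f₂) ∣[k] γ = f₁ ∣[k₁] γ * f₂ ∣[k₂] γ := by
  subst hk
  exact mul_slash_SL2 k₁ k₂ γ f₁ f₂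

omit [NeZero N] in
/-- The translates of a combination of the `g i` with level-one coefficients. -/
theorem tr_eq_sum_of_eq_sum {k : ℤ} (f : ModularForm (Γ0 N) k) (s : Finset ι)
    (a : (i : ι) → ModularForm 𝒮ℒ (k - κ i)) (hf : ∀ z : ℍ, f z = ∑ i ∈ s, a i z * g i z)
    (q : Q N) (z : ℍ) : tr f q z = ∑ i ∈ s, a i z * tr (g i) q z := by
  obtain ⟨γ, hγ⟩ := exists_tr_eq_slash_uniform q
  have h1 : (f : ℍ → ℂ) = ∑ i ∈ s, (a i : ℍ → ℂ) * (g i : ℍ → ℂ) := by
    funext z
    rw [hf z, Finset.sum_apply]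
    rfl
  rw [hγ k f, h1, SlashAction.sum_slash, Finset.sum_apply]
  refine Finset.sum_congr rfl fun i _ => ?_
  rw [mul_slash_SL2_of_weight_eq (by ring : k = (k - κ i) + κ i), levelOne_slash_SL_eq_self, hγ (κ i) (g i)]
  rfl

theorem pow_slash_SL2_natCast_mul (k : ℤ) (γ : SL(2, ℤ)) (f : ℍ → ℂ) (m : ℕ) :
    (f ^ m) ∣[(m : ℤ) * k] γ = (f ∣[k] γ) ^ m := by
  induction m with
  | zero =>
    simp only [pow_zero, Nat.cast_zero, zero_mul]
    exact is_invariant_one γ
  | succ m ih =>
    rw [pow_succ, pow_succ, mul_slash_SL2_of_weight_eq (by push_cast; ring :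
      ((m + 1 : ℕ) : ℤ) * k = (m : ℤ) * k + k), ih]

theorem tr_pow_eq_pow_tr {k : ℤ} (f : ModularForm (Γ0 N) k) (m : ℕ) (q : Q N) :
    tr (f.pow m) q = tr f q ^ m := by
  obtain ⟨γ, hγ⟩ := exists_tr_eq_slash_uniform q
  rw [hγ _ (f.pow m), hγ k f, ModularForm.coe_pow, pow_slash_SL2_natCast_mul]

/-! ### The translates of `Δ_N` separate the cosets -/

/-- Distinct cosets give distinct translates of `Δ_N`. -/
theorem tr_DeltaN_injective (N : ℕ) [NeZero N] :
    Function.Injective (tr (DeltaN N) : Q N → ℍ → ℂ) := by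
  intro q q' hqq
  obtain ⟨h', rfl⟩ := QuotientGroup.mk_surjective q'
  have hfam := isEquivFamily_tr (DeltaN N)
  have h2 : h'⁻¹ • (QuotientGroup.mk h' : Q N) = QuotientGroup.mk 1 := by
    rw [MulAction.Quotient.smul_mk]
    simp
  have h1 : tr (DeltaN N) (h'⁻¹ • q) = ⇑(DeltaN N) := by
    rw [← hfam.slash h' q, hqq, hfam.slash h', h2, tr_one]
  have h3 := tr_ne_of_ne_one N (DeltaN N) (coe_DeltaN N) _ h1
  have h4 : q = h' • (QuotientGroup.mk 1 : Q N) := by rw [← h3, smul_inv_smul]
  rw [h4, MulAction.Quotient.smul_mk]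
  simp

/-- There is a point where the translates of `Δ_N` take pairwise distinct values. -/
theorem exists_tr_DeltaN_injective (N : ℕ) [NeZero N] :
    ∃ z₁ : ℍ, Function.Injective fun q : Q N => tr (DeltaN N) q z₁ := by
  classical
  by_contra hcon
  push Not at hcon
  have hfam := isEquivFamily_tr (DeltaN N)
  let P : Finset (Q N × Q N) := Finset.univ.filter fun p => p.1 ≠ p.2
  have hprod : ∏ p ∈ P, (tr (DeltaN N) p.1 - tr (DeltaN N) p.2) = 0 := by
    funext z
    rw [Finset.prod_apply, Pi.zero_apply]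
    have hz := hcon z
    rw [Function.Injective] at hz
    push Not at hz
    obtain ⟨q, q', hqq, hne⟩ := hz
    refine Finset.prod_eq_zero (i := (q, q')) ?_ ?_
    · simp [P, hne]
    · simp only [Pi.sub_apply]
      exact sub_eq_zero.mpr hqq
  rw [UpperHalfPlane.prod_eq_zero_iff
    (fun p _ => (hfam.holo p.1).sub (hfam.holo p.2))] at hprod
  obtain ⟨p, hp, hp0⟩ := hprod
  have hp' : p.1 ≠ p.2 := by simpa [P] using hp
  exact hp' (tr_DeltaN_injective N (sub_eq_zero.mp hp0))

/-! ### The number of members of a free family -/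

/-- The powers of the values of the translates of `Δ_N` are combinations of the vectors
of translates of the members of a free family. -/
theorem IsFreeFamily.pow_mem_span (h : IsFreeFamily N κ g) (z : ℍ) (m : ℕ) :
    (fun q : Q N => tr (DeltaN N) q z ^ m) ∈ Submodule.span ℂ (Set.range (trVec g z)) := by
  obtain ⟨s, a, ha⟩ := h.span _ ((DeltaN N).pow m)
  have h1 : (fun q : Q N => tr (DeltaN N) q z ^ m) = ∑ i ∈ s, a i z • trVec g z i := by
    funext q
    rw [Finset.sum_apply]
    have := tr_eq_sum_of_eq_sum ((DeltaN N).pow m) s a ha q z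
    rw [tr_pow_eq_pow_tr] at this
    simpa [trVec] using this
  rw [h1]
  exact Submodule.sum_mem _ fun i _ => Submodule.smul_mem _ _ (Submodule.subset_span ⟨i, rfl⟩)

theorem IsFreeFamily.span_trVec_eq_top (h : IsFreeFamily N κ g) (z₁ : ℍ)
    (hz₁ : Function.Injective fun q : Q N => tr (DeltaN N) q z₁) :
    Submodule.span ℂ (Set.range (trVec g z₁)) = ⊤ := by
  classical
  rw [eq_top_iff]
  intro v _
  set x : Q N → ℂ := fun q => tr (DeltaN N) q z₁ with hx
  set P : Polynomial ℂ := Lagrange.interpolate Finset.univ x v with hP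
  have hv : v = ∑ m ∈ Finset.range (P.natDegree + 1), P.coeff m • (fun q : Q N => x q ^ m) := by
    funext q
    rw [Finset.sum_apply]
    have h1 : P.eval (x q) = v q :=
      Lagrange.eval_interpolate_at_node v hz₁.injOn (Finset.mem_univ q)
    rw [← h1, Polynomial.eval_eq_sum_range]
    rfl
  rw [hv]
  exact Submodule.sum_mem _ fun m _ => Submodule.smul_mem _ _ (h.pow_mem_span z₁ m)

theorem IsFreeFamily.card_eq (h : IsFreeFamily N κ g) : Nat.card ι = Nat.card (Q N) := by
  refine le_antisymm h.card_le ?_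
  obtain ⟨z₁, hz₁⟩ := exists_tr_DeltaN_injective N
  have : Finite ι := h.finite
  have : Fintype ι := Fintype.ofFinite ι
  have h1 := finrank_range_le_card (R := ℂ) (trVec g z₁)
  rw [Set.finrank, h.span_trVec_eq_top z₁ hz₁, finrank_top,
    Module.finrank_fintype_fun_eq_card] at h1
  rwa [Nat.card_eq_fintype_card, Nat.card_eq_fintype_card]

/-! ### Independence at every point -/

theorem isLevelOneMF_one_card : IsLevelOneMF 0 (fun _ : ℍ => (1 : ℂ)) :=
  ⟨1, fun z => by simp⟩

theorem isLevelOneMF_prod_card {α : Type*} (s : Finset α) {w : α → ℤ} {φ : α → ℍ → ℂ}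
    (h : ∀ i ∈ s, IsLevelOneMF (w i) (φ i)) :
    IsLevelOneMF (∑ i ∈ s, w i) (fun z => ∏ i ∈ s, φ i z) := by
  classical
  induction s using Finset.induction_on with
  | empty => simpa using isLevelOneMF_one_card
  | insert a s ha ih =>
    have h1 := (h a (Finset.mem_insert_self a s)).mul
      (ih fun i hi => h i (Finset.mem_insert_of_mem hi))
    exact h1.of_eq (Finset.sum_insert ha).symm fun z => by rw [Finset.prod_insert ha]

/-- The determinant of a matrix of level-one forms of weights `w i + w j` is a level-one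
form of weight `2 ∑ w i`. -/
theorem isLevelOneMF_det_card {α : Type*} [Fintype α] [DecidableEq α] {w : α → ℤ}
    (A : ℍ → Matrix α α ℂ) (hA : ∀ i j, IsLevelOneMF (w i + w j) (fun z => A z i j)) :
    IsLevelOneMF (2 * ∑ i, w i) (fun z => (A z).det) := by
  have h1 : ∀ σ : Equiv.Perm α, IsLevelOneMF (2 * ∑ i, w i)
      (fun z => ((Equiv.Perm.sign σ : ℤ) : ℂ) * ∏ i, A z (σ i) i) := by
    intro σ
    have h2 := (isLevelOneMF_prod_card Finset.univ (fun i _ => hA (σ i) i)).const_mul
      ((Equiv.Perm.sign σ : ℤ) : ℂ)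
    refine h2.of_eq ?_ (fun z => rfl)
    rw [Finset.sum_add_distrib, Equiv.sum_comp σ w]
    ring
  refine (IsLevelOneMF.sum Finset.univ (fun σ _ => h1 σ)).of_eq rfl (fun z => ?_)
  rw [Matrix.det_apply']

/-- The Gram sums of the translates of two forms on `Γ₀(N)` are level-one forms. -/
theorem isLevelOneMF_gram_card {k₁ k₂ : ℤ} (f₁ : ModularForm (Γ0 N) k₁)
    (f₂ : ModularForm (Γ0 N) k₂) :
    IsLevelOneMF (k₁ + k₂) (fun z => ∑ q : Q N, tr f₁ q z * tr f₂ q z) := by
  obtain ⟨F, hF⟩ := ((isEquivFamily_tr f₁).mul (isEquivFamily_tr f₂)).exists_sum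
  exact ⟨F, fun z => by rw [hF]; rfl⟩

/-- independence at every point of the upper half plane (Gram determinant is level one) -/
theorem IsFreeFamily.pointwise_indep (h : IsFreeFamily N κ g) (z₀ : ℍ) (s : Finset ι) (c : ι → ℂ)
    (hc : ∀ q : Q N, ∑ i ∈ s, c i * tr (g i) q z₀ = 0) : ∀ i ∈ s, c i = 0 := by
  classical
  have : Finite ι := h.finite
  have : Fintype ι := Fintype.ofFinite ι
  have hcard : Fintype.card ι = Fintype.card (Q N) := by
    rw [← Nat.card_eq_fintype_card, ← Nat.card_eq_fintype_card]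
    exact h.card_eq
  let e : ι ≃ Q N := Fintype.equivOfCardEq hcard
  -- the square matrix of the values of the translates
  let G : ℍ → Matrix ι ι ℂ := fun z i j => tr (g j) (e i) z
  have hGv : ∀ (z : ℍ) (v : ι → ℂ),
      (G z).mulVec v = 0 ↔ ∀ q : Q N, ∑ i, v i * tr (g i) q z = 0 := by
    intro z v
    constructor
    · intro hv q
      have h1 := congrFun hv (e.symm q)
      simp only [Matrix.mulVec, dotProduct, G, Equiv.apply_symm_apply, Pi.zero_apply] at h1
      rw [← h1]
      exact Finset.sum_congr rfl fun i _ => mul_comm _ _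
    · intro hv
      funext i
      have h1 := hv (e i)
      simp only [Matrix.mulVec, dotProduct, G, Pi.zero_apply]
      rw [← h1]
      exact Finset.sum_congr rfl fun i _ => mul_comm _ _
  have hdet_of_indep : ∀ z : ℍ,
      (∀ v : ι → ℂ, (∀ q : Q N, ∑ i, v i * tr (g i) q z = 0) → ∀ i, v i = 0) →
        (G z).det ≠ 0 := by
    intro z hz hdet
    obtain ⟨v, hv0, hv⟩ := Matrix.exists_mulVec_eq_zero_iff.mpr hdet
    exact hv0 (funext fun i => hz v ((hGv z v).mp hv) i)
  -- the Gram determinant is a level-one form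
  obtain ⟨F, hF⟩ : IsLevelOneMF (2 * ∑ i, κ i) (fun z => ((G z).transpose * G z).det) := by
    refine isLevelOneMF_det_card (fun z => (G z).transpose * G z) (fun i j => ?_)
    refine (isLevelOneMF_gram_card (g i) (g j)).of_eq rfl (fun z => ?_)
    simp only [Matrix.mul_apply, Matrix.transpose_apply, G]
    exact Equiv.sum_comp e (fun q => tr (g i) q z * tr (g j) q z)
  have hFz : ∀ z : ℍ, F z = (G z).det ^ 2 := by
    intro z
    rw [hF]
    show ((G z).transpose * G z).det = (G z).det ^ 2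
    rw [Matrix.det_mul, Matrix.det_transpose, sq]
  have hgood : (G z₀).det ≠ 0 := by
    by_cases h4 : E₄ z₀ = 0
    · have hJ : Jfun z₀ = Jfun ptRho := by rw [(Jfun_eq_zero_iff z₀).mpr h4, Jfun_ptRho]
      intro hdet
      have h0 : F z₀ = 0 := by rw [hFz, hdet]; simp
      have h1 := levelOne_eq_zero_of_Jfun_eq F hJ h0
      rw [hFz] at h1
      exact hdet_of_indep ptRho
        (fun v hv i => h.indep_ptRho Finset.univ v hv i (Finset.mem_univ i))
        ((pow_eq_zero_iff two_ne_zero).mp h1)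
    · by_cases h6 : E₆ z₀ = 0
      · have hJ : Jfun z₀ = Jfun ptI := by rw [(Jfun_eq_1728_iff z₀).mpr h6, Jfun_ptI]
        intro hdet
        have h0 : F z₀ = 0 := by rw [hFz, hdet]; simp
        have h1 := levelOne_eq_zero_of_Jfun_eq F hJ h0
        rw [hFz] at h1
        exact hdet_of_indep ptI
          (fun v hv i => h.indep_ptI Finset.univ v hv i (Finset.mem_univ i))
          ((pow_eq_zero_iff two_ne_zero).mp h1)
      · exact hdet_of_indep z₀
          (fun v hv i => h.indep_generic z₀ h4 h6 Finset.univ v hv i (Finset.mem_univ i))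
  -- conclusion
  intro i hi
  let c' : ι → ℂ := fun i => if i ∈ s then c i else 0
  have hc' : (G z₀).mulVec c' = 0 := by
    rw [hGv]
    intro q
    rw [← hc q]
    simp only [c', ite_mul, zero_mul]
    rw [Finset.sum_ite_mem]
    simp
  have h1 := congrFun (Matrix.eq_zero_of_mulVec_eq_zero hgood hc') i
  simpa [c', hi] using h1

end Fermat.Agent.S20
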