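import Fermat.Agent.S24.CombCount
import Fermat.Agent.S20.FDefs

/-!
# P8-COMB bridge: the combinatorics of `Γ₀(N)`-cosets transported to `S23`'s model `Q N`

`Q N = 𝒮ℒ ⧸ (Γ₀(N)).subgroupOf 𝒮ℒ` with the left action of `𝒮ℒ` is equivariantly in bijection with
`XX N = SL(2,ℤ) ⧸ Γ₀(N)`.
-/

set_option autoImplicit false

namespace Fermat.Agent.S20

open scoped MatrixGroups

open Matrix.SpecialLinearGroup ModularGroup

open Fermat.Agent.S23 (Q Γ0 slElt)

open Fermat.Agent.S24 (XX orbitCount)

theorem slElt_mul (g h : SL(2, ℤ)) : slElt (g * h) = slElt g * slElt h :=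
  map_mul ((mapGL ℝ : SL(2, ℤ) →* GL (Fin 2) ℝ).rangeRestrict) g h

theorem slElt_inv (g : SL(2, ℤ)) : slElt g⁻¹ = (slElt g)⁻¹ :=
  map_inv ((mapGL ℝ : SL(2, ℤ) →* GL (Fin 2) ℝ).rangeRestrict) g

theorem slElt_zpow (g : SL(2, ℤ)) (k : ℤ) : slElt (g ^ k) = slElt g ^ k :=
  map_zpow ((mapGL ℝ : SL(2, ℤ) →* GL (Fin 2) ℝ).rangeRestrict) g k

theorem slElt_injective : Function.Injective slElt := by
  intro g h hgh
  have := congrArg (Subtype.val) hgh
  exact mapGL_injective this

theorem slElt_surjective : Function.Surjective slElt := fun h => Fermat.Agent.S23.exists_slElt_eq h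

/-- `slElt` as an equivalence. -/
noncomputable def slEquiv : SL(2, ℤ) ≃ 𝒮ℒ := Equiv.ofBijective slElt ⟨slElt_injective, slElt_surjective⟩

@[simp] theorem slEquiv_apply (g : SL(2, ℤ)) : slEquiv g = slElt g := rfl

theorem slElt_mem_iff (N : ℕ) (g : SL(2, ℤ)) :
    slElt g ∈ (Γ0 N).subgroupOf 𝒮ℒ ↔ g ∈ CongruenceSubgroup.Gamma0 N := by
  rw [Subgroup.mem_subgroupOf]
  constructor
  · rintro ⟨h, hh, hgh⟩
    have : h = g := mapGL_injective hgh
    rwa [← this]
  · intro hg
    exact ⟨g, hg, rfl⟩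

/-- The equivariant bijection between the two coset models. -/
noncomputable def xxEquivQ (N : ℕ) : XX N ≃ Q N :=
  Quotient.congr slEquiv (by
    intro a b
    rw [QuotientGroup.leftRel_apply, QuotientGroup.leftRel_apply, slEquiv_apply, slEquiv_apply,
      ← slElt_inv, ← slElt_mul, slElt_mem_iff])

theorem xxEquivQ_mk (N : ℕ) (g : SL(2, ℤ)) :
    xxEquivQ N ((g : SL(2, ℤ)) : XX N) = ((slElt g : 𝒮ℒ) : Q N) := rfl

theorem xxEquivQ_smul (N : ℕ) (g : SL(2, ℤ)) (x : XX N) :
    xxEquivQ N (g • x) = slElt g • xxEquivQ N x := by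
  induction x using QuotientGroup.induction_on with
  | H a =>
    show xxEquivQ N (((g * a : SL(2, ℤ))) : XX N) = slElt g • ((slElt a : 𝒮ℒ) : Q N)
    rw [xxEquivQ_mk, slElt_mul]
    rfl

/-- Transport of permutations along an equivalence preserves the number of orbits. -/
theorem orbitCount_congr {α β : Type*} (e : α ≃ β) (σ : Equiv.Perm α) (τ : Equiv.Perm β)
    (h : ∀ x, e (σ x) = τ (e x)) : orbitCount σ = orbitCount τ := by
  have hpow : ∀ (k : ℤ) (x : α), e ((σ ^ k) x) = (τ ^ k) (e x) := by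
    have hτ : τ = (e.symm.trans σ).trans e := by
      ext y
      simp [h]
    intro k x
    have h2 : τ ^ k = (e.symm.trans (σ ^ k)).trans e := by
      rw [hτ]
      induction k with
      | zero => ext y; simp
      | succ n ih =>
        rw [zpow_add_one, ih, zpow_add_one]
        ext y
        simp
      | pred n ih =>
        rw [zpow_sub_one, ih, zpow_sub_one]
        ext y
        simp
    rw [h2]
    simp
  unfold orbitCount
  refine Nat.card_congr (Quotient.congr e ?_)
  intro a b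
  show σ.SameCycle a b ↔ τ.SameCycle (e a) (e b)
  constructor
  · rintro ⟨k, hk⟩
    exact ⟨k, by rw [← hpow, hk]⟩
  · rintro ⟨k, hk⟩
    exact ⟨k, e.injective (by rw [hpow, hk])⟩

theorem orbitCount_slElt (N : ℕ) (g : SL(2, ℤ)) :
    orbitCount (MulAction.toPerm (slElt g) : Equiv.Perm (Q N))
      = orbitCount (MulAction.toPerm g : Equiv.Perm (XX N)) :=
  (orbitCount_congr (xxEquivQ N) _ _ (fun x => xxEquivQ_smul N g x)).symm

/-- The orbits of `h⁻¹` are those of `h`. -/
theorem orbitCount_inv {α : Type*} (σ : Equiv.Perm α) : orbitCount σ⁻¹ = orbitCount σ := by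
  unfold orbitCount
  refine Nat.card_congr (Quotient.congr (Equiv.refl α) ?_)
  intro a b
  exact Equiv.Perm.sameCycle_inv

theorem orbCount_eq_orbitCount {α : Type*} (σ : Equiv.Perm α) : orbCount σ = orbitCount σ := rfl

theorem orbCount_permQ (N : ℕ) (g : SL(2, ℤ)) :
    orbCount (permQ N g) = orbitCount (MulAction.toPerm g : Equiv.Perm (XX N)) :=
  orbitCount_slElt N g

variable (N : ℕ) [NeZero N]

theorem card_Q : Nat.card (Q N) = ModularCurve.dedekindPsi N := by
  rw [← Nat.card_congr (xxEquivQ N), Fermat.Agent.S24.card_XX]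

theorem two_mul_orbCount_S :
    2 * orbCount (permQ N ModularGroup.S) = ModularCurve.dedekindPsi N + ModularCurve.nuTwo N := by
  rw [orbCount_permQ, Fermat.Agent.S24.two_mul_orbitCount_S]

theorem three_mul_orbCount_ST :
    3 * orbCount (permQ N (ModularGroup.S * ModularGroup.T)) =
      ModularCurve.dedekindPsi N + 2 * ModularCurve.nuThree N := by
  rw [orbCount_permQ, Fermat.Agent.S24.three_mul_orbitCount_ST]

theorem orbCount_T :
    orbCount (permQ N ModularGroup.T) = ModularCurve.cuspCount N := by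
  rw [orbCount_permQ, Fermat.Agent.S24.orbitCount_T]

omit [NeZero N] in
theorem card_fixed_slElt (g : SL(2, ℤ)) :
    Nat.card {q : Q N // slElt g • q = q} = Nat.card {x : XX N // g • x = x} := by
  symm
  refine Nat.card_congr ((xxEquivQ N).subtypeEquiv ?_)
  intro x
  rw [← xxEquivQ_smul, (xxEquivQ N).apply_eq_iff_eq]

theorem card_fixed_S_Q : Nat.card {q : Q N // slElt S • q = q} = ModularCurve.nuTwo N := by
  rw [card_fixed_slElt, Fermat.Agent.S24.card_fixed_S]

theorem card_fixed_ST_Q :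
    Nat.card {q : Q N // slElt (S * T) • q = q} = ModularCurve.nuThree N := by
  rw [card_fixed_slElt, Fermat.Agent.S24.card_fixed_ST]

omit [NeZero N] in
theorem neg_one_smul_Q (q : Q N) : slElt (-1) • q = q := by
  obtain ⟨x, rfl⟩ := (xxEquivQ N).surjective q
  rw [← xxEquivQ_smul, Fermat.Agent.S24.neg_one_smul_XX]

end Fermat.Agent.S20
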