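import Mathlib
import Fermat.Agent.S20.FDefs
import Fermat.Prelude.Thm_ModularForm_sturm_bound_Gamma0
import Fermat.Prelude.Thm_CongruenceSubgroup_one_mem_strictPeriods_Gamma0

/-!
P8 / FREE (cusp part, `Bundle` interface): linearity of the translates `tr`, translates of a
cusp form viewed as a modular form, and finite-dimensionality of `M_k(Γ₀(N))` (Sturm bound).
-/

set_option autoImplicit false

namespace Fermat.Agent.S20

open UpperHalfPlane ModularForm EisensteinSeries Filter Topology Matrix.SpecialLinearGroup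
open Fermat.Agent.S23 Fermat.Agent.S24
open scoped MatrixGroups Manifold

section
variable {N : ℕ} {κ : ℤ}

theorem tr_add' (f g : ModularForm (Γ0 N) κ) (q : Q N) : tr (f + g) q = tr f q + tr g q := by
  induction q using Quotient.inductionOn with
  | h r =>
    show (⇑(f + g) : ℍ → ℂ) ∣[κ] (r : GL (Fin 2) ℝ)⁻¹
      = (f : ℍ → ℂ) ∣[κ] (r : GL (Fin 2) ℝ)⁻¹ + (g : ℍ → ℂ) ∣[κ] (r : GL (Fin 2) ℝ)⁻¹
    rw [FunLike.coe_add, SlashAction.add_slash]

theorem tr_smul' (c : ℂ) (f : ModularForm (Γ0 N) κ) (q : Q N) : tr (c • f) q = c • tr f q := by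
  induction q using Quotient.inductionOn with
  | h r =>
    obtain ⟨γ, rfl⟩ := exists_slElt_eq r
    show (⇑(c • f) : ℍ → ℂ) ∣[κ] (mapGL ℝ γ)⁻¹ = c • ((f : ℍ → ℂ) ∣[κ] (mapGL ℝ γ)⁻¹)
    rw [← map_inv, FunLike.coe_smul]
    exact ModularForm.SL_smul_slash κ γ⁻¹ (f : ℍ → ℂ) c

theorem tr_cuspForm_coe (f : CuspForm (Γ0 N) κ) (F : ModularForm (Γ0 N) κ)
    (h : (F : ℍ → ℂ) = f) (q : Q N) : tr F q = tr f q := by
  induction q using Quotient.inductionOn with
  | h r =>
    show (F : ℍ → ℂ) ∣[κ] (r : GL (Fin 2) ℝ)⁻¹ = (f : ℍ → ℂ) ∣[κ] (r : GL (Fin 2) ℝ)⁻¹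
    rw [h]

end

/-- The `n`-th `q`-expansion coefficient as a linear functional on modular forms on `Γ₀(N)`. -/
noncomputable def mfCoeffL (N : ℕ) (k : ℤ) (n : ℕ) : ModularForm (Γ0 N) k →ₗ[ℂ] ℂ where
  toFun f := (qExpansion 1 f).coeff n
  map_add' f g := by
    rw [FunLike.coe_add,
      ModularForm.qExpansion_add one_pos (CongruenceSubgroup.one_mem_strictPeriods_Gamma0 N) f g,
      map_add]
  map_smul' c f := by
    rw [FunLike.coe_smul,
      ModularForm.qExpansion_smul one_pos (CongruenceSubgroup.one_mem_strictPeriods_Gamma0 N) c f]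
    simp

theorem mfCoeffL_apply (N : ℕ) (k : ℤ) (n : ℕ) (f : ModularForm (Γ0 N) k) :
    mfCoeffL N k n f = (qExpansion 1 f).coeff n := rfl

theorem finite_modularForm (N : ℕ) [NeZero N] (k : ℤ) :
    Module.Finite ℂ (ModularForm (Γ0 N) k) := by
  let B := (k * (CongruenceSubgroup.Gamma0 N).index).toNat / 12
  let cf : ModularForm (Γ0 N) k →ₗ[ℂ] (Fin (B + 1) → ℂ) :=
    LinearMap.pi fun i => mfCoeffL N k i
  have hinj : Function.Injective cf := by
    refine (injective_iff_map_eq_zero _).mpr fun f hf ↦ ?_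
    refine ModularForm.sturm_bound_Gamma0 N f fun n hn => ?_
    have := congrFun hf ⟨n, Nat.lt_succ_of_le hn⟩
    simpa [cf, mfCoeffL_apply] using this
  exact FiniteDimensional.of_injective cf hinj

end Fermat.Agent.S20
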