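import Mathlib
import Fermat.Agent.S20.FDefs
import Fermat.Agent.S20.Elliptic

/-!
P8 / FREE (cusp part): translation properties of an equivariant family on the cosets of
`Γ₀(N)` in `SL(2, ℤ)`: translation by `1` permutes the members by `T`, every member is
`N`-periodic and has a limit at `i∞`.
-/

set_option autoImplicit false

namespace Fermat.Agent.S20

open UpperHalfPlane ModularForm EisensteinSeries Filter Topology
open Fermat.Agent.S23 Fermat.Agent.S24
open scoped MatrixGroups Manifold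

variable {N : ℕ} [NeZero N] {κ : ℤ}

omit [NeZero N] in
/-- translation by `1` permutes the family by `T` -/
theorem ef_vadd_one {ψ : Q N → ℍ → ℂ} (h : IsEquivFamily N κ ψ) (q : Q N) (z : ℍ) :
    ψ q ((1 : ℝ) +ᵥ z) = ψ ((permQ N ModularGroup.T)⁻¹ q) z := by
  have h1 := congrFun (h.slash_SL ModularGroup.T q) z
  rw [SL_slash_apply, modular_T_smul] at h1
  have hden : denom (ModularGroup.T : SL(2, ℤ)) z = 1 := by
    simp [denom, ModularGroup.T]
  rw [hden, one_zpow, mul_one] at h1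
  exact h1

omit [NeZero N] in
theorem ef_vadd_nat {ψ : Q N → ℍ → ℂ} (h : IsEquivFamily N κ ψ) (l : ℕ) (q : Q N) (z : ℍ) :
    ψ q ((l : ℝ) +ᵥ z) = ψ (((permQ N ModularGroup.T) ^ l)⁻¹ q) z := by
  induction l generalizing q with
  | zero => simp
  | succ l ih =>
    have h1 : (((l + 1 : ℕ) : ℝ) +ᵥ z : ℍ) = (1 : ℝ) +ᵥ ((l : ℝ) +ᵥ z) := by
      rw [vadd_vadd]
      push_cast
      rw [add_comm]
    rw [h1, ef_vadd_one h, ih, pow_succ', mul_inv_rev, Equiv.Perm.mul_apply]

omit [NeZero N] in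
theorem permQ_T_pow_level (q : Q N) : ((permQ N ModularGroup.T) ^ N) q = q := by
  rw [← permQ_pow, permQ_apply]
  obtain ⟨g, rfl⟩ := QuotientGroup.mk_surjective q
  obtain ⟨γ, rfl⟩ := exists_slElt_eq g
  rw [MulAction.Quotient.smul_mk]
  refine (QuotientGroup.eq.mpr ?_).symm
  rw [Subgroup.mem_subgroupOf]
  have hT : (ModularGroup.T ^ N : SL(2, ℤ)) ∈ CongruenceSubgroup.Gamma N := by
    have := CongruenceSubgroup.ModularGroup_T_pow_mem_Gamma (N : ℤ) (N : ℤ) dvd_rfl
    rwa [zpow_natCast, Int.natAbs_natCast] at this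
  have hconj : γ⁻¹ * (ModularGroup.T ^ N) * γ ∈ CongruenceSubgroup.Gamma N := by
    have := (CongruenceSubgroup.Gamma_normal (N := N)).conj_mem _ hT γ⁻¹
    rwa [inv_inv] at this
  have h0 : γ⁻¹ * (ModularGroup.T ^ N) * γ ∈ CongruenceSubgroup.Gamma0 N := by
    rw [CongruenceSubgroup.Gamma_mem] at hconj
    rw [CongruenceSubgroup.Gamma0_mem]
    exact hconj.2.2.1
  refine ⟨γ⁻¹ * (ModularGroup.T ^ N) * γ, h0, ?_⟩
  simp [slElt, mul_assoc]

omit [NeZero N] in
/-- every member of an equivariant family is `N`-periodic -/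
theorem ef_periodic {ψ : Q N → ℍ → ℂ} (h : IsEquivFamily N κ ψ) (q : Q N) :
    Function.Periodic (ψ q ∘ ofComplex) (N : ℝ) := by
  intro w
  by_cases hw : 0 < w.im
  · have hw' : 0 < (w + ((N : ℝ) : ℂ)).im := by simpa using hw
    simp only [Function.comp_apply, ofComplex_apply_of_im_pos hw', ofComplex_apply_of_im_pos hw]
    have h1 : (⟨w + ((N : ℝ) : ℂ), hw'⟩ : ℍ) = (N : ℝ) +ᵥ (⟨w, hw⟩ : ℍ) := by
      ext
      simp [add_comm]
    rw [h1, ef_vadd_nat h]
    congr 1
    rw [Equiv.Perm.inv_eq_iff_eq]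
    exact (permQ_T_pow_level q).symm
  · have hw0 : w.im ≤ 0 := not_lt.mp hw
    have hw' : (w + ((N : ℝ) : ℂ)).im ≤ 0 := by simpa using hw0
    show ψ q (ofComplex (w + ((N : ℝ) : ℂ))) = ψ q (ofComplex w)
    rw [ofComplex_apply_of_im_nonpos hw', ofComplex_apply_of_im_nonpos hw0]

/-- every member of an equivariant family has a limit at `i∞` -/
theorem ef_tendsto {ψ : Q N → ℍ → ℂ} (h : IsEquivFamily N κ ψ) (q : Q N) :
    Tendsto (ψ q) atImInfty (𝓝 (valueAtInfty (ψ q))) := by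
  have hh : (0 : ℝ) < N := Nat.cast_pos.mpr (NeZero.pos N)
  have hper := ef_periodic h q
  have han := analyticAt_cuspFunction_zero hh hper (h.holo q) (h.bdd q)
  have h1 : (cuspFunction (N : ℝ) (ψ q) ∘
      fun τ : ℍ => Function.Periodic.qParam (N : ℝ) τ : ℍ → ℂ) = ψ q := by
    funext τ
    simpa using eq_cuspFunction τ hh.ne' hper
  have h2 := han.continuousAt.tendsto.comp (qParam_tendsto_atImInfty hh)
  rw [h1, cuspFunction_apply_zero hh han hper] at h2
  exact h2

end Fermat.Agent.S20
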