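import Fermat.Agent.S20.FDefs
import Fermat.Agent.S20.BundleFin
import Fermat.Agent.S20.BundlePer

/-!
P8 / FREE (cusp part): equivariant families are exactly the families of translates of modular
forms on `Γ₀(N)`; basic closure properties of equivariant families.
(The remaining statements of the `Bundle` interface live in `S20/BundlePer.lean` and
`S20/BundleFin.lean`, both imported here.)
-/

set_option autoImplicit false

namespace Fermat.Agent.S20

open UpperHalfPlane ModularForm EisensteinSeries Filter Topology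
open Fermat.Agent.S23 Fermat.Agent.S24
open scoped MatrixGroups Manifold

section Bundle
variable {N : ℕ} [NeZero N] {κ : ℤ}

omit [NeZero N] in
/-- the member of an equivariant family at the trivial coset is invariant under `Γ₀(N)` -/
theorem ef_slash_mem {ψ : Q N → ℍ → ℂ} (h : IsEquivFamily N κ ψ) {γ : GL (Fin 2) ℝ}
    (hγ : γ ∈ Γ0 N) :
    ψ (QuotientGroup.mk 1) ∣[κ] γ = ψ (QuotientGroup.mk 1) := by
  have hγ' : γ ∈ 𝒮ℒ := by
    obtain ⟨γ', -, rfl⟩ := hγ
    exact ⟨γ', rfl⟩
  have h1 := h.slash ⟨γ, hγ'⟩ (QuotientGroup.mk 1)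
  rw [show ((⟨γ, hγ'⟩ : 𝒮ℒ) : GL (Fin 2) ℝ) = γ from rfl] at h1
  rw [h1, MulAction.Quotient.smul_mk]
  congr 1
  refine QuotientGroup.eq.mpr ?_
  simp only [smul_eq_mul, mul_one, inv_inv, Subgroup.mem_subgroupOf]
  exact hγ

omit [NeZero N] in
theorem ef_slash_SL_one {ψ : Q N → ℍ → ℂ} (h : IsEquivFamily N κ ψ) (g : 𝒮ℒ) :
    ψ (QuotientGroup.mk 1) ∣[κ] (g : GL (Fin 2) ℝ)⁻¹ = ψ (QuotientGroup.mk g) := by
  have h1 := h.slash g⁻¹ (QuotientGroup.mk 1)
  rw [inv_inv, MulAction.Quotient.smul_mk, smul_eq_mul, mul_one] at h1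
  rw [← h1]
  rfl

/-- an equivariant family is the family of translates of a modular form on `Γ₀(N)` -/
theorem ef_exists_modularForm {ψ : Q N → ℍ → ℂ} (h : IsEquivFamily N κ ψ) :
    ∃ F : ModularForm (Γ0 N) κ, tr F = ψ := by
  refine ⟨{ toFun := ψ (QuotientGroup.mk 1)
            slash_action_eq' := fun γ hγ => ef_slash_mem h hγ
            holo' := h.holo _
            bdd_at_cusps' := ?_ }, ?_⟩
  · intro c hc
    rw [Subgroup.IsArithmetic.isCusp_iff_isCusp_SL2Z] at hc
    rw [OnePoint.isBoundedAt_iff_forall_SL2Z hc]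
    intro γ _
    show IsBoundedAtImInfty (ψ (QuotientGroup.mk 1) ∣[κ] γ)
    rw [h.slash_SL γ]
    exact h.bdd _
  · funext q
    induction q using QuotientGroup.induction_on with
    | H g =>
      rw [tr_mk]
      exact ef_slash_SL_one h g

/-- an equivariant family vanishing at `i∞` is the family of translates of a cusp form -/
theorem ef_exists_cuspForm {ψ : Q N → ℍ → ℂ} (h : IsEquivFamily N κ ψ)
    (hz : ∀ q, IsZeroAtImInfty (ψ q)) : ∃ F : CuspForm (Γ0 N) κ, tr F = ψ := by
  refine ⟨{ toFun := ψ (QuotientGroup.mk 1)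
            slash_action_eq' := fun γ hγ => ef_slash_mem h hγ
            holo' := h.holo _
            zero_at_cusps' := ?_ }, ?_⟩
  · intro c hc
    rw [Subgroup.IsArithmetic.isCusp_iff_isCusp_SL2Z] at hc
    rw [OnePoint.isZeroAt_iff_forall_SL2Z hc]
    intro γ _
    show IsZeroAtImInfty (ψ (QuotientGroup.mk 1) ∣[κ] γ)
    rw [h.slash_SL γ]
    exact hz _
  · funext q
    induction q using QuotientGroup.induction_on with
    | H g =>
      rw [tr_mk]
      exact ef_slash_SL_one h g

omit [NeZero N] in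
theorem ef_zero : IsEquivFamily N κ (fun _ : Q N => (0 : ℍ → ℂ)) where
  slash _ _ := SlashAction.zero_slash κ _
  holo _ := mdifferentiable_const
  bdd _ := Filter.const_boundedAtFilter _ (0 : ℂ)

omit [NeZero N] in
theorem ef_add {ψ₁ ψ₂ : Q N → ℍ → ℂ} (h₁ : IsEquivFamily N κ ψ₁) (h₂ : IsEquivFamily N κ ψ₂) :
    IsEquivFamily N κ (fun q => ψ₁ q + ψ₂ q) where
  slash h q := by
    show (ψ₁ q + ψ₂ q) ∣[κ] (h : GL (Fin 2) ℝ) = _
    rw [SlashAction.add_slash, h₁.slash, h₂.slash]
  holo q := (h₁.holo q).add (h₂.holo q)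
  bdd q := (h₁.bdd q).add (h₂.bdd q)

omit [NeZero N] in
theorem ef_smul (c : ℂ) {ψ : Q N → ℍ → ℂ} (h : IsEquivFamily N κ ψ) :
    IsEquivFamily N κ (fun q => c • ψ q) where
  slash g q := by
    obtain ⟨γ, rfl⟩ := exists_slElt_eq g
    show (c • ψ q) ∣[κ] γ = _
    rw [ModularForm.SL_smul_slash, h.slash_SL]
  holo q := (h.holo q).const_smul c
  bdd q := (h.bdd q).const_smul_left c

omit [NeZero N] in
theorem ef_sum {α : Type*} (s : Finset α) (ψ : α → Q N → ℍ → ℂ)
    (h : ∀ i ∈ s, IsEquivFamily N κ (ψ i)) : IsEquivFamily N κ (fun q => ∑ i ∈ s, ψ i q) := by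
  classical
  induction s using Finset.induction_on with
  | empty =>
    simp only [Finset.sum_empty]
    exact ef_zero
  | insert a s ha ih =>
    have h1 : (fun q => ∑ i ∈ insert a s, ψ i q) = fun q => ψ a q + ∑ i ∈ s, ψ i q := by
      funext q
      rw [Finset.sum_insert ha]
    rw [h1]
    exact ef_add (h a (Finset.mem_insert_self a s))
      (ih fun i hi => h i (Finset.mem_insert_of_mem hi))

omit [NeZero N] in
/-- a level-one form, as a constant family -/
theorem ef_levelOne (a : ModularForm 𝒮ℒ κ) : IsEquivFamily N κ (fun _ : Q N => (a : ℍ → ℂ)) where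
  slash h _ := SlashInvariantForm.slash_action_eqn a h h.2
  holo _ := ModularFormClass.holo a
  bdd _ := ModularFormClass.bdd_at_infty a

end Bundle

end Fermat.Agent.S20
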