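import Mathlib
import Fermat.Agent.S20.Bundle
import Fermat.Agent.S20.BundleFin

/-!
P8 / FREE: the constant terms at the cusps of the weight two modular forms on `Γ₀(N)`.
The vector of constant terms `(lim_{z → i∞} tr f q z)_q` of a weight two form is invariant
under `T` and has total sum zero (the sum of all translates is a level one form of weight two,
hence zero), and a form all of whose constant terms vanish is a cusp form. Hence
`dim M₂(Γ₀(N)) + 1 ≤ dim S₂(Γ₀(N)) + #(orbits of T)`.
-/

set_option autoImplicit false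

namespace Fermat.Agent.S20

open UpperHalfPlane ModularForm Filter Topology
open Fermat.Agent.S23
open scoped MatrixGroups Manifold

namespace ConstTerm

variable (N : ℕ) [NeZero N]

/-- Translation by `1` permutes the translates by `T`. -/
theorem tr_vadd_one (f : ModularForm (Γ0 N) 2) (q : Q N) (z : ℍ) :
    tr f q ((1 : ℝ) +ᵥ z) = tr f ((permQ N ModularGroup.T)⁻¹ q) z := by
  have h := (isEquivFamily_tr f).slash_SL ModularGroup.T q
  have h1 := congrFun h z
  rw [ModularForm.SL_slash_apply, UpperHalfPlane.modular_T_smul] at h1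
  have h10 : ((ModularGroup.T : SL(2, ℤ)) : Matrix (Fin 2) (Fin 2) ℤ) 1 0 = 0 := by
    simp [ModularGroup.T]
  have h11 : ((ModularGroup.T : SL(2, ℤ)) : Matrix (Fin 2) (Fin 2) ℤ) 1 1 = 1 := by
    simp [ModularGroup.T]
  have hd : denom (ModularGroup.T : SL(2, ℤ)) z = 1 := by
    rw [ModularGroup.denom_apply, h10, h11]
    simp
  rw [hd, one_zpow, mul_one] at h1
  rw [h1]
  rfl

theorem tr_vadd_nat (f : ModularForm (Γ0 N) 2) (n : ℕ) (q : Q N) (z : ℍ) :
    tr f q ((n : ℝ) +ᵥ z) = tr f (((permQ N ModularGroup.T)⁻¹ ^ n) q) z := by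
  induction n generalizing q with
  | zero =>
    have : ((0 : ℕ) : ℝ) +ᵥ z = z := by
      ext
      simp
    rw [this]
    rfl
  | succ n ih =>
    have : ((n + 1 : ℕ) : ℝ) +ᵥ z = (1 : ℝ) +ᵥ ((n : ℝ) +ᵥ z) := by
      ext
      simp
      ring
    rw [this, tr_vadd_one, ih, pow_succ]
    rfl

/-- Every translate is periodic. -/
theorem exists_period (f : ModularForm (Γ0 N) 2) (q : Q N) :
    ∃ h : ℝ, 0 < h ∧ Function.Periodic (tr f q ∘ ofComplex) (h : ℂ) := by
  set σ := (permQ N ModularGroup.T)⁻¹ with hσ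
  have hpos : 0 < orderOf σ := orderOf_pos σ
  refine ⟨(orderOf σ : ℝ), by exact_mod_cast hpos, ?_⟩
  have hper : ∀ τ : ℍ, tr f q (((orderOf σ : ℕ) : ℝ) +ᵥ τ) = tr f q τ := by
    intro τ
    rw [tr_vadd_nat, ← hσ, pow_orderOf_eq_one]
    rfl
  intro x
  by_cases hx : 0 < x.im
  · have hx' : 0 < (x + ((orderOf σ : ℝ) : ℂ)).im := by simpa using hx
    simp only [Function.comp_apply, ofComplex_apply_of_im_pos hx', ofComplex_apply_of_im_pos hx]
    rw [← hper ⟨x, hx⟩]
    congr 1
    ext
    simp [add_comm]
  · have hx0 : x.im ≤ 0 := not_lt.mp hx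
    have hx' : (x + ((orderOf σ : ℝ) : ℂ)).im ≤ 0 := by simpa using hx0
    simp only [Function.comp_apply]
    rw [ofComplex_apply_of_im_nonpos hx', ofComplex_apply_of_im_nonpos hx0]

/-- The limit at `i∞` of a translate. -/
theorem tendsto_tr (f : ModularForm (Γ0 N) 2) (q : Q N) :
    Tendsto (tr f q) atImInfty (𝓝 (valueAtInfty (tr f q))) := by
  obtain ⟨h, hh, hper⟩ := exists_period N f q
  have hhol := (isEquivFamily_tr f).holo q
  have hbdd := (isEquivFamily_tr f).bdd q
  have han := analyticAt_cuspFunction_zero hh hper hhol hbdd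
  have h0 := cuspFunction_apply_zero hh han hper
  have hcomp : (cuspFunction h (tr f q) ∘ fun τ : ℍ => Function.Periodic.qParam h τ)
      = tr f q := by
    funext τ
    simpa using eq_cuspFunction τ hh.ne' hper
  rw [← h0]
  have := han.continuousAt.tendsto.comp (qParam_tendsto_atImInfty hh)
  rwa [hcomp] at this

theorem valueAtInfty_eq {φ : ℍ → ℂ} {L : ℂ} (h : Tendsto φ atImInfty (𝓝 L)) :
    valueAtInfty φ = L :=
  h.limUnder_eq

/-- The constant term map. -/
noncomputable def constTerm : ModularForm (Γ0 N) 2 →ₗ[ℂ] (Q N → ℂ) where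
  toFun f q := valueAtInfty (tr f q)
  map_add' f g := by
    funext q
    show valueAtInfty (tr (f + g) q) = valueAtInfty (tr f q) + valueAtInfty (tr g q)
    rw [tr_add']
    exact valueAtInfty_eq ((tendsto_tr N f q).add (tendsto_tr N g q))
  map_smul' c f := by
    funext q
    show valueAtInfty (tr (c • f) q) = c • valueAtInfty (tr f q)
    rw [tr_smul']
    exact valueAtInfty_eq ((tendsto_tr N f q).const_smul c)

theorem constTerm_apply (f : ModularForm (Γ0 N) 2) (q : Q N) :
    constTerm N f q = valueAtInfty (tr f q) := rfl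

theorem tendsto_vadd_one : Tendsto (fun z : ℍ => (1 : ℝ) +ᵥ z) atImInfty atImInfty := by
  rw [atImInfty, tendsto_comap_iff]
  have : (UpperHalfPlane.im ∘ fun z : ℍ => (1 : ℝ) +ᵥ z) = UpperHalfPlane.im := by
    funext z
    simp [UpperHalfPlane.vadd_im]
  rw [this]
  exact tendsto_comap

/-- The constant terms are invariant under `T`. -/
theorem constTerm_permQ_T (f : ModularForm (Γ0 N) 2) (q : Q N) :
    constTerm N f ((permQ N ModularGroup.T)⁻¹ q) = constTerm N f q := by
  rw [constTerm_apply, constTerm_apply]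
  apply valueAtInfty_eq
  have h1 : Tendsto (fun z : ℍ => tr f q ((1 : ℝ) +ᵥ z)) atImInfty
      (𝓝 (valueAtInfty (tr f q))) := (tendsto_tr N f q).comp tendsto_vadd_one
  refine h1.congr fun z => ?_
  exact tr_vadd_one N f q z

/-- The constant terms sum to zero. -/
theorem sum_constTerm (f : ModularForm (Γ0 N) 2) : ∑ q, constTerm N f q = 0 := by
  obtain ⟨F, hF⟩ := (isEquivFamily_tr f).exists_sum
  have hF0 : F = 0 := rank_zero_iff_forall_zero.mp ModularForm.levelOne_weight_two_rank_zero F
  have h0 : ∀ z : ℍ, ∑ q, tr f q z = 0 := by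
    intro z
    rw [← hF z, hF0]
    rfl
  have h1 : Tendsto (fun z : ℍ => ∑ q, tr f q z) atImInfty (𝓝 (∑ q, constTerm N f q)) :=
    tendsto_finsetSum _ fun q _ => tendsto_tr N f q
  have h2 : Tendsto (fun z : ℍ => ∑ q, tr f q z) atImInfty (𝓝 0) := by
    simp_rw [h0]
    exact tendsto_const_nhds
  exact tendsto_nhds_unique h1 h2

/-- A form all of whose constant terms vanish is a cusp form. -/
theorem ker_constTerm_le :
    LinearMap.ker (constTerm N) ≤ LinearMap.range
      (CuspForm.toModularFormₗ : CuspForm (Γ0 N) 2 →ₗ[ℂ] ModularForm (Γ0 N) 2) := by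
  intro f hf
  rw [LinearMap.mem_ker] at hf
  have hz : ∀ q, IsZeroAtImInfty (tr f q) := by
    intro q
    have h := tendsto_tr N f q
    have h0 : valueAtInfty (tr f q) = 0 := by
      have := congrFun hf q
      simpa [constTerm_apply] using this
    rw [h0] at h
    exact h
  obtain ⟨F, hF⟩ := ef_exists_cuspForm (isEquivFamily_tr f) hz
  refine ⟨F, ?_⟩
  apply DFunLike.ext
  intro z
  have h1 : tr F (QuotientGroup.mk 1 : Q N) = tr f (QuotientGroup.mk 1 : Q N) := by rw [hF]
  rw [tr_one, tr_one] at h1
  exact congrFun h1 z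

/-- The space of possible constant term vectors. -/
def constSpace : Submodule ℂ (Q N → ℂ) where
  carrier := {v | (∀ q, v ((permQ N ModularGroup.T)⁻¹ q) = v q) ∧ ∑ q, v q = 0}
  zero_mem' := by
    refine ⟨fun q => rfl, ?_⟩
    simp
  add_mem' := by
    rintro v w ⟨hv1, hv2⟩ ⟨hw1, hw2⟩
    refine ⟨fun q => ?_, ?_⟩
    · show v ((permQ N ModularGroup.T)⁻¹ q) + w ((permQ N ModularGroup.T)⁻¹ q) = v q + w q
      rw [hv1 q, hw1 q]
    · simp [Finset.sum_add_distrib, hv2, hw2]
  smul_mem' := by
    rintro c v ⟨hv1, hv2⟩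
    refine ⟨fun q => ?_, ?_⟩
    · show c • v ((permQ N ModularGroup.T)⁻¹ q) = c • v q
      rw [hv1 q]
    · simp [← Finset.mul_sum, hv2]

theorem range_constTerm_le : LinearMap.range (constTerm N) ≤ constSpace N := by
  rintro _ ⟨f, rfl⟩
  exact ⟨constTerm_permQ_T N f, sum_constTerm N f⟩

theorem mem_constSpace_iff (v : Q N → ℂ) :
    v ∈ constSpace N ↔ (∀ q, v ((permQ N ModularGroup.T)⁻¹ q) = v q) ∧ ∑ q, v q = 0 :=
  Iff.rfl

/-- The functions on a finite set invariant under a permutation: the dimension is the number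
of orbits. -/
def invSpace {α : Type*} (σ : Equiv.Perm α) : Submodule ℂ (α → ℂ) where
  carrier := {v | ∀ x, v (σ x) = v x}
  zero_mem' := fun _ => rfl
  add_mem' := by
    intro v w hv hw x
    show v (σ x) + w (σ x) = v x + w x
    rw [hv x, hw x]
  smul_mem' := by
    intro c v hv x
    show c • v (σ x) = c • v x
    rw [hv x]

theorem mem_invSpace_iff {α : Type*} (σ : Equiv.Perm α) (v : α → ℂ) :
    v ∈ invSpace σ ↔ ∀ x, v (σ x) = v x := Iff.rfl

theorem invSpace_apply_zpow {α : Type*} (σ : Equiv.Perm α) {v : α → ℂ} (hv : v ∈ invSpace σ)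
    (n : ℤ) (x : α) : v ((σ ^ n) x) = v x := by
  have hinv : ∀ y, v (σ⁻¹ y) = v y := by
    intro y
    have := hv (σ⁻¹ y)
    rw [Equiv.Perm.inv_def, Equiv.apply_symm_apply] at this
    rw [Equiv.Perm.inv_def]
    exact this.symm
  induction n using Int.induction_on generalizing x with
  | zero => simp
  | succ k ih =>
    rw [zpow_add_one, Equiv.Perm.mul_apply, ih, hv]
  | pred k ih =>
    rw [zpow_sub_one, Equiv.Perm.mul_apply, ih, hinv]

theorem finrank_invSpace {α : Type*} [Finite α] (σ : Equiv.Perm α) :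
    Module.finrank ℂ (invSpace σ) = orbCount σ := by
  classical
  haveI : Fintype α := Fintype.ofFinite α
  let O := Quotient (Equiv.Perm.SameCycle.setoid σ)
  haveI : Fintype O := Fintype.ofFinite O
  -- pull back functions on the orbit space
  let L : (O → ℂ) →ₗ[ℂ] (α → ℂ) :=
    { toFun := fun u x => u (Quotient.mk (Equiv.Perm.SameCycle.setoid σ) x)
      map_add' := fun _ _ => rfl
      map_smul' := fun _ _ => rfl }
  have hLinj : Function.Injective L := by
    intro u u' h
    funext o
    induction o using Quotient.inductionOn with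
    | h x => exact congrFun h x
  have hrange : LinearMap.range L = invSpace σ := by
    apply le_antisymm
    · rintro _ ⟨u, rfl⟩ x
      show u (Quotient.mk _ (σ x)) = u (Quotient.mk _ x)
      congr 1
      apply Quotient.sound
      show Equiv.Perm.SameCycle σ (σ x) x
      exact (Equiv.Perm.SameCycle.refl σ x).apply_left
    · intro v hv
      refine ⟨fun o => Quotient.liftOn o v ?_, ?_⟩
      · intro a b hab
        obtain ⟨n, hn⟩ := hab
        rw [← hn, invSpace_apply_zpow σ hv]
      · funext x
        rfl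
  rw [← hrange, LinearMap.finrank_range_of_inj hLinj, Module.finrank_fintype_fun_eq_card,
    orbCount, Nat.card_eq_fintype_card]

end ConstTerm

open ConstTerm in
/-- **Constant terms at the cusps of weight two forms**:
`dim M₂(Γ₀(N)) + 1 ≤ dim S₂(Γ₀(N)) + #(orbits of T)`. -/
theorem finrank_modularForm_two_add_one_le (N : ℕ) [NeZero N] :
    Module.finrank ℂ (ModularForm (Γ0 N) 2) + 1 ≤
      Module.finrank ℂ (CuspForm (Γ0 N) 2) + orbCount (permQ N ModularGroup.T) := by
  classical
  haveI : Module.Finite ℂ (ModularForm (Γ0 N) 2) := finite_modularForm N 2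
  let incl : CuspForm (Γ0 N) 2 →ₗ[ℂ] ModularForm (Γ0 N) 2 := CuspForm.toModularFormₗ
  have hincl : Function.Injective incl := CuspForm.toModularFormₗ_injective
  -- rank-nullity for the constant term map
  have h1 := LinearMap.finrank_range_add_finrank_ker (ConstTerm.constTerm N)
  have h2 : Module.finrank ℂ (LinearMap.ker (ConstTerm.constTerm N))
      ≤ Module.finrank ℂ (CuspForm (Γ0 N) 2) := by
    rw [← LinearMap.finrank_range_of_inj hincl]
    exact Submodule.finrank_mono (ConstTerm.ker_constTerm_le N)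
  have h3 : Module.finrank ℂ (LinearMap.range (ConstTerm.constTerm N))
      ≤ Module.finrank ℂ (ConstTerm.constSpace N) :=
    Submodule.finrank_mono (ConstTerm.range_constTerm_le N)
  -- the space of constant term vectors is a proper subspace of the invariants
  have h4 : ConstTerm.constSpace N < invSpace (permQ N ModularGroup.T) := by
    rw [lt_iff_le_and_ne]
    constructor
    · intro v hv x
      have := hv.1 (permQ N ModularGroup.T x)
      rw [Equiv.Perm.inv_def, Equiv.symm_apply_apply] at this
      exact this.symm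
    · intro heq
      have hone : (fun _ : Q N => (1 : ℂ)) ∈ invSpace (permQ N ModularGroup.T) := fun _ => rfl
      rw [← heq] at hone
      have hsum := hone.2
      simp at hsum
  have h5 : Module.finrank ℂ (ConstTerm.constSpace N) < orbCount (permQ N ModularGroup.T) := by
    rw [← finrank_invSpace]
    exact Submodule.finrank_lt_finrank_of_lt h4
  omega

end Fermat.Agent.S20
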