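import Fermat.Agent.S20.LevelOneAux

/-!
P8 / FREE: a free family of modular forms on `Γ₀(N)` over the level-one forms has exactly one
member of weight `0` (the constants).
-/

set_option autoImplicit false

namespace Fermat.Agent.S20

open UpperHalfPlane ModularForm
open Fermat.Agent.S23 Fermat.Agent.S24
open scoped MatrixGroups Manifold

section

variable {N : ℕ} [NeZero N] {ι : Type} {κ : ι → ℤ} {g : (i : ι) → ModularForm (Γ0 N) (κ i)}

omit [NeZero N] in
/-- Every member of a free family is a nonzero function. -/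
theorem IsFreeFamily.cwz_exists_ne_zero (h : IsFreeFamily N κ g) (i : ι) :
    ∃ z : ℍ, g i z ≠ 0 := by
  classical
  by_contra hcon0
  have hcon : ∀ z : ℍ, g i z = 0 := fun z => by_contra fun hz => hcon0 ⟨z, hz⟩
  let a : (l : ι) → ModularForm 𝒮ℒ (κ i - κ l) := fun l =>
    if hl : l = i then
      ModularForm.mcast (by rw [hl]; ring) (ModularForm.const 1 : ModularForm 𝒮ℒ 0)
    else 0
  have hai : ∀ z : ℍ, a i z = 1 := by
    intro z
    simp only [a, dif_pos]
    rfl
  have h1 := h.indep (κ i) {i} a (fun z => by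
    rw [Finset.sum_singleton, hcon, mul_zero]) i (Finset.mem_singleton_self i)
  have h2 := hai ptI
  rw [h1] at h2
  exact zero_ne_one h2

/-- The weights of a free family are nonnegative. -/
theorem IsFreeFamily.cwz_weight_nonneg (h : IsFreeFamily N κ g) (i : ι) : 0 ≤ κ i := by
  by_contra hneg0
  have hneg : κ i < 0 := not_le.mp hneg0
  obtain ⟨z, hz⟩ := h.cwz_exists_ne_zero i
  have h0 := Γ0_eq_zero_of_weight_neg N hneg (g i)
  rw [h0] at hz
  exact hz rfl

/-- A free family has a member of weight `0`. -/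
theorem IsFreeFamily.cwz_exists (h : IsFreeFamily N κ g) : ∃ i, κ i = 0 := by
  classical
  obtain ⟨s, a, ha⟩ := h.span 0 (1 : ModularForm (Γ0 N) 0)
  by_contra hcon0
  have hcon : ∀ i, κ i ≠ 0 := fun i hi => hcon0 ⟨i, hi⟩
  have hz : ∀ i ∈ s, a i ptI * g i ptI = 0 := by
    intro i _
    have hpos : 0 - κ i < 0 := by
      have h1 := h.cwz_weight_nonneg i
      have h2 := hcon i
      omega
    have h3 : (a i : ℍ → ℂ) = 0 := ModularFormClass.levelOne_neg_weight_eq_zero hpos (a i)
    rw [h3, Pi.zero_apply, zero_mul]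
  have h1 := ha ptI
  rw [Finset.sum_eq_zero hz] at h1
  exact one_ne_zero h1

/-- A free family has at most one member of weight `0`. -/
theorem IsFreeFamily.cwz_unique (h : IsFreeFamily N κ g) {i j : ι} (hi : κ i = 0)
    (hj : κ j = 0) : i = j := by
  classical
  by_contra hij
  obtain ⟨ci, hci⟩ := Γ0_weight_zero_const N (ModularForm.mcast hi (g i))
  obtain ⟨cj, hcj⟩ := Γ0_weight_zero_const N (ModularForm.mcast hj (g j))
  have hci' : ∀ z : ℍ, g i z = ci := hci
  have hcj' : ∀ z : ℍ, g j z = cj := hcj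
  let a : (l : ι) → ModularForm 𝒮ℒ (0 - κ l) := fun l =>
    if hl : l = i then
      ModularForm.mcast (by rw [hl, hi]; ring) (ModularForm.const cj : ModularForm 𝒮ℒ 0)
    else if hl' : l = j then
      ModularForm.mcast (by rw [hl', hj]; ring) (ModularForm.const (-ci) : ModularForm 𝒮ℒ 0)
    else 0
  have hai : ∀ z : ℍ, a i z = cj := by
    intro z
    simp only [a, dif_pos]
    rfl
  have haj : ∀ z : ℍ, a j z = -ci := by
    intro z
    have hji : ¬ j = i := fun e => hij e.symm
    simp only [a, dif_neg hji, dif_pos]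
    rfl
  have hrel : ∀ z : ℍ, ∑ l ∈ ({i, j} : Finset ι), a l z * g l z = 0 := by
    intro z
    rw [Finset.sum_pair hij, hai, haj, hci', hcj']
    ring
  have h0 := h.indep 0 {i, j} a hrel i (by simp)
  have hcj0 : cj = 0 := by
    rw [← hai ptI, h0]
    rfl
  obtain ⟨z, hz⟩ := h.cwz_exists_ne_zero j
  exact hz (by rw [hcj' z, hcj0])

/-- A free family has exactly one member of weight `0`. -/
theorem IsFreeFamily.card_weight_zero (h : IsFreeFamily N κ g) :
    Nat.card {i : ι // κ i = 0} = 1 := by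
  obtain ⟨i, hi⟩ := h.cwz_exists
  rw [Nat.card_eq_one_iff_unique]
  exact ⟨⟨fun a b => Subtype.ext (h.cwz_unique a.2 b.2)⟩, ⟨⟨i, hi⟩⟩⟩

end

end Fermat.Agent.S20
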