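import Fermat.Agent.S20.Card
import Fermat.Agent.S20.Elliptic

/-!
P8 / FREE: the weights of a free family modulo `4` and modulo `6`, counted by the eigenvalues of
the permutations induced by `S` (at the elliptic point `i`) and `S * T` (at `ρ`).
-/

set_option autoImplicit false

namespace Fermat.Agent.S20

open UpperHalfPlane ModularForm EisensteinSeries
open Fermat.Agent.S23 Fermat.Agent.S24
open scoped MatrixGroups Manifold

/-! ### Linear algebra -/

/-- A function with `v (σ x) = v x` for all `x` is constant on the cycles of `σ`. -/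
theorem eq_of_sameCycle_of_invariant {α β : Type*} (σ : Equiv.Perm α) {v : α → β}
    (hv : ∀ x, v (σ x) = v x) {x y : α} (h : σ.SameCycle x y) : v x = v y := by
  have hnat : ∀ (n : ℕ) (z : α), v ((σ ^ n) z) = v z := by
    intro n
    induction n with
    | zero => intro z; simp
    | succ n ih => intro z; rw [pow_succ', Equiv.Perm.mul_apply, hv, ih]
  obtain ⟨i, rfl⟩ := h
  obtain ⟨n, rfl | rfl⟩ := Int.eq_nat_or_neg i
  · rw [zpow_natCast, hnat]
  · have h1 := hnat n ((σ ^ (-(n : ℤ))) x)
    rw [← h1, ← zpow_natCast, ← Equiv.Perm.mul_apply, ← zpow_add, add_neg_cancel, zpow_zero,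
      Equiv.Perm.one_apply]

/-- The space of functions fixed by the operator `v ↦ v ∘ σ⁻¹` has dimension the number of
cycles of `σ`. -/
theorem finrank_ker_sub_id_of_perm {K : Type*} [Field K] {α : Type*} [Finite α]
    (σ : Equiv.Perm α) (P : (α → K) →ₗ[K] (α → K)) (hP : ∀ v x, P v x = v (σ⁻¹ x)) :
    Module.finrank K (LinearMap.ker (P - LinearMap.id)) = orbCount σ := by
  classical
  have : Fintype α := Fintype.ofFinite _
  have : Fintype (Quotient (Equiv.Perm.SameCycle.setoid σ)) := Fintype.ofFinite _
  have hmem : ∀ v : α → K, v ∈ LinearMap.ker (P - LinearMap.id) ↔ ∀ x, v (σ x) = v x := by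
    intro v
    rw [LinearMap.mem_ker, LinearMap.sub_apply, LinearMap.id_apply, sub_eq_zero]
    constructor
    · intro h x
      have h1 := congrFun h (σ x)
      rw [hP] at h1
      simpa using h1.symm
    · intro h
      funext x
      rw [hP]
      have h1 := h (σ⁻¹ x)
      simpa using h1.symm
  have hker : LinearMap.range (LinearMap.funLeft K K
      (Quotient.mk (Equiv.Perm.SameCycle.setoid σ) :
        α → Quotient (Equiv.Perm.SameCycle.setoid σ))) = LinearMap.ker (P - LinearMap.id) := by
    ext v
    rw [hmem, LinearMap.mem_range]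
    constructor
    · rintro ⟨f, rfl⟩ x
      rw [LinearMap.funLeft_apply, LinearMap.funLeft_apply]
      congr 1
      exact Quotient.sound ⟨-1, by simp⟩
    · intro hv
      refine ⟨Quotient.lift v (fun x y h => eq_of_sameCycle_of_invariant σ hv h), ?_⟩
      funext x
      rw [LinearMap.funLeft_apply]
      rfl
  rw [← hker, LinearMap.finrank_range_of_inj
    (LinearMap.funLeft_injective_of_surjective K K _ Quotient.mk_surjective),
    Module.finrank_fintype_fun_eq_card, orbCount, Nat.card_eq_fintype_card]

/-- If `P` is diagonal in the basis `b` with eigenvalues `lam i`, then the fixed space of `P`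
has dimension the number of `i` with `lam i = 1`. -/
theorem finrank_ker_sub_id_of_basis {K V ι : Type*} [Field K] [AddCommGroup V] [Module K V]
    [Finite ι] (b : Module.Basis ι K V) (P : V →ₗ[K] V) (lam : ι → K)
    (hP : ∀ i, P (b i) = lam i • b i) :
    Module.finrank K (LinearMap.ker (P - LinearMap.id)) = Nat.card {i : ι // lam i = 1} := by
  classical
  have : Fintype ι := Fintype.ofFinite _
  have hrepr : ∀ (v : V) (i : ι), b.repr (P v) i = lam i * b.repr v i := by
    intro v i
    have h1 : (Finsupp.lapply i ∘ₗ b.repr.toLinearMap ∘ₗ P : V →ₗ[K] K) =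
        lam i • (Finsupp.lapply i ∘ₗ b.repr.toLinearMap : V →ₗ[K] K) := by
      refine b.ext fun j => ?_
      simp only [LinearMap.comp_apply, LinearEquiv.coe_coe, Finsupp.lapply_apply, hP,
        map_smul, LinearMap.smul_apply, Module.Basis.repr_self, smul_eq_mul]
      by_cases hji : j = i
      · subst hji; simp
      · simp [hji]
    exact LinearMap.congr_fun h1 v
  have hker : LinearMap.ker (P - LinearMap.id) =
      (Finsupp.supported K K {i : ι | lam i = 1}).comap b.repr.toLinearMap := by
    ext v
    rw [LinearMap.mem_ker, LinearMap.sub_apply, LinearMap.id_apply, sub_eq_zero,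
      Submodule.mem_comap, Finsupp.mem_supported']
    constructor
    · intro h i hi
      have h1 := hrepr v i
      rw [h] at h1
      have h2 : (lam i - 1) * b.repr v i = 0 := by rw [sub_mul, one_mul, ← h1, sub_self]
      rcases mul_eq_zero.mp h2 with h3 | h3
      · exact absurd (sub_eq_zero.mp h3) hi
      · exact h3
    · intro h
      apply b.repr.injective
      ext i
      rw [hrepr]
      by_cases hi : lam i = 1
      · rw [hi, one_mul]
      · have h0 : b.repr v i = 0 := h i hi
        rw [h0, mul_zero]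
  rw [hker]
  have e1 : ((Finsupp.supported K K {i : ι | lam i = 1}).comap b.repr.toLinearMap) ≃ₗ[K]
      Finsupp.supported K K {i : ι | lam i = 1} :=
    b.repr.submoduleMap _ |>.trans (LinearEquiv.ofEq _ _ (by
      rw [Submodule.map_comap_eq_of_surjective b.repr.surjective]))
  rw [e1.finrank_eq, (Finsupp.supportedEquivFinsupp {i : ι | lam i = 1}).finrank_eq,
    Module.finrank_finsupp_self, Nat.card_eq_fintype_card]
  rfl

/-! ### The counts -/

section

variable {N : ℕ} [NeZero N] {ι : Type} {κ : ι → ℤ} {g : (i : ι) → ModularForm (Γ0 N) (κ i)}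

/-- The translate vectors `q ↦ tr (g i) q z₀` of a free family form a basis of `ℂ^Q` at every
point `z₀`. -/
theorem IsFreeFamily.exists_basis (h : IsFreeFamily N κ g) (z₀ : ℍ) :
    ∃ b : Module.Basis ι ℂ (Q N → ℂ), ∀ i q, b i q = tr (g i) q z₀ := by
  classical
  have : Finite ι := h.finite
  have : Fintype ι := Fintype.ofFinite _
  have hli : LinearIndependent ℂ (fun (i : ι) (q : Q N) => tr (g i) q z₀) := by
    rw [linearIndependent_iff']
    intro s c hc i hi
    refine h.pointwise_indep z₀ s c (fun q => ?_) i hi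
    have := congrFun hc q
    simpa [Finset.sum_apply] using this
  have hcard : Fintype.card ι = Module.finrank ℂ (Q N → ℂ) := by
    rw [Module.finrank_fintype_fun_eq_card, ← Nat.card_eq_fintype_card,
      ← Nat.card_eq_fintype_card]
    exact h.card_eq
  refine ⟨basisOfLinearIndependentOfCardEqFinrank' _ hli hcard, fun i q => ?_⟩
  rw [coe_basisOfLinearIndependentOfCardEqFinrank']

theorem IsFreeFamily.card_weight_mod_four (h : IsFreeFamily N κ g) :
    Nat.card {i : ι // κ i % 4 = 2} + orbCount (permQ N ModularGroup.S) = Nat.card (Q N) := by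
  classical
  have : Finite ι := h.finite
  obtain ⟨b, hb⟩ := h.exists_basis ptI
  have h1 := finrank_ker_sub_id_of_perm (permQ N ModularGroup.S)
    (LinearMap.funLeft ℂ ℂ (⇑(permQ N ModularGroup.S)⁻¹ : Q N → Q N)) (fun v x => rfl)
  have h2 := finrank_ker_sub_id_of_basis b
    (LinearMap.funLeft ℂ ℂ (⇑(permQ N ModularGroup.S)⁻¹ : Q N → Q N))
    (fun i => Complex.I ^ (-κ i)) (fun i => by
      funext q
      show b i ((permQ N ModularGroup.S)⁻¹ q) = Complex.I ^ (-κ i) * b i q
      rw [hb, hb]
      exact tr_S_ptI N (g i) q)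
  have h3 : Nat.card {i : ι // Complex.I ^ (-κ i) = 1} = orbCount (permQ N ModularGroup.S) := by
    rw [← h2, h1]
  have h4 : ∀ i, Complex.I ^ (-κ i) = 1 ↔ ¬ (κ i % 4 = 2) := by
    intro i
    rw [I_zpow_neg_eq_one_iff]
    obtain ⟨m, hm⟩ := h.weight_even i
    omega
  have h5 : Nat.card {i : ι // Complex.I ^ (-κ i) = 1} = Nat.card {i : ι // ¬ (κ i % 4 = 2)} :=
    Nat.card_congr (Equiv.subtypeEquivRight h4)
  rw [← h3, h5, ← Nat.card_sum, h.card_eq.symm]
  exact Nat.card_congr (Equiv.sumCompl _)

theorem IsFreeFamily.card_weight_mod_six (h : IsFreeFamily N κ g) :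
    Nat.card {i : ι // κ i % 6 = 0} =
      orbCount (permQ N (ModularGroup.S * ModularGroup.T)) := by
  classical
  have : Finite ι := h.finite
  obtain ⟨b, hb⟩ := h.exists_basis ptRho
  have h1 := finrank_ker_sub_id_of_perm (permQ N (ModularGroup.S * ModularGroup.T))
    (LinearMap.funLeft ℂ ℂ (⇑(permQ N (ModularGroup.S * ModularGroup.T))⁻¹ : Q N → Q N))
    (fun v x => rfl)
  have h2 := finrank_ker_sub_id_of_basis b
    (LinearMap.funLeft ℂ ℂ (⇑(permQ N (ModularGroup.S * ModularGroup.T))⁻¹ : Q N → Q N))
    (fun i => ((ptRho : ℂ) + 1) ^ (-κ i)) (fun i => by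
      funext q
      show b i ((permQ N (ModularGroup.S * ModularGroup.T))⁻¹ q) =
        ((ptRho : ℂ) + 1) ^ (-κ i) * b i q
      rw [hb, hb]
      exact tr_ST_ptRho N (g i) q)
  have h4 : ∀ i, ((ptRho : ℂ) + 1) ^ (-κ i) = 1 ↔ κ i % 6 = 0 := by
    intro i
    rw [ptRho_add_one_zpow_neg_eq_one_iff]
    omega
  rw [← h1, h2]
  exact (Nat.card_congr (Equiv.subtypeEquivRight h4)).symm

end

end Fermat.Agent.S20
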