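import Fermat.Agent.S20.FDefs
import Fermat.Agent.S23.DeltaN
import Mathlib.NumberTheory.ModularForms.LevelOne.DimensionFormula

/-!
P8 / FREE: dimension of `M_k(Γ₀(N))` from a free family (`IsFreeFamily.finrank_modularForm`).
-/

set_option autoImplicit false

namespace Fermat.Agent.S20

open UpperHalfPlane ModularForm
open Fermat.Agent.S23
open scoped MatrixGroups Manifold

theorem Γ0_le_levelOne (N : ℕ) : Γ0 N ≤ 𝒮ℒ := Subgroup.map_le_range _ _

/-- the product of a level-one form and a form on `Γ₀(N)`, with the weight cast to `k` -/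
noncomputable def levelOneMul (N : ℕ) {w κ k : ℤ} (hk : w + κ = k) (a : ModularForm 𝒮ℒ w)
    (f : ModularForm (Γ0 N) κ) : ModularForm (Γ0 N) k :=
  ModularForm.mcast hk ((restrictLE (Γ0_le_levelOne N) a).mul f)

theorem levelOneMul_apply (N : ℕ) {w κ k : ℤ} (hk : w + κ = k) (a : ModularForm 𝒮ℒ w)
    (f : ModularForm (Γ0 N) κ) (z : ℍ) : levelOneMul N hk a f z = a z * f z := rfl

theorem modularForm_sum_apply {Γ : Subgroup (GL (Fin 2) ℝ)} {k : ℤ} {ι : Type*} (s : Finset ι)
    (F : ι → ModularForm Γ k) (z : ℍ) : (∑ i ∈ s, F i) z = ∑ i ∈ s, F i z := by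
  classical
  induction s using Finset.induction_on with
  | empty => simp
  | insert a s ha ih => rw [Finset.sum_insert ha, Finset.sum_insert ha, add_apply, ih]

section
variable {N : ℕ} [NeZero N] {ι : Type} {κ : ι → ℤ} {g : (i : ι) → ModularForm (Γ0 N) (κ i)}

/-- the combination map `a ↦ ∑ i, a i * g i` -/
noncomputable def combMap [Fintype ι] (g : (i : ι) → ModularForm (Γ0 N) (κ i)) (k : ℤ) :
    ((i : ι) → ModularForm 𝒮ℒ (k - κ i)) →ₗ[ℂ] ModularForm (Γ0 N) k where
  toFun a := ∑ i, levelOneMul N (by ring) (a i) (g i)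
  map_add' a b := by
    ext z
    simp only [modularForm_sum_apply, add_apply, levelOneMul_apply,
      Pi.add_apply, add_mul, Finset.sum_add_distrib]
  map_smul' c a := by
    ext z
    simp only [modularForm_sum_apply, smul_apply, levelOneMul_apply,
      Pi.smul_apply, smul_eq_mul, mul_assoc, Finset.mul_sum, RingHom.id_apply]

theorem combMap_apply [Fintype ι] (g : (i : ι) → ModularForm (Γ0 N) (κ i)) (k : ℤ)
    (a : (i : ι) → ModularForm 𝒮ℒ (k - κ i)) (z : ℍ) :
    combMap g k a z = ∑ i, a i z * g i z := by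
  simp only [combMap, LinearMap.coe_mk, AddHom.coe_mk, modularForm_sum_apply,
    levelOneMul_apply]

theorem IsFreeFamily.combMap_injective [Fintype ι] (h : IsFreeFamily N κ g) (k : ℤ) :
    Function.Injective (combMap g k) := by
  rw [injective_iff_map_eq_zero]
  intro a ha
  funext i
  refine h.indep k Finset.univ a (fun z => ?_) i (Finset.mem_univ i)
  rw [← combMap_apply, ha]
  rfl

theorem IsFreeFamily.combMap_surjective [Fintype ι] (h : IsFreeFamily N κ g) (k : ℤ) :
    Function.Surjective (combMap g k) := by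
  classical
  intro f
  obtain ⟨s, a, ha⟩ := h.span k f
  refine ⟨fun i => if i ∈ s then a i else 0, ?_⟩
  ext z
  rw [combMap_apply, ha z, ← Finset.sum_subset (Finset.subset_univ s)]
  · refine Finset.sum_congr rfl fun i hi => ?_
    rw [if_pos hi]
  · intro i _ hi
    rw [if_neg hi]
    simp

theorem IsFreeFamily.finrank_modularForm [Fintype ι] (h : IsFreeFamily N κ g) (k : ℤ) :
    Module.finrank ℂ (ModularForm (Γ0 N) k) =
      ∑ i, Module.finrank ℂ (ModularForm 𝒮ℒ (k - κ i)) := by
  rw [← Module.finrank_pi_fintype]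
  exact (LinearEquiv.ofBijective (combMap g k)
    ⟨h.combMap_injective k, h.combMap_surjective k⟩).finrank_eq.symm

end

end Fermat.Agent.S20
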