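import Mathlib

/-!
P8 / FREE: pure algebra. A graded module `Mf` over a graded ring `L` generated in positive degree
by a regular sequence `e4, e6` (Koszul relation only) has a homogeneous free family.
Everything lives inside a commutative algebra `V` (in the application: functions on the upper
half plane), so that no dependent types appear.
-/

set_option autoImplicit false

noncomputable section

namespace Fermat.Agent.S20

namespace GradedFree

open Module

universe u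

variable {𝕜 : Type*} [Field 𝕜] {V : Type u} [CommRing V] [Algebra 𝕜 V]

/-- The hypotheses on the graded module `Mf` over the graded ring `L`. -/
structure Hyp (Mf L : ℤ → Submodule 𝕜 V) (e4 e6 : V) : Prop where
  e4_mem : e4 ∈ L 4
  e6_mem : e6 ∈ L 6
  one_mem : (1 : V) ∈ L 0
  L_mul : ∀ {w w' : ℤ} {a b : V}, a ∈ L w → b ∈ L w' → a * b ∈ L (w + w')
  L_mul_M : ∀ {w k : ℤ} {a f : V}, a ∈ L w → f ∈ Mf k → a * f ∈ Mf (w + k)
  L_neg : ∀ {w : ℤ}, w < 0 → ∀ a ∈ L w, a = 0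
  L_zero : ∀ a ∈ L 0, ∃ c : 𝕜, a = c • (1 : V)
  L_decomp : ∀ {w : ℤ}, w ≠ 0 → ∀ a ∈ L w, ∃ b ∈ L (w - 4), ∃ c ∈ L (w - 6), a = e4 * b + e6 * c
  M_neg : ∀ {k : ℤ}, k < 0 → ∀ f ∈ Mf k, f = 0
  koszul : ∀ {k : ℤ} {X Y : V}, X ∈ Mf (k - 4) → Y ∈ Mf (k - 6) → e4 * X + e6 * Y = 0 →
    ∃ Z ∈ Mf (k - 10), X = e6 * Z ∧ Y = -(e4 * Z)

theorem mem_of_eq {P : ℤ → Submodule 𝕜 V} {k k' : ℤ} (h : k = k') {x : V} (hx : x ∈ P k) :
    x ∈ P k' := h ▸ hx

section Construction

variable (Mf L : ℤ → Submodule 𝕜 V) (e4 e6 : V)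

/-- The decomposable part in weight `k`. -/
def dec (k : ℤ) : Submodule 𝕜 V :=
  (Mf (k - 4)).map (LinearMap.mulLeft 𝕜 e4) ⊔ (Mf (k - 6)).map (LinearMap.mulLeft 𝕜 e6)

variable {Mf L e4 e6}

theorem dec_le (h : Hyp Mf L e4 e6) (k : ℤ) : dec Mf e4 e6 k ≤ Mf k := by
  refine sup_le ?_ ?_
  · rintro _ ⟨f, hf, rfl⟩
    exact mem_of_eq (by ring) (h.L_mul_M h.e4_mem hf)
  · rintro _ ⟨f, hf, rfl⟩
    exact mem_of_eq (by ring) (h.L_mul_M h.e6_mem hf)

theorem exists_compl (k : ℤ) :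
    ∃ C : Submodule 𝕜 V, C ≤ Mf k ∧ Disjoint (dec Mf e4 e6 k) C ∧
      Mf k ≤ dec Mf e4 e6 k ⊔ C := by
  obtain ⟨C', hC'⟩ := Submodule.exists_isCompl ((dec Mf e4 e6 k).comap (Mf k).subtype)
  refine ⟨C'.map (Mf k).subtype, Submodule.map_subtype_le _ _, ?_, ?_⟩
  · rw [Submodule.disjoint_def]
    rintro x hx ⟨c, hc, rfl⟩
    have h1 : c ∈ (dec Mf e4 e6 k).comap (Mf k).subtype ⊓ C' := ⟨hx, hc⟩
    rw [hC'.inf_eq_bot] at h1
    rw [(Submodule.mem_bot _).mp h1, map_zero]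
  · intro f hf
    have h1 : (⟨f, hf⟩ : Mf k) ∈ (dec Mf e4 e6 k).comap (Mf k).subtype ⊔ C' := by
      rw [hC'.sup_eq_top]; exact Submodule.mem_top
    obtain ⟨n, hn, c, hc, hnc⟩ := Submodule.mem_sup.mp h1
    have h2 : f = (n : V) + (c : V) := by
      have := congrArg Subtype.val hnc
      simpa using this.symm
    rw [h2]
    exact Submodule.add_mem_sup hn ⟨c, hc, rfl⟩

variable (Mf e4 e6)

/-- A chosen complement of the decomposable part in weight `k`. -/
def Cpl (k : ℤ) : Submodule 𝕜 V := (exists_compl (Mf := Mf) (e4 := e4) (e6 := e6) k).choose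

theorem Cpl_le (k : ℤ) : Cpl Mf e4 e6 k ≤ Mf k :=
  (exists_compl (Mf := Mf) (e4 := e4) (e6 := e6) k).choose_spec.1

theorem Cpl_disjoint (k : ℤ) : Disjoint (dec Mf e4 e6 k) (Cpl Mf e4 e6 k) :=
  (exists_compl (Mf := Mf) (e4 := e4) (e6 := e6) k).choose_spec.2.1

theorem le_dec_sup_Cpl (k : ℤ) : Mf k ≤ dec Mf e4 e6 k ⊔ Cpl Mf e4 e6 k :=
  (exists_compl (Mf := Mf) (e4 := e4) (e6 := e6) k).choose_spec.2.2

/-- The index type of the free family. -/
abbrev Idx : Type u := Σ k : ℤ, ↥(Basis.ofVectorSpaceIndex 𝕜 (Cpl Mf e4 e6 k))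

/-- The weights of the free family. -/
def wt (i : Idx Mf e4 e6) : ℤ := i.1

/-- The free family. -/
def gen (i : Idx Mf e4 e6) : V := ((Basis.ofVectorSpace 𝕜 (Cpl Mf e4 e6 i.1)) i.2 : V)

theorem gen_mem_Cpl (i : Idx Mf e4 e6) : gen Mf e4 e6 i ∈ Cpl Mf e4 e6 (wt Mf e4 e6 i) :=
  Submodule.coe_mem _

theorem gen_mem (i : Idx Mf e4 e6) : gen Mf e4 e6 i ∈ Mf (wt Mf e4 e6 i) :=
  Cpl_le Mf e4 e6 _ (gen_mem_Cpl Mf e4 e6 i)

theorem gen_ne_zero (i : Idx Mf e4 e6) : gen Mf e4 e6 i ≠ 0 := by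
  intro h
  exact (Basis.ofVectorSpace 𝕜 (Cpl Mf e4 e6 i.1)).ne_zero i.2 (Subtype.ext h)

theorem linearIndependent_fibre (k : ℤ) :
    LinearIndependent 𝕜 (fun j : ↥(Basis.ofVectorSpaceIndex 𝕜 (Cpl Mf e4 e6 k)) =>
      gen Mf e4 e6 ⟨k, j⟩) :=
  (Basis.ofVectorSpace 𝕜 (Cpl Mf e4 e6 k)).linearIndependent.map' (Cpl Mf e4 e6 k).subtype
    (Submodule.ker_subtype _)

theorem Cpl_le_span (k : ℤ) :
    Cpl Mf e4 e6 k ≤ Submodule.span 𝕜 (Set.range fun j :
      ↥(Basis.ofVectorSpaceIndex 𝕜 (Cpl Mf e4 e6 k)) => gen Mf e4 e6 ⟨k, j⟩) := by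
  intro c hc
  have h1 : (⟨c, hc⟩ : Cpl Mf e4 e6 k) ∈
      Submodule.span 𝕜 (Set.range (Basis.ofVectorSpace 𝕜 (Cpl Mf e4 e6 k))) := by
    rw [Basis.span_eq]; exact Submodule.mem_top
  have h2 := Submodule.mem_map_of_mem (f := (Cpl Mf e4 e6 k).subtype) h1
  rw [Submodule.map_span, ← Set.range_comp] at h2
  exact h2

/-- The linear combination map. -/
def Phi : (Idx Mf e4 e6 →₀ V) →ₗ[𝕜] V :=
  Finsupp.lsum 𝕜 (fun i => LinearMap.mulRight 𝕜 (gen Mf e4 e6 i))

theorem Phi_apply (a : Idx Mf e4 e6 →₀ V) :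
    Phi Mf e4 e6 a = a.sum fun i v => v * gen Mf e4 e6 i := by
  simp only [Phi, Finsupp.lsum_apply]
  rfl

theorem Phi_single (i : Idx Mf e4 e6) (v : V) :
    Phi Mf e4 e6 (Finsupp.single i v) = v * gen Mf e4 e6 i := by
  simp [Phi]

/-- Coefficient families of weight `k`. -/
def Coef (L : ℤ → Submodule 𝕜 V) (k : ℤ) : Submodule 𝕜 (Idx Mf e4 e6 →₀ V) where
  carrier := {a | ∀ i, a i ∈ L (k - wt Mf e4 e6 i)}
  add_mem' ha hb i := by
    rw [Finsupp.add_apply]; exact Submodule.add_mem _ (ha i) (hb i)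
  zero_mem' i := by
    rw [Finsupp.zero_apply]; exact Submodule.zero_mem _
  smul_mem' c a ha i := by
    rw [Finsupp.smul_apply]; exact Submodule.smul_mem _ c (ha i)

theorem mem_Coef {L : ℤ → Submodule 𝕜 V} {k : ℤ} {a : Idx Mf e4 e6 →₀ V} :
    a ∈ Coef Mf e4 e6 L k ↔ ∀ i, a i ∈ L (k - wt Mf e4 e6 i) := Iff.rfl

/-- Multiplication of a coefficient family by an element. -/
def smulL (e : V) (a : Idx Mf e4 e6 →₀ V) : Idx Mf e4 e6 →₀ V :=
  a.mapRange (fun v => e * v) (mul_zero e)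

theorem smulL_apply (e : V) (a : Idx Mf e4 e6 →₀ V) (i : Idx Mf e4 e6) :
    smulL Mf e4 e6 e a i = e * a i := Finsupp.mapRange_apply

theorem Phi_smulL (e : V) (a : Idx Mf e4 e6 →₀ V) :
    Phi Mf e4 e6 (smulL Mf e4 e6 e a) = e * Phi Mf e4 e6 a := by
  rw [Phi_apply, Phi_apply, smulL, Finsupp.sum_mapRange_index (fun _ => zero_mul _),
    Finsupp.sum, Finsupp.sum, Finset.mul_sum]
  exact Finset.sum_congr rfl fun i _ => mul_assoc _ _ _

variable {Mf e4 e6}

theorem smulL_mem (h : Hyp Mf L e4 e6) {w k k' : ℤ} (hk : w + k = k') {e : V} (he : e ∈ L w)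
    {a : Idx Mf e4 e6 →₀ V} (ha : a ∈ Coef Mf e4 e6 L k) :
    smulL Mf e4 e6 e a ∈ Coef Mf e4 e6 L k' := by
  intro i
  rw [smulL_apply]
  exact mem_of_eq (by rw [← hk]; ring) (h.L_mul he (ha i))

theorem Phi_mem (h : Hyp Mf L e4 e6) {k : ℤ} {a : Idx Mf e4 e6 →₀ V}
    (ha : a ∈ Coef Mf e4 e6 L k) : Phi Mf e4 e6 a ∈ Mf k := by
  rw [Phi_apply]
  refine Submodule.sum_mem _ fun i _ => ?_
  exact mem_of_eq (by ring) (h.L_mul_M (ha i) (gen_mem Mf e4 e6 i))

theorem wt_nonneg (h : Hyp Mf L e4 e6) (i : Idx Mf e4 e6) : 0 ≤ wt Mf e4 e6 i := by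
  by_contra hlt
  exact gen_ne_zero Mf e4 e6 i (h.M_neg (not_le.mp hlt) _ (gen_mem Mf e4 e6 i))

/-- spanning -/
theorem span_all (h : Hyp Mf L e4 e6) :
    ∀ k : ℤ, Mf k ≤ (Coef Mf e4 e6 L k).map (Phi Mf e4 e6) := by
  classical
  have key : ∀ n : ℕ, ∀ k : ℤ, k < n → Mf k ≤ (Coef Mf e4 e6 L k).map (Phi Mf e4 e6) := by
    intro n
    induction n with
    | zero =>
      intro k hk f hf
      rw [h.M_neg (by simpa using hk) f hf]
      exact Submodule.zero_mem _
    | succ n ih =>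
      intro k hk
      refine (le_dec_sup_Cpl Mf e4 e6 k).trans (sup_le (sup_le ?_ ?_) ?_)
      · rintro _ ⟨f, hf, rfl⟩
        obtain ⟨a, ha, rfl⟩ := ih (k - 4) (by push_cast at hk ⊢; omega) hf
        exact ⟨smulL Mf e4 e6 e4 a, smulL_mem h (by ring) h.e4_mem ha,
          Phi_smulL Mf e4 e6 e4 a⟩
      · rintro _ ⟨f, hf, rfl⟩
        obtain ⟨a, ha, rfl⟩ := ih (k - 6) (by push_cast at hk ⊢; omega) hf
        exact ⟨smulL Mf e4 e6 e6 a, smulL_mem h (by ring) h.e6_mem ha,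
          Phi_smulL Mf e4 e6 e6 a⟩
      · refine (Cpl_le_span Mf e4 e6 k).trans (Submodule.span_le.mpr ?_)
        rintro _ ⟨j, rfl⟩
        refine ⟨Finsupp.single ⟨k, j⟩ 1, ?_, by rw [Phi_single, one_mul]⟩
        intro i
        rw [Finsupp.single_apply]
        split_ifs with hi
        · subst hi
          exact mem_of_eq (by simp [wt]) h.one_mem
        · exact Submodule.zero_mem _
  intro k
  exact key (k.toNat + 1) k (by push_cast; omega)

/-- a coefficient family of weight `k` supported in weight `k` with vanishing combination is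
zero -/
theorem fibre_eq_zero (h : Hyp Mf L e4 e6) {k : ℤ} {a0 : Idx Mf e4 e6 →₀ V}
    (ha0 : a0 ∈ Coef Mf e4 e6 L k) (hsupp : ∀ i, a0 i ≠ 0 → wt Mf e4 e6 i = k)
    (hΦ : Phi Mf e4 e6 a0 = 0) : a0 = 0 := by
  classical
  have hcf : ∀ i, ∃ c : 𝕜, a0 i = c • (1 : V) := by
    intro i
    by_cases hi : a0 i = 0
    · exact ⟨0, by rw [hi, zero_smul]⟩
    · exact h.L_zero _ (mem_of_eq (by rw [hsupp i hi, sub_self]) (ha0 i))
  choose cf hcf using hcf
  have hLI := linearIndependent_iff'.mp (linearIndependent_fibre Mf e4 e6 k)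
  let emb : ↥(Basis.ofVectorSpaceIndex 𝕜 (Cpl Mf e4 e6 k)) → Idx Mf e4 e6 := fun j => ⟨k, j⟩
  have hemb : Function.Injective emb := fun x y hxy => by
    simpa [emb] using hxy
  have hinj : Set.InjOn emb (emb ⁻¹' ↑a0.support) := hemb.injOn
  have hsum : ∑ j ∈ a0.support.preimage emb hinj, cf (emb j) • gen Mf e4 e6 (emb j) = 0 := by
    rw [Finset.sum_preimage emb a0.support hinj (fun i => cf i • gen Mf e4 e6 i)]
    · rw [← hΦ, Phi_apply, Finsupp.sum]
      refine Finset.sum_congr rfl fun i _ => ?_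
      rw [hcf i, smul_mul_assoc, one_mul]
    · intro i hi hrange
      exfalso
      apply hrange
      obtain ⟨k', j⟩ := i
      have hk' : k' = k := hsupp ⟨k', j⟩ (Finsupp.mem_support_iff.mp hi)
      subst hk'
      exact ⟨j, rfl⟩
  ext i
  rw [Finsupp.zero_apply]
  by_contra hi
  obtain ⟨k', j⟩ := i
  have hk' : k' = k := hsupp ⟨k', j⟩ hi
  subst hk'
  have hj : j ∈ a0.support.preimage emb hinj := by
    rw [Finset.mem_preimage]
    exact Finsupp.mem_support_iff.mpr hi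
  have := hLI _ (fun j => cf (emb j)) hsum j hj
  apply hi
  rw [hcf ⟨k', j⟩]
  change cf (emb j) • (1 : V) = 0
  rw [this, zero_smul]

theorem Phi_fibre_mem_Cpl (h : Hyp Mf L e4 e6) {k : ℤ} {a0 : Idx Mf e4 e6 →₀ V}
    (ha0 : a0 ∈ Coef Mf e4 e6 L k) (hsupp : ∀ i, a0 i ≠ 0 → wt Mf e4 e6 i = k) :
    Phi Mf e4 e6 a0 ∈ Cpl Mf e4 e6 k := by
  rw [Phi_apply]
  refine Submodule.sum_mem _ fun i hi => ?_
  have hi' : a0 i ≠ 0 := Finsupp.mem_support_iff.mp hi
  have hwt := hsupp i hi'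
  obtain ⟨c, hc⟩ := h.L_zero _ (mem_of_eq (by rw [hwt, sub_self]) (ha0 i))
  show a0 i * gen Mf e4 e6 i ∈ Cpl Mf e4 e6 k
  rw [hc, smul_mul_assoc, one_mul]
  exact Submodule.smul_mem _ _ (hwt ▸ gen_mem_Cpl Mf e4 e6 i)

/-- uniqueness -/
theorem indep_all (h : Hyp Mf L e4 e6) :
    ∀ k : ℤ, ∀ a ∈ Coef Mf e4 e6 L k, Phi Mf e4 e6 a = 0 → a = 0 := by
  classical
  have key : ∀ n : ℕ, ∀ k : ℤ, k < n → ∀ a ∈ Coef Mf e4 e6 L k, Phi Mf e4 e6 a = 0 → a = 0 := by
    intro n
    induction n with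
    | zero =>
      intro k hk a ha _
      ext i
      rw [Finsupp.zero_apply]
      have h1 := wt_nonneg h i
      have h2 : k < 0 := by simpa using hk
      exact h.L_neg (by omega) _ (ha i)
    | succ n ih =>
      intro k hk a ha hΦ
      have hk' : k < (n : ℤ) + 1 := by exact_mod_cast hk
      set a0 := a.filter (fun i => wt Mf e4 e6 i = k) with ha0
      set a1 := a.filter (fun i => ¬ wt Mf e4 e6 i = k) with ha1
      have hsum : a0 + a1 = a := Finsupp.filter_add_filter_not a _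
      have ha0mem : a0 ∈ Coef Mf e4 e6 L k := by
        intro i
        rw [ha0, Finsupp.filter_apply]
        split_ifs
        · exact ha i
        · exact Submodule.zero_mem _
      have ha0supp : ∀ i, a0 i ≠ 0 → wt Mf e4 e6 i = k := by
        intro i hi
        by_contra hne
        exact hi (by rw [ha0, Finsupp.filter_apply, if_neg hne])
      -- decomposition of the coefficients of nonzero weight
      have hdec : ∀ i, ∃ b ∈ L (k - 4 - wt Mf e4 e6 i), ∃ c ∈ L (k - 6 - wt Mf e4 e6 i),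
          a1 i = e4 * b + e6 * c := by
        intro i
        by_cases hi : wt Mf e4 e6 i = k
        · refine ⟨0, Submodule.zero_mem _, 0, Submodule.zero_mem _, ?_⟩
          rw [ha1, Finsupp.filter_apply, if_neg (not_not.mpr hi), mul_zero, mul_zero, add_zero]
        · obtain ⟨b, hb, c, hc, habc⟩ :=
            h.L_decomp (w := k - wt Mf e4 e6 i) (sub_ne_zero.mpr (Ne.symm hi)) (a i) (ha i)
          refine ⟨b, mem_of_eq (by ring) hb, c, mem_of_eq (by ring) hc, ?_⟩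
          rw [ha1, Finsupp.filter_apply, if_pos hi, habc]
      choose b hb c hc habc using hdec
      let B : Idx Mf e4 e6 →₀ V := Finsupp.onFinset a.support
        (fun i => if i ∈ a.support then b i else 0) (by
          intro i hi
          by_contra hc'
          exact hi (if_neg hc'))
      let Cc : Idx Mf e4 e6 →₀ V := Finsupp.onFinset a.support
        (fun i => if i ∈ a.support then c i else 0) (by
          intro i hi
          by_contra hc'
          exact hi (if_neg hc'))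
      have hB : B ∈ Coef Mf e4 e6 L (k - 4) := by
        intro i
        change (if i ∈ a.support then b i else 0) ∈ _
        split_ifs
        · exact hb i
        · exact Submodule.zero_mem _
      have hC : Cc ∈ Coef Mf e4 e6 L (k - 6) := by
        intro i
        change (if i ∈ a.support then c i else 0) ∈ _
        split_ifs
        · exact hc i
        · exact Submodule.zero_mem _
      have ha1' : a1 = smulL Mf e4 e6 e4 B + smulL Mf e4 e6 e6 Cc := by
        ext i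
        rw [Finsupp.add_apply, smulL_apply, smulL_apply]
        change a1 i = e4 * (if i ∈ a.support then b i else 0) +
          e6 * (if i ∈ a.support then c i else 0)
        by_cases hi : i ∈ a.support
        · rw [if_pos hi, if_pos hi, habc i]
        · rw [if_neg hi, if_neg hi, mul_zero, mul_zero, add_zero, ha1, Finsupp.filter_apply,
            Finsupp.notMem_support_iff.mp hi, ite_self]
      have hΦ1 : Phi Mf e4 e6 a1 = e4 * Phi Mf e4 e6 B + e6 * Phi Mf e4 e6 Cc := by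
        rw [ha1', map_add, Phi_smulL, Phi_smulL]
      have hΦsum : Phi Mf e4 e6 a0 + Phi Mf e4 e6 a1 = 0 := by
        rw [← map_add, hsum, hΦ]
      have hΦ0dec : Phi Mf e4 e6 a0 ∈ dec Mf e4 e6 k := by
        have : Phi Mf e4 e6 a0 = -(e4 * Phi Mf e4 e6 B + e6 * Phi Mf e4 e6 Cc) := by
          rw [← hΦ1]; exact eq_neg_of_add_eq_zero_left hΦsum
        rw [this]
        refine Submodule.neg_mem _ (Submodule.add_mem_sup ?_ ?_)
        · exact ⟨_, Phi_mem h hB, rfl⟩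
        · exact ⟨_, Phi_mem h hC, rfl⟩
      have hΦ0 : Phi Mf e4 e6 a0 = 0 :=
        Submodule.disjoint_def.mp (Cpl_disjoint Mf e4 e6 k) _ hΦ0dec
          (Phi_fibre_mem_Cpl h ha0mem ha0supp)
      have ha0z : a0 = 0 := fibre_eq_zero h ha0mem ha0supp hΦ0
      have h1 : e4 * Phi Mf e4 e6 B + e6 * Phi Mf e4 e6 Cc = 0 := by
        rw [← hΦ1]
        rw [hΦ0, zero_add] at hΦsum
        exact hΦsum
      obtain ⟨Z, hZ, hX, hY⟩ := h.koszul (k := k) (Phi_mem h hB) (Phi_mem h hC) h1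
      obtain ⟨E, hE, rfl⟩ := span_all h (k - 10) hZ
      have hBE : B - smulL Mf e4 e6 e6 E = 0 :=
        ih (k - 4) (by omega) _
          (Submodule.sub_mem _ hB (smulL_mem h (by ring) h.e6_mem hE))
          (by rw [map_sub, Phi_smulL, hX, sub_self])
      have hCE : Cc + smulL Mf e4 e6 e4 E = 0 :=
        ih (k - 6) (by omega) _
          (Submodule.add_mem _ hC (smulL_mem h (by ring) h.e4_mem hE))
          (by rw [map_add, Phi_smulL, hY, neg_add_cancel])
      rw [← hsum, ha0z, zero_add, ha1', sub_eq_zero.mp hBE, eq_neg_of_add_eq_zero_left hCE]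
      ext i
      simp only [Finsupp.add_apply, smulL_apply, Finsupp.neg_apply, Finsupp.zero_apply]
      ring
  intro k
  exact key (k.toNat + 1) k (by push_cast; omega)

end Construction

/-- **Existence of a homogeneous free family.** -/
theorem exists_free {Mf L : ℤ → Submodule 𝕜 V} {e4 e6 : V} (h : Hyp Mf L e4 e6) :
    ∃ (ι : Type u) (κ : ι → ℤ) (g : ι → V), (∀ i, g i ∈ Mf (κ i)) ∧
      (∀ (k : ℤ), ∀ f ∈ Mf k, ∃ (s : Finset ι) (a : ι → V),
        (∀ i, a i ∈ L (k - κ i)) ∧ f = ∑ i ∈ s, a i * g i) ∧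
      (∀ (k : ℤ) (s : Finset ι) (a : ι → V), (∀ i, a i ∈ L (k - κ i)) →
        ∑ i ∈ s, a i * g i = 0 → ∀ i ∈ s, a i = 0) := by
  classical
  refine ⟨Idx Mf e4 e6, wt Mf e4 e6, gen Mf e4 e6, gen_mem Mf e4 e6, ?_, ?_⟩
  · intro k f hf
    obtain ⟨a, ha, rfl⟩ := span_all h k hf
    exact ⟨a.support, a, ha, by rw [Phi_apply, Finsupp.sum]⟩
  · intro k s a ha hsum i hi
    let a' : Idx Mf e4 e6 →₀ V := Finsupp.onFinset s (fun i => if i ∈ s then a i else 0) (by
      intro i hi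
      by_contra hc'
      exact hi (if_neg hc'))
    have ha' : a' ∈ Coef Mf e4 e6 L k := by
      intro i
      change (if i ∈ s then a i else 0) ∈ _
      split_ifs
      · exact ha i
      · exact Submodule.zero_mem _
    have hΦ : Phi Mf e4 e6 a' = 0 := by
      rw [Phi_apply, Finsupp.onFinset_sum _ (fun _ => zero_mul _), ← hsum]
      exact Finset.sum_congr rfl fun i hi => by rw [if_pos hi]
    have := indep_all h k a' ha' hΦ
    have h2 : a' i = 0 := by rw [this, Finsupp.zero_apply]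
    have h3 : a' i = a i := if_pos hi
    rw [← h3, h2]

end GradedFree

end Fermat.Agent.S20

end
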