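import Mathlib
import Fermat.Agent.S20.FDefs
import Fermat.Agent.S20.LevelOneJ
import Fermat.Agent.S24.JBasic
import Fermat.Agent.S23.DeltaN

/-!
P8 / FREE: level-one auxiliary facts (interface file `LevelOneAux`; the `j`-function part lives
in `LevelOneJ`, imported here): forms on `Γ₀(N)` of weight `≤ 0`, multiplication of a form on
`Γ₀(N)` by a level-one form and its translates, and the decomposition `a = E₄ b + E₆ c` of
level-one forms of nonzero weight.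
-/

set_option autoImplicit false

namespace Fermat.Agent.S20

open UpperHalfPlane ModularForm EisensteinSeries Filter Topology Matrix.SpecialLinearGroup
open Fermat.Agent.S23 Fermat.Agent.S24
open scoped MatrixGroups Manifold

/-! ### Forms on `Γ₀(N)` of weight `≤ 0` -/

theorem Γ0_eq_zero_of_weight_neg (N : ℕ) [NeZero N] {k : ℤ} (hk : k < 0)
    (f : ModularForm (Γ0 N) k) : f = 0 :=
  ModularForm.isZero_of_neg_weight hk f

theorem neg_one_mem_Γ0 (N : ℕ) : (-1 : GL (Fin 2) ℝ) ∈ Γ0 N := by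
  refine ⟨-1, ?_, by ext; simp⟩
  show (-1 : SL(2, ℤ)) ∈ CongruenceSubgroup.Gamma0 N
  rw [CongruenceSubgroup.Gamma0_mem]
  simp

theorem Γ0_eq_zero_of_weight_odd (N : ℕ) [NeZero N] {k : ℤ} (hk : Odd k)
    (f : ModularForm (Γ0 N) k) : f = 0 :=
  ModularForm.eq_zero_of_neg_one_mem (neg_one_mem_Γ0 N) hk f

theorem Γ0_weight_zero_const (N : ℕ) [NeZero N] (f : ModularForm (Γ0 N) 0) :
    ∃ c : ℂ, ∀ z : ℍ, f z = c := by
  obtain ⟨c, hc⟩ := ModularForm.eq_const_of_weight_zero f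
  exact ⟨c, fun z => by rw [hc]; rfl⟩

theorem Γ0_le_SL (N : ℕ) : Γ0 N ≤ 𝒮ℒ := Subgroup.map_le_range _ _

theorem exists_levelOne_mul (N : ℕ) [NeZero N] {w k : ℤ} (a : ModularForm 𝒮ℒ w)
    (f : ModularForm (Γ0 N) k) :
    ∃ F : ModularForm (Γ0 N) (w + k), ∀ z : ℍ, F z = a z * f z :=
  ⟨(restrictLE (Γ0_le_SL N) a).mul f, fun _ => rfl⟩

theorem tr_levelOne_mul (N : ℕ) [NeZero N] {w k : ℤ} (a : ModularForm 𝒮ℒ w)
    (f : ModularForm (Γ0 N) k) (F : ModularForm (Γ0 N) (w + k))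
    (hF : ∀ z : ℍ, F z = a z * f z) (q : Q N) (z : ℍ) : tr F q z = a z * tr f q z := by
  induction q using Quotient.inductionOn with
  | h r =>
    obtain ⟨γ, rfl⟩ := exists_slElt_eq r
    have hF' : (F : ℍ → ℂ) = (a : ℍ → ℂ) * (f : ℍ → ℂ) := funext hF
    have ha : (a : ℍ → ℂ) ∣[w] γ⁻¹ = a :=
      SlashInvariantFormClass.slash_action_eq a _ ⟨γ⁻¹, rfl⟩
    have h1 : tr F (QuotientGroup.mk (slElt γ) : Q N) = (F : ℍ → ℂ) ∣[w + k] γ⁻¹ := by
      show (F : ℍ → ℂ) ∣[w + k] (mapGL ℝ γ)⁻¹ = (F : ℍ → ℂ) ∣[w + k] (mapGL ℝ γ⁻¹)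
      rw [map_inv]
    have h2 : tr f (QuotientGroup.mk (slElt γ) : Q N) = (f : ℍ → ℂ) ∣[k] γ⁻¹ := by
      show (f : ℍ → ℂ) ∣[k] (mapGL ℝ γ)⁻¹ = (f : ℍ → ℂ) ∣[k] (mapGL ℝ γ⁻¹)
      rw [map_inv]
    show tr F (QuotientGroup.mk (slElt γ) : Q N) z = a z * tr f (QuotientGroup.mk (slElt γ) : Q N) z
    rw [h1, h2, hF', mul_slash_SL2, ha]
    rfl

theorem Γ0_cuspForm_eq_zero_of_weight_nonpos (N : ℕ) [NeZero N] {k : ℤ} (hk : k ≤ 0)
    (f : CuspForm (Γ0 N) k) : f = 0 := by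
  have hz : IsZeroAtImInfty (f : ℍ → ℂ) := by
    have := isZeroAtImInfty_tr f (QuotientGroup.mk 1 : Q N)
    rwa [tr_one] at this
  let g : ModularForm (Γ0 N) k :=
    { toFun := f
      slash_action_eq' := f.slash_action_eq'
      holo' := f.holo'
      bdd_at_cusps' := fun hc γ hγ => (f.zero_at_cusps' hc γ hγ).boundedAtFilter }
  rcases hk.lt_or_eq with hneg | rfl
  · have hg : g = 0 := Γ0_eq_zero_of_weight_neg N hneg g
    ext z
    exact congrArg (fun G : ModularForm (Γ0 N) k => G z) hg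
  · obtain ⟨c, hc⟩ := Γ0_weight_zero_const N g
    have hc' : ∀ z : ℍ, f z = c := hc
    have h0 : c = 0 := by
      have h1 : Tendsto (f : ℍ → ℂ) atImInfty (𝓝 c) := by
        have : (f : ℍ → ℂ) = fun _ => c := funext hc'
        rw [this]
        exact tendsto_const_nhds
      exact tendsto_nhds_unique h1 hz
    ext z
    rw [hc' z, h0]
    rfl

/-! ### The decomposition `a = E₄ b + E₆ c` of level-one forms of nonzero weight -/

/-- `φ = E₄ b + E₆ c` with level-one forms `b`, `c` of weights `w - 4`, `w - 6`. -/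
def IsE46Comb (w : ℤ) (φ : ℍ → ℂ) : Prop :=
  ∃ (b : ModularForm 𝒮ℒ (w - 4)) (c : ModularForm 𝒮ℒ (w - 6)),
    ∀ z : ℍ, φ z = E₄ z * b z + E₆ z * c z

theorem IsE46Comb.add {w : ℤ} {φ ψ : ℍ → ℂ} (h1 : IsE46Comb w φ) (h2 : IsE46Comb w ψ) :
    IsE46Comb w (fun z => φ z + ψ z) := by
  obtain ⟨b1, c1, e1⟩ := h1
  obtain ⟨b2, c2, e2⟩ := h2
  refine ⟨b1 + b2, c1 + c2, fun z => ?_⟩
  show φ z + ψ z = E₄ z * (b1 z + b2 z) + E₆ z * (c1 z + c2 z)
  rw [e1, e2]
  ring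

theorem IsE46Comb.const_mul {w : ℤ} {φ : ℍ → ℂ} (h1 : IsE46Comb w φ) (t : ℂ) :
    IsE46Comb w (fun z => t * φ z) := by
  obtain ⟨b1, c1, e1⟩ := h1
  refine ⟨t • b1, t • c1, fun z => ?_⟩
  show t * φ z = E₄ z * (t * b1 z) + E₆ z * (t * c1 z)
  rw [e1]
  ring

theorem isE46Comb_E₄_mul {w : ℤ} (b : ModularForm 𝒮ℒ (w - 4)) :
    IsE46Comb w (fun z => E₄ z * b z) :=
  ⟨b, 0, fun z => by simp⟩

theorem isE46Comb_E₆_mul {w : ℤ} (c : ModularForm 𝒮ℒ (w - 6)) :
    IsE46Comb w (fun z => E₆ z * c z) :=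
  ⟨0, c, fun z => by simp⟩

theorem isE46Comb_discriminant_mul {w : ℤ} (G : ModularForm 𝒮ℒ (w - 12)) :
    IsE46Comb w (fun z => ModularForm.discriminant z * G z) := by
  let b : ModularForm 𝒮ℒ (w - 4) := ModularForm.mcast (by ring) ((E₄.mul E₄).mul G)
  let c : ModularForm 𝒮ℒ (w - 6) := ModularForm.mcast (by ring) (E₆.mul G)
  refine ⟨(1 / 1728 : ℂ) • b, (-1 / 1728 : ℂ) • c, fun z => ?_⟩
  have hb : b z = E₄ z * E₄ z * G z := rfl
  have hc : c z = E₆ z * G z := rfl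
  show ModularForm.discriminant z * G z
    = E₄ z * ((1 / 1728 : ℂ) * b z) + E₆ z * ((-1 / 1728 : ℂ) * c z)
  rw [hb, hc, ModularForm.discriminant_eq_E₄_cube_sub_E₆_sq z]
  ring

theorem coeff_zero_qExpansion_monoE (a b : ℕ) (w : ℤ) (hw : w = 4 * (a : ℤ) + 6 * (b : ℤ)) :
    (qExpansion 1 (monoE a b w hw)).coeff 0 = 1 := by
  have hq : qExpansion 1 (monoE a b w hw) = qExpansion 1 E₄ ^ a * qExpansion 1 E₆ ^ b := by
    rw [monoE, ModularForm.qExpansion_mcast,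
      ModularForm.qExpansion_mul one_pos one_mem_strictPeriods_SL,
      ModularForm.qExpansion_pow one_pos one_mem_strictPeriods_SL,
      ModularForm.qExpansion_pow one_pos one_mem_strictPeriods_SL]
  have h4 := E_qExpansion_coeff_zero (k := 4) (by norm_num) ⟨2, rfl⟩
  have h6 := E_qExpansion_coeff_zero (k := 6) (by norm_num) ⟨3, rfl⟩
  rw [PowerSeries.coeff_zero_eq_constantCoeff_apply] at h4 h6 ⊢
  rw [hq, map_mul, map_pow, map_pow, h4, h6, one_pow, one_pow, one_mul]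

theorem exists_levelOne_decomp {w : ℤ} (hw : w ≠ 0) (a : ModularForm 𝒮ℒ w) :
    ∃ (b : ModularForm 𝒮ℒ (w - 4)) (c : ModularForm 𝒮ℒ (w - 6)),
      ∀ z : ℍ, a z = E₄ z * b z + E₆ z * c z := by
  have hzero : a = 0 → ∃ (b : ModularForm 𝒮ℒ (w - 4)) (c : ModularForm 𝒮ℒ (w - 6)),
      ∀ z : ℍ, a z = E₄ z * b z + E₆ z * c z := by
    rintro rfl
    exact ⟨0, 0, fun z => by simp⟩
  rcases lt_or_ge w 0 with hneg | hnn
  · exact hzero (rank_zero_iff_forall_zero.mp (levelOne_neg_weight_rank_zero hneg) a)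
  rcases Int.even_or_odd w with hev | hodd
  swap
  · exact hzero (levelOne_odd_weight_eq_zero hodd a)
  rcases lt_or_ge w 4 with hlt | hge
  · have h2 : w = 2 := by obtain ⟨k, hk⟩ := hev; omega
    subst h2
    exact hzero (rank_zero_iff_forall_zero.mp levelOne_weight_two_rank_zero a)
  -- a form `G₀` of weight `w` in the ideal `(E₄, E₆)` with constant term one
  obtain ⟨G₀, hG₀c, hG₀⟩ : ∃ G₀ : ModularForm 𝒮ℒ w,
      (qExpansion 1 G₀).coeff 0 = 1 ∧ IsE46Comb w G₀ := by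
    obtain ⟨r, hr⟩ := hev
    rcases Int.emod_two_eq_zero_or_one r with h0 | h1
    · -- `w = 4 (i + 1)`
      obtain ⟨i, hi⟩ := Int.eq_ofNat_of_zero_le (show 0 ≤ r / 2 - 1 by omega)
      refine ⟨monoE (i + 1) 0 w (by push_cast; omega), coeff_zero_qExpansion_monoE _ _ _ _,
        monoE i 0 (w - 4) (by omega), 0, fun z => ?_⟩
      rw [monoE_apply, monoE_apply]
      simp only [pow_zero, mul_one, zero_apply, mul_zero, add_zero]
      ring
    · -- `w = 4 i + 6`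
      obtain ⟨i, hi⟩ := Int.eq_ofNat_of_zero_le (show 0 ≤ (r - 3) / 2 by omega)
      refine ⟨monoE i 1 w (by omega), coeff_zero_qExpansion_monoE _ _ _ _,
        0, monoE i 0 (w - 6) (by omega), fun z => ?_⟩
      rw [monoE_apply, monoE_apply]
      simp only [pow_zero, mul_one, zero_apply, mul_zero, zero_add, pow_one]
      ring
  obtain ⟨H, hH⟩ : ∃ H : ModularForm 𝒮ℒ w, H = a - (qExpansion 1 a).coeff 0 • G₀ := ⟨_, rfl⟩
  have hH0 : (qExpansion 1 H).coeff 0 = 0 := by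
    rw [hH]
    exact (isCuspForm_iff_coeffZero_eq_zero _).mp (sub_smul_isCuspForm a G₀ hG₀c)
  have hHI : IsE46Comb w (fun z => H z) := by
    have h1 := isE46Comb_discriminant_mul (CuspForm.discriminantEquiv (toCuspForm H hH0))
    have h2 : (fun z : ℍ => ModularForm.discriminant z *
        CuspForm.discriminantEquiv (toCuspForm H hH0) z) = fun z => H z := by
      funext z
      rw [discriminant_mul_discriminantEquiv_apply]
      rfl
    rwa [h2] at h1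
  have hfin := hHI.add (hG₀.const_mul ((qExpansion 1 a).coeff 0))
  obtain ⟨b, c, hbc⟩ := hfin
  refine ⟨b, c, fun z => ?_⟩
  rw [← hbc z, hH]
  show a z = (a z - (qExpansion 1 a).coeff 0 * G₀ z) + (qExpansion 1 a).coeff 0 * G₀ z
  ring

end Fermat.Agent.S20
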