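import Mathlib
import Fermat.Agent.S20.Division
import Fermat.Agent.S24.JBasic

/-!
P8 / FREE: the Koszul relation for `E₄`, `E₆` on modular forms of level `Γ₀(N)`:
if `E₄ X + E₆ Y = 0` then `X = E₆ Z` and `Y = -E₄ Z` for a modular form `Z` of weight `k - 10`.
-/

set_option autoImplicit false

namespace Fermat.Agent.S20

open UpperHalfPlane ModularForm EisensteinSeries Filter Topology Matrix.SpecialLinearGroup
open Fermat.Agent.S23 Fermat.Agent.S24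
open scoped MatrixGroups Manifold

namespace SyzAux

/-- `E₄` and `E₆` have no common zero. -/
theorem E₄_ne_zero_or_E₆_ne_zero' (z : ℍ) : E₄ z ≠ 0 ∨ E₆ z ≠ 0 := by
  by_contra hcon
  rw [not_or, not_not, not_not] at hcon
  have h := ModularForm.discriminant_eq_E₄_cube_sub_E₆_sq z
  rw [hcon.1, hcon.2] at h
  have h0 : ModularForm.discriminant z = 0 := by rw [h]; norm_num
  exact ModularForm.discriminant_ne_zero z h0

end SyzAux

open DivAux SyzAux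

/-- the Koszul relation: `E₄ X + E₆ Y = 0` forces `X = E₆ Z`, `Y = -E₄ Z` -/
theorem exists_of_E₄_mul_add_E₆_mul_eq_zero (N : ℕ) [NeZero N] {k : ℤ}
    (X : ModularForm (Γ0 N) (k - 4)) (Y : ModularForm (Γ0 N) (k - 6))
    (h : ∀ z : ℍ, E₄ z * X z + E₆ z * Y z = 0) :
    ∃ Z : ModularForm (Γ0 N) (k - 10),
      (∀ z : ℍ, X z = E₆ z * Z z) ∧ (∀ z : ℍ, Y z = -(E₄ z * Z z)) := by
  classical
  let Zf : ℍ → ℂ := fun z => if E₆ z = 0 then -Y z / E₄ z else X z / E₆ z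
  have hZ6 : ∀ z, E₆ z ≠ 0 → Zf z = X z / E₆ z := fun z hz => if_neg hz
  have hZ4 : ∀ z, E₄ z ≠ 0 → Zf z = -Y z / E₄ z := by
    intro z hz
    by_cases h6 : E₆ z = 0
    · exact if_pos h6
    · rw [hZ6 z h6, div_eq_div_iff h6 hz]
      linear_combination h z
  have hX : ∀ z : ℍ, X z = E₆ z * Zf z := by
    intro z
    by_cases h6 : E₆ z = 0
    · have h4 : E₄ z ≠ 0 := (E₄_ne_zero_or_E₆_ne_zero' z).resolve_right (not_not.mpr h6)
      have := h z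
      rw [h6, zero_mul, add_zero] at this
      rw [h6, zero_mul]
      exact (mul_eq_zero.mp this).resolve_left h4
    · rw [hZ6 z h6, mul_div_cancel₀ _ h6]
  have hY : ∀ z : ℍ, Y z = -(E₄ z * Zf z) := by
    intro z
    by_cases h4 : E₄ z = 0
    · have h6 : E₆ z ≠ 0 := (E₄_ne_zero_or_E₆_ne_zero' z).resolve_left (not_not.mpr h4)
      have := h z
      rw [h4, zero_mul, zero_add] at this
      rw [h4, zero_mul, neg_zero]
      exact (mul_eq_zero.mp this).resolve_left h6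
    · rw [hZ4 z h4, mul_div_cancel₀ _ h4, neg_neg]
  -- holomorphy
  have hE4 : MDiff (⇑E₄ : ℍ → ℂ) := ModularFormClass.holo E₄
  have hE6 : MDiff (⇑E₆ : ℍ → ℂ) := ModularFormClass.holo E₆
  have hholo : MDiff Zf := by
    intro z₀
    rcases E₄_ne_zero_or_E₆_ne_zero' z₀ with h4 | h6
    · have hq : MDiffAt ((fun z => -Y z) / (⇑E₄ : ℍ → ℂ)) z₀ :=
        ((ModularFormClass.holo Y z₀).neg).div (hE4 z₀) h4
      refine hq.congr_of_eventuallyEq ?_
      filter_upwards [(hE4.continuous.continuousAt (x := z₀)).eventually_ne h4] with z hz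
      rw [hZ4 z hz]
      rfl
    · have hq : MDiffAt ((⇑X : ℍ → ℂ) / (⇑E₆ : ℍ → ℂ)) z₀ :=
        (ModularFormClass.holo X z₀).div (hE6 z₀) h6
      refine hq.congr_of_eventuallyEq ?_
      filter_upwards [(hE6.continuous.continuousAt (x := z₀)).eventually_ne h6] with z hz
      rw [hZ6 z hz]
      rfl
  -- slash relations
  have hE6slash : ∀ γ : SL(2, ℤ), (⇑E₆ : ℍ → ℂ) ∣[(6 : ℤ)] γ = ⇑E₆ := by
    intro γ
    rw [SL_slash]
    exact SlashInvariantForm.slash_action_eqn E₆ _ ⟨γ, rfl⟩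
  have hE4slash : ∀ γ : SL(2, ℤ), (⇑E₄ : ℍ → ℂ) ∣[(4 : ℤ)] γ = ⇑E₄ := by
    intro γ
    rw [SL_slash]
    exact SlashInvariantForm.slash_action_eqn E₄ _ ⟨γ, rfl⟩
  have hXslash : ∀ γ : SL(2, ℤ), (⇑X : ℍ → ℂ) ∣[k - 4] γ = ⇑E₆ * (Zf ∣[k - 10] γ) := by
    intro γ
    have h1 : (⇑X : ℍ → ℂ) = ⇑E₆ * Zf := funext hX
    have h2 : ((⇑E₆ : ℍ → ℂ) * Zf) ∣[6 + (k - 10)] γ = (⇑E₆ ∣[(6 : ℤ)] γ) * (Zf ∣[k - 10] γ) :=
      mul_slash_SL2 6 (k - 10) γ _ _
    have h4 : (6 : ℤ) + (k - 10) = k - 4 := by ring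
    rw [h4, hE6slash] at h2
    rw [← h2, ← h1]
  have hYslash : ∀ γ : SL(2, ℤ), (⇑Y : ℍ → ℂ) ∣[k - 6] γ = -(⇑E₄ * (Zf ∣[k - 10] γ)) := by
    intro γ
    have h1 : (⇑Y : ℍ → ℂ) = ⇑E₄ * (-Zf) := by
      funext z
      rw [Pi.mul_apply, Pi.neg_apply, hY z, mul_neg]
    have h2 : ((⇑E₄ : ℍ → ℂ) * (-Zf)) ∣[4 + (k - 10)] γ =
        (⇑E₄ ∣[(4 : ℤ)] γ) * ((-Zf) ∣[k - 10] γ) := mul_slash_SL2 4 (k - 10) γ _ _
    have h4 : (4 : ℤ) + (k - 10) = k - 6 := by ring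
    rw [h4, hE4slash, SlashAction.neg_slash] at h2
    rw [h1, h2, mul_neg]
  have hinv : ∀ γ : SL(2, ℤ), (mapGL ℝ γ : GL (Fin 2) ℝ) ∈ Γ0 N → Zf ∣[k - 10] γ = Zf := by
    intro γ hγ
    have hX' := hXslash γ
    have hY' := hYslash γ
    have h2 : (⇑X : ℍ → ℂ) ∣[k - 4] γ = ⇑X := by
      rw [SL_slash]
      exact SlashInvariantForm.slash_action_eqn X _ hγ
    have h3 : (⇑Y : ℍ → ℂ) ∣[k - 6] γ = ⇑Y := by
      rw [SL_slash]
      exact SlashInvariantForm.slash_action_eqn Y _ hγ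
    rw [h2] at hX'
    rw [h3] at hY'
    funext z
    have e6 : E₆ z * Zf z = E₆ z * (Zf ∣[k - 10] γ) z := by
      rw [← hX z]
      exact congrFun hX' z
    have e4 : E₄ z * Zf z = E₄ z * (Zf ∣[k - 10] γ) z := by
      have := congrFun hY' z
      rw [Pi.neg_apply, Pi.mul_apply, hY z, neg_inj] at this
      exact this
    rcases E₄_ne_zero_or_E₆_ne_zero' z with h4 | h6
    · exact (mul_left_cancel₀ h4 e4).symm
    · exact (mul_left_cancel₀ h6 e6).symm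
  refine ⟨{ toFun := Zf
            slash_action_eq' := ?_
            holo' := hholo
            bdd_at_cusps' := ?_ }, hX, hY⟩
  · intro A hA
    obtain ⟨γ, hγ, rfl⟩ := hA
    exact hinv γ ⟨γ, hγ, rfl⟩
  · intro c hc
    rw [Subgroup.IsArithmetic.isCusp_iff_isCusp_SL2Z] at hc
    rw [OnePoint.isBoundedAt_iff_forall_SL2Z hc]
    intro γ _
    refine isBoundedAtImInfty_of_mul (f := (⇑X : ℍ → ℂ) ∣[k - 4] γ) (φ := ⇑E₆)
      (ModularFormClass.bdd_at_infty_slash X γ) ⟨1, one_ne_zero, tendsto_E₆_atImInfty⟩ ?_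
    intro z
    have := congrFun (hXslash γ) z
    rwa [Pi.mul_apply] at this

end Fermat.Agent.S20
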