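import Mathlib
import Fermat.Agent.S20.GradedFree
import Fermat.Agent.S20.LevelOneAux
import Fermat.Agent.S20.Syzygy

/-!
P8 / FREE: existence of a free family. The modular forms on `Γ₀(N)` (all weights) form a free
graded module over the graded ring of level-one modular forms: `exists_isFreeFamily`.

The proof instantiates the abstract graded statement `GradedFree.exists_free` inside the
commutative ring of functions `ℍ → ℂ`, with the Koszul relation for `E₄`, `E₆` (file `Syzygy`)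
and the level-one facts of `LevelOneAux` as input.
-/

set_option autoImplicit false

namespace Fermat.Agent.S20

open UpperHalfPlane ModularForm EisensteinSeries Filter Topology
open Fermat.Agent.S23 Fermat.Agent.S24
open scoped MatrixGroups Manifold

namespace FreeAux

/-- The coercion of modular forms to functions, as a linear map. -/
def coeLin (Γ : Subgroup (GL (Fin 2) ℝ)) [Γ.HasDetOne] (k : ℤ) : ModularForm Γ k →ₗ[ℂ] (ℍ → ℂ) where
  toFun f := ⇑f
  map_add' _ _ := rfl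
  map_smul' _ _ := rfl

/-- The functions on the upper half plane which are modular forms of weight `k` on `Γ`. -/
def fnSub (Γ : Subgroup (GL (Fin 2) ℝ)) [Γ.HasDetOne] (k : ℤ) : Submodule ℂ (ℍ → ℂ) :=
  LinearMap.range (coeLin Γ k)

theorem mem_fnSub {Γ : Subgroup (GL (Fin 2) ℝ)} [Γ.HasDetOne] {k : ℤ} {F : ℍ → ℂ} :
    F ∈ fnSub Γ k ↔ ∃ f : ModularForm Γ k, ⇑f = F := Iff.rfl

/-- The graded hypotheses hold for forms on `Γ₀(N)` over level-one forms. -/
theorem hyp (N : ℕ) [NeZero N] :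
    GradedFree.Hyp (𝕜 := ℂ) (fun k => fnSub (Γ0 N) k) (fun w => fnSub 𝒮ℒ w)
      (⇑E₄ : ℍ → ℂ) (⇑E₆ : ℍ → ℂ) where
  e4_mem := ⟨E₄, rfl⟩
  e6_mem := ⟨E₆, rfl⟩
  one_mem := ⟨1, rfl⟩
  L_mul := by
    rintro w w' _ _ ⟨a, rfl⟩ ⟨b, rfl⟩
    exact ⟨a.mul b, rfl⟩
  L_mul_M := by
    rintro w k _ _ ⟨a, rfl⟩ ⟨f, rfl⟩
    obtain ⟨F, hF⟩ := exists_levelOne_mul N a f
    exact ⟨F, funext hF⟩
  L_neg := by
    rintro w hw _ ⟨a, rfl⟩
    exact ModularFormClass.levelOne_neg_weight_eq_zero hw a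
  L_zero := by
    rintro _ ⟨a, rfl⟩
    obtain ⟨c, hc⟩ := ModularFormClass.levelOne_weight_zero_const a
    refine ⟨c, ?_⟩
    funext z
    have h1 : a z = c := congrFun hc z
    show a z = (c • (1 : ℍ → ℂ)) z
    rw [h1, Pi.smul_apply, Pi.one_apply, smul_eq_mul, mul_one]
  L_decomp := by
    rintro w hw _ ⟨a, rfl⟩
    obtain ⟨b, c, h⟩ := exists_levelOne_decomp hw a
    exact ⟨⇑b, ⟨b, rfl⟩, ⇑c, ⟨c, rfl⟩, funext h⟩
  M_neg := by
    rintro k hk _ ⟨f, rfl⟩
    rw [Γ0_eq_zero_of_weight_neg N hk f]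
    rfl
  koszul := by
    rintro k _ _ ⟨X, rfl⟩ ⟨Y, rfl⟩ h
    obtain ⟨Z, hZ1, hZ2⟩ :=
      exists_of_E₄_mul_add_E₆_mul_eq_zero N X Y (fun z => congrFun h z)
    exact ⟨⇑Z, ⟨Z, rfl⟩, funext hZ1, funext hZ2⟩

end FreeAux

/-- The modular forms on `Γ₀(N)` form a free graded module over the level-one modular forms. -/
theorem exists_isFreeFamily (N : ℕ) [NeZero N] :
    ∃ (ι : Type) (κ : ι → ℤ) (g : (i : ι) → ModularForm (Γ0 N) (κ i)), IsFreeFamily N κ g := by
  obtain ⟨ι, κ, g, hg, hspan, hindep⟩ := GradedFree.exists_free (FreeAux.hyp N)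
  choose G hG using hg
  refine ⟨ι, κ, G, ⟨?_, ?_⟩⟩
  · intro k f
    obtain ⟨s, a, ha, hf⟩ := hspan k (⇑f) ⟨f, rfl⟩
    choose A hA using ha
    refine ⟨s, A, fun z => ?_⟩
    have h1 := congrFun hf z
    rw [h1, Finset.sum_apply]
    refine Finset.sum_congr rfl fun i _ => ?_
    rw [Pi.mul_apply, ← hA i, ← hG i]
    rfl
  · intro k s a h i hi
    have h0 : ∑ i ∈ s, (⇑(a i) : ℍ → ℂ) * g i = 0 := by
      funext z
      rw [Finset.sum_apply, Pi.zero_apply, ← h z]
      refine Finset.sum_congr rfl fun i _ => ?_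
      rw [Pi.mul_apply, ← hG i]
      rfl
    have h1 := hindep k s (fun i => (⇑(a i) : ℍ → ℂ)) (fun i => ⟨a i, rfl⟩) h0 i hi
    exact DFunLike.coe_injective h1

end Fermat.Agent.S20
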