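import Fermat.Agent.S20.Dual
import Fermat.Agent.S20.FreeFamily
import Fermat.Agent.S20.PointIndep
import Fermat.Agent.S20.Count
import Fermat.Agent.S20.EllipticCount
import Fermat.Agent.S20.ConstTerm
import Fermat.Agent.S20.Card
import Fermat.Agent.S20.FinrankMF
import Fermat.Agent.S20.CombBridge

/-!
P8 / FREE: the lower bound `genusFormula N ≤ dim S₂(Γ₀(N))`, assembled from the structure of
`M_*(Γ₀(N))` as a free graded module over the level-one forms.
-/

set_option autoImplicit false

namespace Fermat.Agent.S20

open UpperHalfPlane ModularForm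
open Fermat.Agent.S23
open scoped MatrixGroups Manifold

section
variable {N : ℕ} [NeZero N] {ι : Type} {κ : ι → ℤ} {g : (i : ι) → ModularForm (Γ0 N) (κ i)}

/-- The members of weight `2` of a free family are linearly independent in `M₂(Γ₀(N))`. -/
theorem IsFreeFamily.card_weight_two_le (h : IsFreeFamily N κ g) :
    Nat.card {i : ι // κ i = 2} ≤ Module.finrank ℂ (ModularForm (Γ0 N) 2) := by
  classical
  have := h.finite
  have : Fintype ι := Fintype.ofFinite ι
  have : Fintype {i : ι // κ i = 2} := Fintype.ofFinite _
  have : Module.Finite ℂ (ModularForm (Γ0 N) 2) :=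
    Module.Finite.of_surjective (combMap g 2) (h.combMap_surjective 2)
  rw [Nat.card_eq_fintype_card]
  let v : {i : ι // κ i = 2} → ModularForm (Γ0 N) 2 := fun i => ModularForm.mcast i.2 (g i.1)
  have hv : LinearIndependent ℂ v := by
    rw [Fintype.linearIndependent_iff]
    intro c hc i₀
    let a : (i : ι) → ModularForm 𝒮ℒ (2 - κ i) := fun i =>
      if hi : κ i = 2 then ModularForm.mcast (by rw [hi]; norm_num) (ModularForm.const (c ⟨i, hi⟩))
      else 0
    have key := h.indep 2 (Finset.univ.map ⟨Subtype.val, Subtype.val_injective⟩) a ?_ i₀.1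
      (Finset.mem_map.2 ⟨i₀, Finset.mem_univ _, rfl⟩)
    · have h1 : a i₀.1 UpperHalfPlane.I = c i₀ := by
        simp only [a, dif_pos i₀.2]
        rfl
      rw [key] at h1
      simpa using h1.symm
    · intro z
      rw [Finset.sum_map]
      have h2 := congrArg (fun F : ModularForm (Γ0 N) 2 => F z) hc
      simp only [FunLike.coe_sum, Finset.sum_apply, FunLike.coe_zero, Pi.zero_apply] at h2
      rw [← h2]
      refine Finset.sum_congr rfl fun i _ => ?_
      simp only [Function.Embedding.coeFn_mk, a, dif_pos i.2]
      rfl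
  exact hv.fintype_card_le_finrank

end

/-- The Euler characteristic inequality: the lower bound for `dim S₂(Γ₀(N))`. -/
theorem card_Q_add_two_le (N : ℕ) [NeZero N] :
    Nat.card (Q N) + 2 ≤ 2 * Module.finrank ℂ (CuspForm (Γ0 N) 2) +
      orbCount (permQ N ModularGroup.S) +
        orbCount (permQ N (ModularGroup.S * ModularGroup.T)) +
          orbCount (permQ N ModularGroup.T) := by
  classical
  obtain ⟨ι, κ, g, h⟩ := exists_isFreeFamily N
  have := h.finite
  have : Fintype ι := Fintype.ofFinite ι
  -- the six possible weights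
  have hκ : ∀ i, κ i = 0 ∨ κ i = 2 ∨ κ i = 4 ∨ κ i = 6 ∨ κ i = 8 ∨ κ i = 10 := by
    intro i
    have h0 := h.weight_nonneg i
    have h10 := h.weight_le_ten i
    obtain ⟨m, hm⟩ := h.weight_even i
    omega
  have hcount : ∀ r : ℤ, Nat.card {i : ι // κ i = r} = (Finset.univ.filter fun i => κ i = r).card := by
    intro r
    rw [Nat.card_eq_fintype_card, Fintype.card_subtype]
  have h4 : Nat.card {i : ι // κ i % 4 = 2} =
      Nat.card {i : ι // κ i = 2} + Nat.card {i : ι // κ i = 6} + Nat.card {i : ι // κ i = 10} := by
    rw [hcount, hcount, hcount, Nat.card_eq_fintype_card, Fintype.card_subtype,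
      ← Finset.card_union_of_disjoint, ← Finset.card_union_of_disjoint]
    · congr 1
      ext i
      simp only [Finset.mem_filter, Finset.mem_univ, true_and, Finset.mem_union]
      rcases hκ i with h' | h' | h' | h' | h' | h' <;> rw [h'] <;> norm_num
    · rw [Finset.disjoint_left]
      intro i
      simp only [Finset.mem_filter, Finset.mem_univ, true_and, Finset.mem_union]
      rintro (h' | h') h'' <;> omega
    · rw [Finset.disjoint_left]
      intro i
      simp only [Finset.mem_filter, Finset.mem_univ, true_and]
      intro h' h''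
      omega
  have h6 : Nat.card {i : ι // κ i % 6 = 0} =
      Nat.card {i : ι // κ i = 0} + Nat.card {i : ι // κ i = 6} := by
    rw [hcount, hcount, Nat.card_eq_fintype_card, Fintype.card_subtype,
      ← Finset.card_union_of_disjoint]
    · congr 1
      ext i
      simp only [Finset.mem_filter, Finset.mem_univ, true_and, Finset.mem_union]
      rcases hκ i with h' | h' | h' | h' | h' | h' <;> rw [h'] <;> norm_num
    · rw [Finset.disjoint_left]
      intro i
      simp only [Finset.mem_filter, Finset.mem_univ, true_and]
      intro h' h''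
      omega
  have e1 := h.card_weight_mod_four
  have e2 := h.card_weight_mod_six
  have e3 := h.card_weight_zero
  have e4 := h.card_weight_ten_le
  have e5 := h.card_weight_two_le
  have e6 := finrank_modularForm_two_add_one_le N
  omega

/-- The lower bound `genusFormula N ≤ dim S₂(Γ₀(N))`. -/
theorem genusFormula_le_finrank_cuspForm_two (N : ℕ) [NeZero N] :
    ModularCurve.genusFormula N ≤
      (Module.finrank ℂ (CuspForm (CongruenceSubgroup.Gamma0 N) 2) : ℚ) := by
  have h := card_Q_add_two_le N
  have h1 := card_Q (N := N)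
  have h2 := two_mul_orbCount_S (N := N)
  have h3 := three_mul_orbCount_ST (N := N)
  have h4 := orbCount_T (N := N)
  have hd : (Module.finrank ℂ (CuspForm (CongruenceSubgroup.Gamma0 N) 2) : ℚ) =
      (Module.finrank ℂ (CuspForm (Γ0 N) 2) : ℚ) := rfl
  rw [hd, ModularCurve.genusFormula]
  have h' : ((Nat.card (Q N) + 2 : ℕ) : ℚ) ≤ ((2 * Module.finrank ℂ (CuspForm (Γ0 N) 2) +
      orbCount (permQ N ModularGroup.S) +
        orbCount (permQ N (ModularGroup.S * ModularGroup.T)) +
          orbCount (permQ N ModularGroup.T) : ℕ) : ℚ) := by exact_mod_cast h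
  have h2' : ((2 * orbCount (permQ N ModularGroup.S) : ℕ) : ℚ) =
      ((ModularCurve.dedekindPsi N + ModularCurve.nuTwo N : ℕ) : ℚ) := by exact_mod_cast h2
  have h3' : ((3 * orbCount (permQ N (ModularGroup.S * ModularGroup.T)) : ℕ) : ℚ) =
      ((ModularCurve.dedekindPsi N + 2 * ModularCurve.nuThree N : ℕ) : ℚ) := by exact_mod_cast h3
  push_cast at h' h2' h3'
  rw [h1] at h'
  rw [h4] at h'
  linarith

end Fermat.Agent.S20
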