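import Mathlib

set_option autoImplicit false

/-!
# Reduced bases (Dedekind–Weber / Birkhoff–Grothendieck normal form)

Every nonsingular square polynomial matrix `M` over a field can be multiplied on the right by a
unimodular polynomial matrix `U` so that `M * U` is *column reduced*: the matrix of leading
column coefficients is invertible.  Consequently, for a `K[x]`-lattice and an `O∞`-lattice in a
finite dimensional `K(x)`-vector space there is a `K[x]`-basis `b` of the first and integers `a i`
such that `x^{-a i} • b i` is an `O∞`-basis of the second (`exists_reduced_basis`).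
-/

namespace Fermat.Agent.S20

open Polynomial

/-- `c` is the image of a polynomial. -/
def IsPoly {K : Type*} [Field K] (c : RatFunc K) : Prop :=
  c ∈ Set.range (algebraMap K[X] (RatFunc K))

/-- `c = 0` or the degree at infinity of `c` is `≤ d`. -/
def DegLE {K : Type*} [Field K] (c : RatFunc K) (d : ℤ) : Prop := c = 0 ∨ c.intDegree ≤ d

open Matrix

section PolyCore

variable {K : Type*} [Field K] {n : ℕ}

/-- The column degree of a polynomial matrix: the maximal `natDegree` in column `j`. -/
def dwColDeg (B : Matrix (Fin n) (Fin n) K[X]) (j : Fin n) : ℕ :=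
  Finset.univ.sup fun i => (B i j).natDegree

/-- The leading column-coefficient matrix. -/
def dwLead (B : Matrix (Fin n) (Fin n) K[X]) : Matrix (Fin n) (Fin n) K :=
  fun i j => (B i j).coeff (dwColDeg B j)

theorem dw_natDegree_le (B : Matrix (Fin n) (Fin n) K[X]) (i j : Fin n) :
    (B i j).natDegree ≤ dwColDeg B j :=
  Finset.le_sup (f := fun i => (B i j).natDegree) (Finset.mem_univ i)

theorem dw_coeff_prod {ι : Type*} (s : Finset ι) (f : ι → K[X]) (d : ι → ℕ)
    (h : ∀ j ∈ s, (f j).natDegree ≤ d j) :
    (∏ j ∈ s, f j).natDegree ≤ ∑ j ∈ s, d j ∧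
      (∏ j ∈ s, f j).coeff (∑ j ∈ s, d j) = ∏ j ∈ s, (f j).coeff (d j) := by
  classical
  induction s using Finset.induction_on with
  | empty => simp
  | insert a s ha ih =>
    have h1 := h a (Finset.mem_insert_self a s)
    obtain ⟨ih1, ih2⟩ := ih (fun j hj => h j (Finset.mem_insert_of_mem hj))
    rw [Finset.prod_insert ha, Finset.sum_insert ha, Finset.prod_insert ha]
    refine ⟨natDegree_mul_le.trans (add_le_add h1 ih1), ?_⟩
    rw [coeff_mul_add_eq_of_natDegree_le h1 ih1, ih2]

/-- The determinant of a polynomial matrix has degree at most the sum of the column degrees,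
and the coefficient in that degree is the determinant of the leading coefficient matrix. -/
theorem dw_det_coeff (B : Matrix (Fin n) (Fin n) K[X]) :
    B.det.natDegree ≤ ∑ j, dwColDeg B j ∧
      B.det.coeff (∑ j, dwColDeg B j) = (dwLead B).det := by
  have key : ∀ σ : Equiv.Perm (Fin n),
      (∏ i, B (σ i) i).natDegree ≤ ∑ j, dwColDeg B j ∧
        (∏ i, B (σ i) i).coeff (∑ j, dwColDeg B j) = ∏ i, dwLead B (σ i) i := fun σ =>
    dw_coeff_prod Finset.univ (fun i => B (σ i) i) (dwColDeg B)
      (fun j _ => dw_natDegree_le B (σ j) j)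
  constructor
  · rw [det_apply']
    refine natDegree_sum_le_of_forall_le _ _ fun σ _ => ?_
    rw [← C_eq_intCast]
    exact (natDegree_C_mul_le _ _).trans (key σ).1
  · rw [det_apply', det_apply', finsetSum_coeff]
    refine Finset.sum_congr rfl fun σ _ => ?_
    rw [← C_eq_intCast, coeff_C_mul, (key σ).2]

/-- For a column reduced matrix, `natDegree det = ∑ column degrees` and `det ≠ 0`. -/
theorem dw_natDegree_det (B : Matrix (Fin n) (Fin n) K[X]) (h : (dwLead B).det ≠ 0) :
    B.det ≠ 0 ∧ B.det.natDegree = ∑ j, dwColDeg B j := by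
  obtain ⟨h1, h2⟩ := dw_det_coeff B
  have hne : B.det ≠ 0 := by
    intro h0
    rw [h0, coeff_zero] at h2
    exact h h2.symm
  refine ⟨hne, le_antisymm h1 ?_⟩
  exact le_natDegree_of_ne_zero (by rw [h2]; exact h)

theorem dw_natDegree_lt_of_coeff_eq_zero {p : K[X]} {d : ℕ} (h1 : p.natDegree ≤ d)
    (h2 : p.coeff d = 0) (hd : 0 < d) : p.natDegree < d := by
  by_contra hlt
  have heq : p.natDegree = d := le_antisymm h1 (not_lt.mp hlt)
  have h0 : p.leadingCoeff = 0 := by rw [leadingCoeff, heq]; exact h2
  have hp : p = 0 := leadingCoeff_eq_zero.mp h0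
  rw [hp, natDegree_zero] at heq
  omega

/-- Column reduction: every nonsingular polynomial matrix is right-equivalent (over `K[X]`) to
a column reduced one. -/
theorem dw_exists_colReduced (M : Matrix (Fin n) (Fin n) K[X]) (hM : M.det ≠ 0) :
    ∃ U : Matrix (Fin n) (Fin n) K[X], IsUnit U.det ∧ (dwLead (M * U)).det ≠ 0 := by
  classical
  induction' hm : ∑ j, dwColDeg M j using Nat.strong_induction_on with m ih generalizing M
  by_cases hL : (dwLead M).det = 0
  · obtain ⟨c, hc0, hc⟩ := Matrix.exists_mulVec_eq_zero_iff.mpr hL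
    have hsupp : (Finset.univ.filter fun j => c j ≠ 0).Nonempty := by
      by_contra hempty
      rw [Finset.not_nonempty_iff_eq_empty] at hempty
      apply hc0
      funext j
      by_contra hj
      have hj' : c j ≠ 0 := hj
      have : j ∈ Finset.univ.filter fun j => c j ≠ 0 := by simp [hj']
      rw [hempty] at this
      simp at this
    obtain ⟨j₀, hj₀, hmax⟩ := Finset.exists_max_image _ (fun j => dwColDeg M j) hsupp
    have hcj₀ : c j₀ ≠ 0 := by simpa using hj₀
    have hmax' : ∀ j, c j ≠ 0 → dwColDeg M j ≤ dwColDeg M j₀ := fun j hj =>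
      hmax j (by simp [hj])
    let u : Fin n → K[X] := fun j =>
      if c j = 0 then 0 else C (c j) * X ^ (dwColDeg M j₀ - dwColDeg M j)
    have huj₀ : u j₀ = C (c j₀) := by simp [u, hcj₀]
    -- each entry of `M *ᵥ u` has degree ≤ d j₀ with vanishing top coefficient
    have hdeg : ∀ i, ((M *ᵥ u) i).natDegree ≤ dwColDeg M j₀ := by
      intro i
      simp only [Matrix.mulVec, dotProduct]
      refine natDegree_sum_le_of_forall_le _ _ fun j _ => ?_
      by_cases hj : c j = 0
      · simp [u, hj]
      · simp only [u, hj, if_false]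
        refine natDegree_mul_le.trans ?_
        have h1 := dw_natDegree_le M i j
        have h2 : (C (c j) * X ^ (dwColDeg M j₀ - dwColDeg M j) : K[X]).natDegree
            ≤ dwColDeg M j₀ - dwColDeg M j :=
          (natDegree_C_mul_le _ _).trans (natDegree_X_pow_le _)
        have h3 := hmax' j hj
        omega
    have hcoeff : ∀ i, ((M *ᵥ u) i).coeff (dwColDeg M j₀) = 0 := by
      intro i
      have hci : (dwLead M *ᵥ c) i = 0 := by rw [hc]; rfl
      simp only [Matrix.mulVec, dotProduct] at hci ⊢
      rw [finsetSum_coeff, ← hci]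
      refine Finset.sum_congr rfl fun j _ => ?_
      by_cases hj : c j = 0
      · simp [u, hj]
      · simp only [u, hj, if_false]
        have h3 := hmax' j hj
        rw [mul_comm (C (c j)), ← mul_assoc, coeff_mul_C, coeff_mul_X_pow',
          if_pos (Nat.sub_le _ _), Nat.sub_sub_self h3]
        rfl
    have hu0 : u ≠ 0 := by
      intro h
      have := congrFun h j₀
      rw [huj₀] at this
      simp [hcj₀] at this
    -- the degree of the pivot column is positive
    have hdpos : 0 < dwColDeg M j₀ := by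
      by_contra h0
      have h0' : dwColDeg M j₀ = 0 := by omega
      apply hM
      apply Matrix.exists_mulVec_eq_zero_iff.mp
      refine ⟨u, hu0, ?_⟩
      funext i
      have h1 := hdeg i
      have h2 := hcoeff i
      rw [h0'] at h1 h2
      rw [eq_C_of_natDegree_le_zero h1, h2]
      simp
    have hlt : ∀ i, ((M *ᵥ u) i).natDegree < dwColDeg M j₀ := fun i =>
      dw_natDegree_lt_of_coeff_eq_zero (hdeg i) (hcoeff i) hdpos
    -- the column operation
    set U : Matrix (Fin n) (Fin n) K[X] := (1 : Matrix (Fin n) (Fin n) K[X]).updateCol j₀ u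
      with hU
    have hUdet : U.det = C (c j₀) := by
      rw [hU, ← Matrix.cramer_apply, Matrix.cramer_one]
      exact huj₀
    have hUunit : IsUnit U.det := by
      rw [hUdet]
      exact isUnit_C.mpr (IsUnit.mk0 _ hcj₀)
    have hMU : M * U = M.updateCol j₀ (M *ᵥ u) := by
      ext i j
      rw [Matrix.mul_apply, Matrix.updateCol_apply]
      by_cases hj : j = j₀
      · subst hj
        simp only [hU, Matrix.updateCol_self, if_true]
        rfl
      · simp only [hU, hj, if_false]
        simp only [Matrix.updateCol_ne hj, Matrix.one_apply]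
        simp
    have hdet' : (M * U).det ≠ 0 := by
      rw [Matrix.det_mul]
      exact mul_ne_zero hM hUunit.ne_zero
    have hcol_ne : ∀ j, j ≠ j₀ → dwColDeg (M * U) j = dwColDeg M j := by
      intro j hj
      simp only [dwColDeg, hMU, Matrix.updateCol_ne hj]
    have hcol_j₀ : dwColDeg (M * U) j₀ < dwColDeg M j₀ := by
      have hrw : dwColDeg (M * U) j₀ = Finset.univ.sup fun i => ((M *ᵥ u) i).natDegree := by
        simp only [dwColDeg, hMU, Matrix.updateCol_self]
      rw [hrw, Finset.sup_lt_iff (show (⊥ : ℕ) < dwColDeg M j₀ from hdpos)]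
      intro i _
      exact hlt i
    have hsum : ∑ j, dwColDeg (M * U) j < m := by
      rw [← hm]
      refine Finset.sum_lt_sum (fun j _ => ?_) ⟨j₀, Finset.mem_univ _, hcol_j₀⟩
      by_cases hj : j = j₀
      · subst hj; exact hcol_j₀.le
      · exact (hcol_ne j hj).le
    obtain ⟨U', hU', hred⟩ := ih _ hsum (M * U) hdet' rfl
    refine ⟨U * U', ?_, ?_⟩
    · rw [Matrix.det_mul]; exact hUunit.mul hU'
    · rw [← Matrix.mul_assoc]; exact hred
  · exact ⟨1, by simp, by simpa using hL⟩

end PolyCore

section DegLE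

variable {K : Type*} [Field K]

theorem bg_degLE_mono {c : RatFunc K} {d d' : ℤ} (h : DegLE c d) (hd : d ≤ d') : DegLE c d' := by
  rcases h with h | h
  · exact Or.inl h
  · exact Or.inr (h.trans hd)

theorem bg_degLE_add {c c' : RatFunc K} {d : ℤ} (h : DegLE c d) (h' : DegLE c' d) :
    DegLE (c + c') d := by
  by_cases hc' : c' = 0
  · rw [hc', add_zero]; exact h
  by_cases hc : c = 0
  · rw [hc, zero_add]; exact h'
  by_cases hs : c + c' = 0
  · exact Or.inl hs
  refine Or.inr ((RatFunc.intDegree_add_le hc' hs).trans (max_le ?_ ?_))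
  · exact h.resolve_left hc
  · exact h'.resolve_left hc'

theorem bg_degLE_mul {c c' : RatFunc K} {d d' : ℤ} (h : DegLE c d) (h' : DegLE c' d') :
    DegLE (c * c') (d + d') := by
  by_cases hc : c = 0
  · rw [hc, zero_mul]; exact Or.inl rfl
  by_cases hc' : c' = 0
  · rw [hc', mul_zero]; exact Or.inl rfl
  refine Or.inr ?_
  rw [RatFunc.intDegree_mul hc hc']
  exact add_le_add (h.resolve_left hc) (h'.resolve_left hc')

theorem bg_degLE_neg {c : RatFunc K} {d : ℤ} (h : DegLE c d) : DegLE (-c) d := by
  rcases h with h | h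
  · exact Or.inl (by rw [h, neg_zero])
  · exact Or.inr (by rw [RatFunc.intDegree_neg]; exact h)

theorem bg_intDegree_X_pow (k : ℕ) : ((RatFunc.X : RatFunc K) ^ k).intDegree = k := by
  induction k with
  | zero => simp
  | succ k ih =>
    rw [pow_succ, RatFunc.intDegree_mul (pow_ne_zero _ RatFunc.X_ne_zero) RatFunc.X_ne_zero, ih,
      RatFunc.intDegree_X]
    push_cast
    ring

theorem bg_intDegree_X_zpow (k : ℤ) : ((RatFunc.X : RatFunc K) ^ k).intDegree = k := by
  cases k with
  | ofNat k => simpa using bg_intDegree_X_pow (K := K) k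
  | negSucc k =>
    rw [zpow_negSucc, RatFunc.intDegree_inv, bg_intDegree_X_pow]
    rfl

theorem bg_X_zpow_ne_zero (k : ℤ) : (RatFunc.X : RatFunc K) ^ k ≠ 0 :=
  zpow_ne_zero _ RatFunc.X_ne_zero

/-- Shifting the degree bound by multiplying with a power of `X`. -/
theorem bg_degLE_mul_X_zpow {c : RatFunc K} {d : ℤ} (k : ℤ) :
    DegLE (c * RatFunc.X ^ k) (d + k) ↔ DegLE c d := by
  constructor
  · rintro (h | h)
    · left
      rcases mul_eq_zero.mp h with h | h
      · exact h
      · exact absurd h (bg_X_zpow_ne_zero k)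
    · by_cases hc : c = 0
      · exact Or.inl hc
      right
      rw [RatFunc.intDegree_mul hc (bg_X_zpow_ne_zero k), bg_intDegree_X_zpow] at h
      linarith
  · intro h
    have := bg_degLE_mul h (Or.inr (le_of_eq (bg_intDegree_X_zpow (K := K) k)) :
      DegLE ((RatFunc.X : RatFunc K) ^ k) k)
    exact this

/-- The valuation ring at infinity of `K(x)`, as a subring. -/
def bgOinf (K : Type*) [Field K] : Subring (RatFunc K) where
  carrier := {c | DegLE c 0}
  mul_mem' := fun {a b} ha hb => by
    have := bg_degLE_mul ha hb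
    rwa [add_zero] at this
  one_mem' := Or.inr (by simp)
  add_mem' := fun {a b} ha hb => bg_degLE_add ha hb
  zero_mem' := Or.inl rfl
  neg_mem' := fun {a} ha => bg_degLE_neg ha

theorem bg_mem_Oinf {c : RatFunc K} : c ∈ bgOinf K ↔ DegLE c 0 := Iff.rfl

/-- The subring of polynomials inside `K(x)`. -/
noncomputable def bgPolyRing (K : Type*) [Field K] : Subring (RatFunc K) :=
  (algebraMap K[X] (RatFunc K)).range

theorem bg_mem_polyRing {c : RatFunc K} : c ∈ bgPolyRing K ↔ IsPoly c := by
  simp only [bgPolyRing, RingHom.mem_range, IsPoly, Set.mem_range]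

end DegLE

section SubringMatrix

variable {R : Type*} [CommRing R] (S : Subring R) {n : ℕ}

theorem bg_det_mem (A : Matrix (Fin n) (Fin n) R) (h : ∀ i j, A i j ∈ S) : A.det ∈ S := by
  rw [Matrix.det_apply']
  exact Subring.sum_mem _ fun σ _ =>
    Subring.mul_mem _ (intCast_mem _ _) (Subring.prod_mem _ fun i _ => h _ _)

theorem bg_adjugate_mem (A : Matrix (Fin n) (Fin n) R) (h : ∀ i j, A i j ∈ S) (i j : Fin n) :
    A.adjugate i j ∈ S := by
  rw [Matrix.adjugate_apply]
  apply bg_det_mem
  intro i' j'
  rw [Matrix.updateRow_apply]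
  split_ifs
  · rw [Pi.single_apply]
    split_ifs
    · exact S.one_mem
    · exact S.zero_mem
  · exact h _ _

theorem bg_mulVec_mem (A : Matrix (Fin n) (Fin n) R) (h : ∀ i j, A i j ∈ S) (β : Fin n → R)
    (hβ : ∀ j, β j ∈ S) (i : Fin n) : (A *ᵥ β) i ∈ S := by
  simp only [Matrix.mulVec, dotProduct]
  exact Subring.sum_mem _ fun j _ => Subring.mul_mem _ (h i j) (hβ j)

theorem bg_mulVec_mem_iff (A A' : Matrix (Fin n) (Fin n) R) (hA : ∀ i j, A i j ∈ S)
    (hA' : ∀ i j, A' i j ∈ S) (hinv : A' * A = 1) (β : Fin n → R) :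
    (∀ j, β j ∈ S) ↔ (∀ i, (A *ᵥ β) i ∈ S) := by
  constructor
  · intro hβ i
    exact bg_mulVec_mem S A hA β hβ i
  · intro h j
    have : β = A' *ᵥ (A *ᵥ β) := by
      rw [Matrix.mulVec_mulVec, hinv, Matrix.one_mulVec]
    rw [this]
    exact bg_mulVec_mem S A' hA' _ h j

end SubringMatrix

section MatrixForm

variable {K : Type*} [Field K] {n : ℕ}

theorem bg_prod_X_zpow {ι : Type*} (s : Finset ι) (a : ι → ℤ) :
    ∏ j ∈ s, (RatFunc.X : RatFunc K) ^ (a j) = RatFunc.X ^ (∑ j ∈ s, a j) := by
  classical
  induction s using Finset.induction_on with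
  | empty => simp
  | insert i s hi ih =>
    rw [Finset.prod_insert hi, Finset.sum_insert hi, ih, zpow_add₀ RatFunc.X_ne_zero]

theorem bg_intDegree_pow {c : RatFunc K} (hc : c ≠ 0) (k : ℕ) :
    (c ^ k).intDegree = k * c.intDegree := by
  induction k with
  | zero => simp
  | succ k ih =>
    rw [pow_succ, RatFunc.intDegree_mul (pow_ne_zero _ hc) hc, ih]
    push_cast
    ring

/-- Matrix form of the reduction: for an invertible matrix `P` over `K(x)` there are a unimodular
polynomial matrix `U` and exponents `a` such that the matrix `N` obtained from `P * U` by scaling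
column `j` with `x^{-a j}` is invertible over the valuation ring at infinity. -/
theorem bg_matrix_form (P : Matrix (Fin n) (Fin n) (RatFunc K)) (hP : P.det ≠ 0) :
    ∃ (U : Matrix (Fin n) (Fin n) K[X]) (a : Fin n → ℤ)
      (N : Matrix (Fin n) (Fin n) (RatFunc K)),
      IsUnit U.det ∧
      (∀ i j, N i j = (P * U.map (algebraMap K[X] (RatFunc K))) i j * RatFunc.X ^ (-a j)) ∧
      (∀ i j, DegLE (N i j) 0) ∧ N.det ≠ 0 ∧ N.det.intDegree = 0 := by
  classical
  -- a common denominator
  obtain ⟨g, hg⟩ := IsLocalization.exist_integer_multiples_of_finite (nonZeroDivisors K[X])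
    (fun ij : Fin n × Fin n => P ij.1 ij.2)
  choose Q hQ using fun i j => hg (i, j)
  have hg0 : (g : K[X]) ≠ 0 := nonZeroDivisors.coe_ne_zero g
  set G : RatFunc K := algebraMap K[X] (RatFunc K) (g : K[X]) with hG
  have hinj : Function.Injective (algebraMap K[X] (RatFunc K)) :=
    IsFractionRing.injective K[X] (RatFunc K)
  have hG0 : G ≠ 0 := by
    rw [hG]; exact (map_ne_zero_iff _ hinj).mpr hg0
  let Qm : Matrix (Fin n) (Fin n) K[X] := Matrix.of Q
  have hQm : Qm.map (algebraMap K[X] (RatFunc K)) = G • P := by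
    ext i j
    simp only [Qm, Matrix.map_apply, Matrix.of_apply, Matrix.smul_apply, smul_eq_mul]
    rw [hQ i j, Algebra.smul_def]
  have hdetQ : Qm.det ≠ 0 := by
    intro h0
    have h1 : (Qm.map (algebraMap K[X] (RatFunc K))).det = 0 := by
      rw [← RingHom.mapMatrix_apply, ← RingHom.map_det, h0, map_zero]
    rw [hQm, Matrix.det_smul] at h1
    rcases mul_eq_zero.mp h1 with h | h
    · exact pow_ne_zero _ hG0 h
    · exact hP h
  obtain ⟨U, hU, hred⟩ := dw_exists_colReduced Qm hdetQ
  set B := Qm * U with hB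
  obtain ⟨hBdet, hBdeg⟩ := dw_natDegree_det B hred
  let a : Fin n → ℤ := fun j => (dwColDeg B j : ℤ) - ((g : K[X]).natDegree : ℤ)
  have hPU : P * U.map (algebraMap K[X] (RatFunc K))
      = G⁻¹ • B.map (algebraMap K[X] (RatFunc K)) := by
    rw [hB, Matrix.map_mul, hQm, Matrix.smul_mul, smul_smul, inv_mul_cancel₀ hG0, one_smul]
  let N : Matrix (Fin n) (Fin n) (RatFunc K) :=
    Matrix.of fun i j => (P * U.map (algebraMap K[X] (RatFunc K))) i j * RatFunc.X ^ (-a j)
  have hGdeg : G.intDegree = ((g : K[X]).natDegree : ℤ) := by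
    rw [hG, RatFunc.intDegree_polynomial]
  refine ⟨U, a, N, hU, fun i j => rfl, ?_, ?_⟩
  · intro i j
    show DegLE ((P * U.map (algebraMap K[X] (RatFunc K))) i j * RatFunc.X ^ (-a j)) 0
    rw [hPU]
    simp only [Matrix.smul_apply, Matrix.map_apply, smul_eq_mul]
    by_cases hb : B i j = 0
    · left
      rw [hb, map_zero, mul_zero, zero_mul]
    · right
      have hb' : algebraMap K[X] (RatFunc K) (B i j) ≠ 0 := (map_ne_zero_iff _ hinj).mpr hb
      rw [RatFunc.intDegree_mul (mul_ne_zero (inv_ne_zero hG0) hb') (bg_X_zpow_ne_zero _),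
        RatFunc.intDegree_mul (inv_ne_zero hG0) hb', RatFunc.intDegree_inv, hGdeg,
        RatFunc.intDegree_polynomial, bg_intDegree_X_zpow]
      have := dw_natDegree_le B i j
      simp only [a]
      omega
  · have hN : N = Matrix.of fun i j =>
        (RatFunc.X ^ (-a j)) * (P * U.map (algebraMap K[X] (RatFunc K))) i j := by
      ext i j
      simp only [N, Matrix.of_apply]
      rw [mul_comm]
    have hdetN : N.det = (RatFunc.X : RatFunc K) ^ (∑ j, -a j) *
        (G⁻¹ ^ n * algebraMap K[X] (RatFunc K) B.det) := by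
      rw [hN, Matrix.det_mul_row, hPU, Matrix.det_smul, Fintype.card_fin, bg_prod_X_zpow,
        ← RingHom.mapMatrix_apply, ← RingHom.map_det]
    have hBdet' : algebraMap K[X] (RatFunc K) B.det ≠ 0 := (map_ne_zero_iff _ hinj).mpr hBdet
    have hGn : G⁻¹ ^ n ≠ 0 := pow_ne_zero _ (inv_ne_zero hG0)
    refine ⟨?_, ?_⟩
    · rw [hdetN]
      exact mul_ne_zero (bg_X_zpow_ne_zero _) (mul_ne_zero hGn hBdet')
    · rw [hdetN, RatFunc.intDegree_mul (bg_X_zpow_ne_zero _) (mul_ne_zero hGn hBdet'),
        RatFunc.intDegree_mul hGn hBdet', bg_intDegree_X_zpow,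
        bg_intDegree_pow (inv_ne_zero hG0), RatFunc.intDegree_inv, hGdeg,
        RatFunc.intDegree_polynomial, hBdeg]
      simp only [a, Finset.sum_neg_distrib, Finset.sum_sub_distrib, Finset.sum_const,
        Finset.card_univ, Fintype.card_fin, nsmul_eq_mul]
      push_cast
      ring

end MatrixForm

end Fermat.Agent.S20
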