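import Mathlib
import Fermat.Agent.S20.FDefs

/-!
P8 / FREE (cusp part): the algebraic dual family `Δ · G⁻¹` of a pointwise independent family
of modular forms on `Γ₀(N)` with as many members as cosets.
-/

set_option autoImplicit false

namespace Fermat.Agent.S20

open UpperHalfPlane ModularForm Filter Topology
open Fermat.Agent.S23
open scoped MatrixGroups Manifold

namespace DualAlg

/-- The ring of holomorphic functions on the upper half plane. -/
def holRing : Subring (ℍ → ℂ) where
  carrier := {f | MDiff f}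
  mul_mem' hf hg := hf.mul hg
  one_mem' := mdifferentiable_const
  add_mem' hf hg := hf.add hg
  zero_mem' := mdifferentiable_const
  neg_mem' hf := hf.neg

/-- The determinant of a matrix of holomorphic functions is holomorphic. -/
theorem mdiff_det {n : Type*} [Fintype n] [DecidableEq n] (A : Matrix n n (ℍ → ℂ))
    (hA : ∀ i j, MDiff (A i j)) : MDiff (fun z => (A.map (fun f => f z)).det) := by
  let A' : Matrix n n holRing := Matrix.of fun i j => ⟨A i j, hA i j⟩
  have h1 : A = A'.map holRing.subtype := rfl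
  have h2 : A.det ∈ holRing := by
    have h2' : (A'.map holRing.subtype).det = holRing.subtype A'.det :=
      (RingHom.map_det holRing.subtype A').symm
    rw [h1, h2']
    exact (A'.det).2
  have h3 : (fun z => (A.map (fun f => f z)).det) = A.det := by
    funext z
    exact (RingHom.map_det (Pi.evalRingHom (fun _ : ℍ => ℂ) z) A).symm
  rw [h3]
  exact h2

theorem discriminant_smul (γ : SL(2, ℤ)) (τ : ℍ) :
    ModularForm.discriminant (γ • τ) = denom γ τ ^ (12 : ℤ) * ModularForm.discriminant τ := by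
  have : SlashInvariantFormClass (CuspForm 𝒮ℒ 12) (CongruenceSubgroup.Gamma 1) 12 :=
    CongruenceSubgroup.Gamma_one_coe_eq_SL ▸
      (inferInstance : SlashInvariantFormClass (CuspForm 𝒮ℒ 12) 𝒮ℒ 12)
  exact SlashInvariantForm.slash_action_eqn_SL'' CuspForm.discriminant
    (CongruenceSubgroup.mem_Gamma_one γ) τ

variable {N : ℕ} {ι : Type} {κ : ι → ℤ}

/-- The matrix of translates `(tr (g j) (e i))_{i,j}` as a matrix of functions. -/
noncomputable def trMatFun (g : (i : ι) → ModularForm (Γ0 N) (κ i)) (e : ι ≃ Q N) :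
    Matrix ι ι (ℍ → ℂ) :=
  Matrix.of fun i j => tr (g j) (e i)

/-- The matrix of translates `(tr (g j) (e i) z)_{i,j}`. -/
noncomputable def trMat (g : (i : ι) → ModularForm (Γ0 N) (κ i)) (e : ι ≃ Q N) (z : ℍ) :
    Matrix ι ι ℂ :=
  Matrix.of fun i j => tr (g j) (e i) z

theorem trMat_apply (g : (i : ι) → ModularForm (Γ0 N) (κ i)) (e : ι ≃ Q N) (z : ℍ) (i j : ι) :
    trMat g e z i j = tr (g j) (e i) z := rfl

theorem mdiff_tr [NeZero N] (g : (i : ι) → ModularForm (Γ0 N) (κ i)) (j : ι) (q : Q N) :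
    MDiff (tr (g j) q) :=
  (isEquivFamily_tr (g j)).holo q

theorem det_trMat_ne_zero [Fintype ι] [DecidableEq ι] (g : (i : ι) → ModularForm (Γ0 N) (κ i))
    (e : ι ≃ Q N)
    (hind : ∀ (z₀ : ℍ) (c : ι → ℂ), (∀ q : Q N, ∑ i, c i * tr (g i) q z₀ = 0) → c = 0)
    (z : ℍ) : (trMat g e z).det ≠ 0 := by
  intro hdet
  obtain ⟨v, hv0, hv⟩ := Matrix.exists_mulVec_eq_zero_iff.mpr hdet
  apply hv0
  apply hind z v
  intro q
  have := congrFun hv (e.symm q)
  simp only [Matrix.mulVec, dotProduct, trMat_apply, Equiv.apply_symm_apply,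
    Pi.zero_apply] at this
  rw [← this]
  exact Finset.sum_congr rfl fun i _ => mul_comm _ _

theorem mdiff_det_trMat [NeZero N] [Fintype ι] [DecidableEq ι]
    (g : (i : ι) → ModularForm (Γ0 N) (κ i)) (e : ι ≃ Q N) :
    MDiff (fun z => (trMat g e z).det) :=
  mdiff_det (trMatFun g e) fun i j => mdiff_tr g j (e i)

theorem mdiff_adjugate_trMat [NeZero N] [Fintype ι] [DecidableEq ι]
    (g : (i : ι) → ModularForm (Γ0 N) (κ i)) (e : ι ≃ Q N) (i j : ι) :
    MDiff (fun z => (trMat g e z).adjugate i j) := by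
  have h := mdiff_det ((trMatFun g e).updateRow j (Pi.single i 1)) (fun i' j' => by
    rw [Matrix.updateRow_apply]
    split_ifs
    · by_cases hij : j' = i
      · subst hij
        rw [Pi.single_eq_same]
        exact mdifferentiable_const
      · rw [Pi.single_eq_of_ne hij]
        exact mdifferentiable_const
    · exact mdiff_tr g j' (e i'))
  have heq : (fun z => (trMat g e z).adjugate i j) =
      fun z => (((trMatFun g e).updateRow j (Pi.single i 1)).map fun f => f z).det := by
    funext z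
    rw [Matrix.adjugate_apply]
    congr 1
    ext i' j'
    simp only [Matrix.map_apply, Matrix.updateRow_apply]
    split_ifs
    · by_cases hij : j' = i
      · subst hij
        simp
      · simp [Pi.single_eq_of_ne hij]
    · rfl
  rw [heq]
  exact h

theorem inv_trMat_apply [Fintype ι] [DecidableEq ι] (g : (i : ι) → ModularForm (Γ0 N) (κ i))
    (e : ι ≃ Q N) (z : ℍ) (i j : ι) :
    (trMat g e z)⁻¹ i j = ((trMat g e z).det)⁻¹ * (trMat g e z).adjugate i j := by
  rw [Matrix.inv_def, Ring.inverse_eq_inv', Matrix.smul_apply, smul_eq_mul]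

theorem mdiff_inv_trMat [NeZero N] [Fintype ι] [DecidableEq ι]
    (g : (i : ι) → ModularForm (Γ0 N) (κ i)) (e : ι ≃ Q N)
    (hdet : ∀ z, (trMat g e z).det ≠ 0) (i j : ι) :
    MDiff (fun z => (trMat g e z)⁻¹ i j) := by
  have h : MDiff (fun z => ((trMat g e z).det)⁻¹ * (trMat g e z).adjugate i j) :=
    ((mdiff_det_trMat g e).inv hdet).mul (mdiff_adjugate_trMat g e i j)
  have heq : (fun z => (trMat g e z)⁻¹ i j) =
      fun z => ((trMat g e z).det)⁻¹ * (trMat g e z).adjugate i j := by
    funext z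
    exact inv_trMat_apply g e z i j
  rw [heq]
  exact h

/-- The transformation of a translate under `SL(2, ℤ)`. -/
theorem tr_smul_apply [NeZero N] {k : ℤ} (f : ModularForm (Γ0 N) k) (γ : SL(2, ℤ)) (q : Q N)
    (z : ℍ) : tr f q (γ • z) = denom γ z ^ k * tr f ((slElt γ)⁻¹ • q) z := by
  have h := congrFun ((isEquivFamily_tr f).slash_SL γ q) z
  rw [SL_slash_apply] at h
  have hd : denom γ z ≠ 0 := denom_ne_zero γ z
  rw [← h, mul_comm, mul_assoc, ← zpow_add₀ hd]
  simp

/-- The transformation of the inverse matrix of translates under `SL(2, ℤ)`. -/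
theorem inv_trMat_smul [NeZero N] [Fintype ι] [DecidableEq ι]
    (g : (i : ι) → ModularForm (Γ0 N) (κ i)) (e : ι ≃ Q N)
    (hdet : ∀ z, (trMat g e z).det ≠ 0) (γ : SL(2, ℤ)) (z : ℍ) (i : ι) (q : Q N) :
    (trMat g e (γ • z))⁻¹ i (e.symm q) =
      denom γ z ^ (-κ i) * (trMat g e z)⁻¹ i (e.symm ((slElt γ)⁻¹ • q)) := by
  have hd : denom γ z ≠ 0 := denom_ne_zero γ z
  let σ : ι ≃ ι := e.trans ((MulAction.toPerm (slElt γ)⁻¹ : Equiv.Perm (Q N)).trans e.symm)
  have hσ : ∀ i', e (σ i') = (slElt γ)⁻¹ • e i' := fun i' => by simp [σ]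
  let H' : Matrix ι ι ℂ := Matrix.of fun i i' =>
    denom γ z ^ (-κ i) * (trMat g e z)⁻¹ i (σ i')
  have hinv : (trMat g e z)⁻¹ * trMat g e z = 1 :=
    Matrix.nonsing_inv_mul _ (isUnit_iff_ne_zero.mpr (hdet z))
  have hleft : H' * trMat g e (γ • z) = 1 := by
    ext i j
    have h1 : ∀ i', H' i i' * trMat g e (γ • z) i' j =
        denom γ z ^ (-κ i) * denom γ z ^ (κ j) *
          ((trMat g e z)⁻¹ i (σ i') * trMat g e z (σ i') j) := by
      intro i'
      simp only [H', Matrix.of_apply, trMat_apply, tr_smul_apply, hσ]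
      ring
    rw [Matrix.mul_apply, Finset.sum_congr rfl fun i' _ => h1 i', ← Finset.mul_sum,
      Equiv.sum_comp σ (fun i'' => (trMat g e z)⁻¹ i i'' * trMat g e z i'' j),
      ← Matrix.mul_apply, hinv, Matrix.one_apply]
    split_ifs with hij
    · subst hij
      rw [← zpow_add₀ hd]
      simp
    · simp
  rw [Matrix.inv_eq_left_inv hleft]
  simp [H', σ]

/-- The dual family `Δ · G⁻¹`. -/
noncomputable def dualFun [Fintype ι] [DecidableEq ι] (g : (i : ι) → ModularForm (Γ0 N) (κ i))
    (e : ι ≃ Q N) (i : ι) (q : Q N) (z : ℍ) : ℂ :=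
  ModularForm.discriminant z * (trMat g e z)⁻¹ i (e.symm q)

end DualAlg

open DualAlg in
/-- the dual family `Δ · G⁻¹` of a pointwise independent family with `card ι = card (Q N)`:
holomorphic, equivariant of weight `12 - κ i`, two-sided duality -/
theorem exists_dual_alg {N : ℕ} [NeZero N] {ι : Type} [Fintype ι] [DecidableEq ι] {κ : ι → ℤ}
    (g : (i : ι) → ModularForm (Γ0 N) (κ i))
    (hcard : Fintype.card ι = Fintype.card (Q N))
    (hind : ∀ (z₀ : ℍ) (c : ι → ℂ), (∀ q : Q N, ∑ i, c i * tr (g i) q z₀ = 0) → c = 0) :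
    ∃ d : ι → Q N → ℍ → ℂ, (∀ i q, MDiff (d i q)) ∧
      (∀ (i : ι) (γ : SL(2, ℤ)) (q : Q N), d i q ∣[12 - κ i] γ = d i ((slElt γ)⁻¹ • q)) ∧
      (∀ (i j : ι) (z : ℍ),
        ∑ q : Q N, d i q z * tr (g j) q z = if i = j then ModularForm.discriminant z else 0) ∧
      (∀ (q : Q N) (z : ℍ), ∑ i, tr (g i) q z * d i q z = ModularForm.discriminant z) ∧
      (∀ (q q' : Q N) (z : ℍ), q ≠ q' → ∑ i, tr (g i) q z * d i q' z = 0) := by
  let e : ι ≃ Q N := Fintype.equivOfCardEq hcard
  have hdet : ∀ z, (trMat g e z).det ≠ 0 := det_trMat_ne_zero g e hind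
  have hinv : ∀ z, (trMat g e z)⁻¹ * trMat g e z = 1 := fun z =>
    Matrix.nonsing_inv_mul _ (isUnit_iff_ne_zero.mpr (hdet z))
  have hinv' : ∀ z, trMat g e z * (trMat g e z)⁻¹ = 1 := fun z =>
    Matrix.mul_nonsing_inv _ (isUnit_iff_ne_zero.mpr (hdet z))
  have hright : ∀ (q q' : Q N) (z : ℍ), ∑ i, tr (g i) q z * dualFun g e i q' z =
      ModularForm.discriminant z * (1 : Matrix ι ι ℂ) (e.symm q) (e.symm q') := by
    intro q q' z
    have h1 : ∀ i, tr (g i) q z * dualFun g e i q' z = ModularForm.discriminant z *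
        (trMat g e z (e.symm q) i * (trMat g e z)⁻¹ i (e.symm q')) := by
      intro i
      simp only [dualFun, trMat_apply, Equiv.apply_symm_apply]
      ring
    rw [Finset.sum_congr rfl fun i _ => h1 i, ← Finset.mul_sum, ← Matrix.mul_apply, hinv']
  refine ⟨dualFun g e, ?_, ?_, ?_, ?_, ?_⟩
  · intro i q
    exact (ModularFormClass.holo CuspForm.discriminant).mul
      (mdiff_inv_trMat g e hdet i (e.symm q))
  · intro i γ q
    funext z
    have hd : denom γ z ≠ 0 := denom_ne_zero γ z
    rw [SL_slash_apply]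
    simp only [dualFun]
    rw [discriminant_smul, inv_trMat_smul g e hdet]
    have h12 : denom γ z ^ (12 : ℤ) * denom γ z ^ (-κ i) * denom γ z ^ (-(12 - κ i)) = 1 := by
      rw [← zpow_add₀ hd, ← zpow_add₀ hd]
      have : (12 : ℤ) + -κ i + -(12 - κ i) = 0 := by ring
      rw [this, zpow_zero]
    linear_combination (ModularForm.discriminant z *
      (trMat g e z)⁻¹ i (e.symm ((slElt γ)⁻¹ • q))) * h12
  · intro i j z
    have h1 : ∀ q : Q N, dualFun g e i q z * tr (g j) q z = ModularForm.discriminant z *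
        ((trMat g e z)⁻¹ i (e.symm q) * trMat g e z (e.symm q) j) := by
      intro q
      simp only [dualFun, trMat_apply, Equiv.apply_symm_apply]
      ring
    rw [Finset.sum_congr rfl fun q _ => h1 q, ← Finset.mul_sum,
      Equiv.sum_comp e.symm (fun i' => (trMat g e z)⁻¹ i i' * trMat g e z i' j),
      ← Matrix.mul_apply, hinv, Matrix.one_apply]
    split_ifs <;> simp
  · intro q z
    rw [hright, Matrix.one_apply_eq, mul_one]
  · intro q q' z hqq
    rw [hright, Matrix.one_apply_ne (fun h => hqq (e.symm.injective h)), mul_zero]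

end Fermat.Agent.S20
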