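import Mathlib

/-!
P8 / FREE (cusp part, note 100): definitions for the analytic jet/twist argument at `i∞`.
-/

set_option autoImplicit false

namespace Fermat.Agent.S20

open UpperHalfPlane ModularForm EisensteinSeries Filter Topology
open scoped MatrixGroups Manifold

/-- `N`-periodic, holomorphic, bounded at `i∞` -/
structure IsPerHol (N : ℕ) (φ : ℍ → ℂ) : Prop where
  per : Function.Periodic (φ ∘ ofComplex) (N : ℝ)
  hol : MDiff φ
  bdd : IsBoundedAtImInfty φ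

/-- the weights of the twist: `c_l(z) = N⁻¹ ∑_{m<N} q_N(z+l)^{-m}` -/
noncomputable def twistCoeff (N l : ℕ) (z : ℍ) : ℂ :=
  (N : ℂ)⁻¹ * ∑ m ∈ Finset.range N,
    (Function.Periodic.qParam (N : ℝ) ((((l : ℝ) +ᵥ z : ℍ)) : ℂ))⁻¹ ^ m

/-- the twist `∑_{l<N} c_l(z) φ(z+l) = ∑_n a_n q^{⌊n/N⌋}` of `φ = ∑ a_n q_N^n` -/
noncomputable def twist (N : ℕ) (φ : ℍ → ℂ) (z : ℍ) : ℂ :=
  ∑ l ∈ Finset.range N, twistCoeff N l z * φ ((l : ℝ) +ᵥ z)

/-- the sum of the first `N` coefficients of the `q_N`-expansion -/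
noncomputable def jetSum (N : ℕ) (φ : ℍ → ℂ) : ℂ :=
  ∑ m ∈ Finset.range N, (qExpansion (N : ℝ) φ).coeff m

end Fermat.Agent.S20
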