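import Mathlib
import Fermat.Agent.S20.JetAnalyticDefs

/-!
P8 / FREE (cusp part, note 100): closure properties of `IsPerHol` and linearity of the
`q_N`-expansion coefficients; the effect of the translation `z ↦ z + 1` on the coefficients.
-/

set_option autoImplicit false

namespace Fermat.Agent.S20

open UpperHalfPlane ModularForm EisensteinSeries Filter Topology
open scoped MatrixGroups Manifold

variable {N : ℕ} {φ φ₁ φ₂ : ℍ → ℂ}

theorem isPerHol_zero (N : ℕ) : IsPerHol N (0 : ℍ → ℂ) where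
  per := fun _ => rfl
  hol := mdifferentiable_const
  bdd := Filter.const_boundedAtFilter atImInfty (0 : ℂ)

theorem IsPerHol.add (h₁ : IsPerHol N φ₁) (h₂ : IsPerHol N φ₂) : IsPerHol N (φ₁ + φ₂) where
  per := fun x => by
    have e1 := h₁.per x
    have e2 := h₂.per x
    simp only [Function.comp_apply, Pi.add_apply] at e1 e2 ⊢
    rw [e1, e2]
  hol := h₁.hol.add h₂.hol
  bdd := h₁.bdd.add h₂.bdd

theorem IsPerHol.smul (c : ℂ) (h : IsPerHol N φ) : IsPerHol N (c • φ) where
  per := fun x => by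
    have e1 := h.per x
    simp only [Function.comp_apply, Pi.smul_apply] at e1 ⊢
    rw [e1]
  hol := h.hol.const_smul c
  bdd := h.bdd.const_smul_left c

theorem IsPerHol.sum {α : Type*} (s : Finset α) (φ : α → ℍ → ℂ) (h : ∀ i ∈ s, IsPerHol N (φ i)) :
    IsPerHol N (∑ i ∈ s, φ i) := by
  classical
  induction s using Finset.induction_on with
  | empty =>
    rw [Finset.sum_empty]
    exact isPerHol_zero N
  | insert a s ha ih =>
    rw [Finset.sum_insert ha]
    exact (h a (Finset.mem_insert_self a s)).add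
      (ih fun i hi => h i (Finset.mem_insert_of_mem hi))

/-- the analyticity of the cusp function at `0` -/
theorem IsPerHol.analyticAt (hN : 0 < N) (h : IsPerHol N φ) :
    AnalyticAt ℂ (cuspFunction (N : ℝ) φ) 0 :=
  analyticAt_cuspFunction_zero (Nat.cast_pos.mpr hN) h.per h.hol h.bdd

theorem vadd_one_ofComplex {w : ℂ} (hw : 0 < w.im) :
    ((1 : ℝ) +ᵥ ofComplex w : ℍ) = ofComplex (w + 1) := by
  have hw' : 0 < (w + 1).im := by simpa using hw
  rw [ofComplex_apply_of_im_pos hw, ofComplex_apply_of_im_pos hw']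
  ext
  simp [UpperHalfPlane.coe_vadd, add_comm]

theorem IsPerHol.vadd_one (h : IsPerHol N φ) : IsPerHol N (fun z => φ ((1 : ℝ) +ᵥ z)) where
  per := fun w => by
    show φ ((1 : ℝ) +ᵥ ofComplex (w + ((N : ℝ) : ℂ))) = φ ((1 : ℝ) +ᵥ ofComplex w)
    by_cases hw : 0 < w.im
    · have hw' : 0 < (w + ((N : ℝ) : ℂ)).im := by simpa using hw
      rw [vadd_one_ofComplex hw, vadd_one_ofComplex hw']
      have e := h.per (w + 1)
      simp only [Function.comp_apply] at e
      rw [← e]
      congr 2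
      ring
    · have hw0 : w.im ≤ 0 := not_lt.mp hw
      have hw' : (w + ((N : ℝ) : ℂ)).im ≤ 0 := by simpa using hw0
      rw [ofComplex_apply_eq_of_im_nonpos hw' hw0]
  hol := by
    rw [UpperHalfPlane.mdifferentiable_iff]
    have h1 : DifferentiableOn ℂ (φ ∘ ofComplex) {z | 0 < z.im} :=
      UpperHalfPlane.mdifferentiable_iff.mp h.hol
    have h2 : DifferentiableOn ℂ ((φ ∘ ofComplex) ∘ fun w : ℂ => w + 1) {z | 0 < z.im} := by
      refine h1.comp (by fun_prop) ?_
      intro w hw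
      simpa using hw
    refine h2.congr ?_
    intro w hw
    show φ ((1 : ℝ) +ᵥ ofComplex w) = φ (ofComplex (w + 1))
    rw [vadd_one_ofComplex hw]
  bdd := by
    obtain ⟨M, A, hMA⟩ := UpperHalfPlane.isBoundedAtImInfty_iff.mp h.bdd
    refine UpperHalfPlane.isBoundedAtImInfty_iff.mpr ⟨M, A, fun z hz => ?_⟩
    exact hMA _ (by rwa [UpperHalfPlane.vadd_im])

theorem IsPerHol.coeff_add (hN : 0 < N) (h₁ : IsPerHol N φ₁) (h₂ : IsPerHol N φ₂) (m : ℕ) :
    (qExpansion (N : ℝ) (φ₁ + φ₂)).coeff m =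
      (qExpansion (N : ℝ) φ₁).coeff m + (qExpansion (N : ℝ) φ₂).coeff m := by
  rw [qExpansion_add (h₁.analyticAt hN) (h₂.analyticAt hN), map_add]

theorem IsPerHol.coeff_smul (hN : 0 < N) (c : ℂ) (h : IsPerHol N φ) (m : ℕ) :
    (qExpansion (N : ℝ) (c • φ)).coeff m = c * (qExpansion (N : ℝ) φ).coeff m := by
  rw [qExpansion_smul (h.analyticAt hN) c, PowerSeries.coeff_smul, smul_eq_mul]

theorem IsPerHol.coeff_sum (hN : 0 < N) {α : Type*} (s : Finset α) (c : α → ℂ) (φ : α → ℍ → ℂ)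
    (h : ∀ i ∈ s, IsPerHol N (φ i)) (m : ℕ) :
    (qExpansion (N : ℝ) (∑ i ∈ s, c i • φ i)).coeff m =
      ∑ i ∈ s, c i * (qExpansion (N : ℝ) (φ i)).coeff m := by
  classical
  induction s using Finset.induction_on with
  | empty =>
    rw [Finset.sum_empty, Finset.sum_empty, qExpansion_zero, map_zero]
  | insert a s ha ih =>
    have h1 : IsPerHol N (c a • φ a) := (h a (Finset.mem_insert_self a s)).smul (c a)
    have h2 : IsPerHol N (∑ i ∈ s, c i • φ i) :=
      IsPerHol.sum s (fun i => c i • φ i)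
        (fun i hi => (h i (Finset.mem_insert_of_mem hi)).smul (c i))
    rw [Finset.sum_insert ha, Finset.sum_insert ha, h1.coeff_add hN h2,
      (h a (Finset.mem_insert_self a s)).coeff_smul hN,
      ih fun i hi => h i (Finset.mem_insert_of_mem hi)]

theorem qParam_vadd_one (hN : 0 < N) (z : ℍ) :
    Function.Periodic.qParam (N : ℝ) (((1 : ℝ) +ᵥ z : ℍ) : ℂ) =
      Complex.exp (2 * Real.pi * Complex.I / N) * Function.Periodic.qParam (N : ℝ) (z : ℂ) := by
  have hN' : (N : ℂ) ≠ 0 := Nat.cast_ne_zero.mpr hN.ne'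
  rw [Function.Periodic.qParam, Function.Periodic.qParam, ← Complex.exp_add,
    UpperHalfPlane.coe_vadd]
  congr 1
  push_cast
  field_simp

/-- uniqueness of the coefficients of the `q`-expansion, for functions on `ℍ` -/
theorem qExpansion_coeff_unique_fun {h : ℝ} {f : ℍ → ℂ} {c : ℕ → ℂ} (hh : 0 < h)
    (hfanalytic : AnalyticAt ℂ (cuspFunction h f) 0)
    (hf : ∀ τ : ℍ, HasSum (fun m => c m • Function.Periodic.qParam h (τ : ℂ) ^ m) (f τ))
    (m : ℕ) : c m = (qExpansion h f).coeff m := by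
  have h1 := (hasFPowerSeriesOnBall_cuspFunction hh hfanalytic hf).hasFPowerSeriesAt
  have h2 : HasFPowerSeriesAt (cuspFunction h f)
      (FormalMultilinearSeries.ofScalars ℂ fun m => (qExpansion h f).coeff m) 0 := by
    simpa [qExpansion_coeff, div_eq_mul_inv, mul_comm] using hfanalytic.hasFPowerSeriesAt
  have h3 := congr_arg (FormalMultilinearSeries.coeff · m) (h1.eq_formalMultilinearSeries h2)
  simpa [FormalMultilinearSeries.coeff_ofScalars] using h3

/-- translation by `1` multiplies the `m`-th coefficient by `ζ_N ^ m` -/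
theorem IsPerHol.coeff_vadd_one (hN : 0 < N) (h : IsPerHol N φ) (m : ℕ) :
    (qExpansion (N : ℝ) (fun z => φ ((1 : ℝ) +ᵥ z))).coeff m =
      Complex.exp (2 * Real.pi * Complex.I / N) ^ m * (qExpansion (N : ℝ) φ).coeff m := by
  have hN' : (0 : ℝ) < N := Nat.cast_pos.mpr hN
  have hsum : ∀ τ : ℍ, HasSum (fun m : ℕ =>
      (Complex.exp (2 * Real.pi * Complex.I / N) ^ m * (qExpansion (N : ℝ) φ).coeff m) •
        Function.Periodic.qParam (N : ℝ) (τ : ℂ) ^ m) (φ ((1 : ℝ) +ᵥ τ)) := by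
    intro τ
    have h1 := hasSum_qExpansion hN' h.per h.hol h.bdd ((1 : ℝ) +ᵥ τ)
    have h2 : (fun m : ℕ => (qExpansion (N : ℝ) φ).coeff m •
        Function.Periodic.qParam (N : ℝ) (((1 : ℝ) +ᵥ τ : ℍ) : ℂ) ^ m) =
        fun m : ℕ => (Complex.exp (2 * Real.pi * Complex.I / N) ^ m *
          (qExpansion (N : ℝ) φ).coeff m) • Function.Periodic.qParam (N : ℝ) (τ : ℂ) ^ m := by
      funext m
      rw [qParam_vadd_one hN, mul_pow, smul_eq_mul, smul_eq_mul]
      ring
    rw [← h2]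
    exact h1
  exact (qExpansion_coeff_unique_fun hN' (h.vadd_one.analyticAt hN) hsum m).symm

theorem IsPerHol.tendsto (hN : 0 < N) (h : IsPerHol N φ) :
    Tendsto φ atImInfty (𝓝 ((qExpansion (N : ℝ) φ).coeff 0)) := by
  have hN' : (0 : ℝ) < N := Nat.cast_pos.mpr hN
  have h0 : (qExpansion (N : ℝ) φ).coeff 0 = cuspFunction (N : ℝ) φ 0 := by
    simp [qExpansion_coeff]
  rw [h0]
  have h1 : Tendsto (fun τ : ℍ => cuspFunction (N : ℝ) φ
      (Function.Periodic.qParam (N : ℝ) (τ : ℂ))) atImInfty (𝓝 (cuspFunction (N : ℝ) φ 0)) :=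
    (h.analyticAt hN).continuousAt.tendsto.comp (qParam_tendsto_atImInfty hN')
  refine h1.congr fun τ => ?_
  exact eq_cuspFunction τ hN'.ne' h.per

end Fermat.Agent.S20
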