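import Mathlib

/-!
P8 / FREE (cusp part): finite Fourier analysis on `ℤ/N` with the root of unity
`ζ = exp (2 π i / N)`: orthogonality, the twist of a polynomial of degree `< N`, and discrete
Fourier inversion.
-/

set_option autoImplicit false

namespace Fermat.Agent.S20

/-- orthogonality of the characters of `ℤ/N` -/
theorem rootOfUnity_orth {N : ℕ} (hN : 0 < N) {a b : ℕ} (ha : a < N) (hb : b < N) :
    ∑ l ∈ Finset.range N, Complex.exp (2 * Real.pi * Complex.I / N) ^ (l * a) *
        (Complex.exp (2 * Real.pi * Complex.I / N) ^ (l * b))⁻¹ = if a = b then (N : ℂ) else 0 := by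
  have hζ : IsPrimitiveRoot (Complex.exp (2 * Real.pi * Complex.I / N)) N :=
    Complex.isPrimitiveRoot_exp N hN.ne'
  set ζ := Complex.exp (2 * Real.pi * Complex.I / N) with hζdef
  have hζ0 : ζ ≠ 0 := Complex.exp_ne_zero _
  have hterm : ∀ l : ℕ, ζ ^ (l * a) * (ζ ^ (l * b))⁻¹ = (ζ ^ a * (ζ ^ b)⁻¹) ^ l := by
    intro l
    rw [mul_pow, ← pow_mul, inv_pow, ← pow_mul, mul_comm a l, mul_comm b l]
  simp_rw [hterm]
  by_cases hab : a = b
  · rw [if_pos hab, hab, mul_inv_cancel₀ (pow_ne_zero _ hζ0)]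
    simp
  · rw [if_neg hab]
    have hr1 : ζ ^ a * (ζ ^ b)⁻¹ ≠ 1 := by
      intro h
      apply hab
      apply hζ.pow_inj ha hb
      have h2 := congrArg (fun t => t * ζ ^ b) h
      simpa [mul_assoc, inv_mul_cancel₀ (pow_ne_zero b hζ0)] using h2
    have hrN : (ζ ^ a * (ζ ^ b)⁻¹) ^ N = 1 := by
      rw [mul_pow, inv_pow, ← pow_mul, ← pow_mul, mul_comm a N, mul_comm b N, pow_mul, pow_mul,
        hζ.pow_eq_one, one_pow, one_pow, inv_one, mul_one]
    have hgeom := geom_sum_mul (ζ ^ a * (ζ ^ b)⁻¹) N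
    rw [hrN, sub_self] at hgeom
    exact (mul_eq_zero.mp hgeom).resolve_right (sub_ne_zero.mpr hr1)

/-- discrete Fourier inversion on `ℤ/N` -/
theorem fourier_inversion {N : ℕ} (hN : 0 < N) (u : ℕ → ℂ) (m' : ℕ) (hm' : m' < N) :
    ∑ l ∈ Finset.range N, (Complex.exp (2 * Real.pi * Complex.I / N) ^ (l * m'))⁻¹ *
        ∑ m ∈ Finset.range N, Complex.exp (2 * Real.pi * Complex.I / N) ^ (l * m) * u m =
      N * u m' := by
  simp_rw [Finset.mul_sum]
  rw [Finset.sum_comm]
  have h1 : ∀ m ∈ Finset.range N,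
      ∑ l ∈ Finset.range N, (Complex.exp (2 * Real.pi * Complex.I / N) ^ (l * m'))⁻¹ *
        (Complex.exp (2 * Real.pi * Complex.I / N) ^ (l * m) * u m)
      = (if m = m' then (N : ℂ) else 0) * u m := by
    intro m hm
    rw [← rootOfUnity_orth hN (Finset.mem_range.mp hm) hm', Finset.sum_mul]
    refine Finset.sum_congr rfl fun l _ => ?_
    ring
  rw [Finset.sum_congr rfl h1]
  simp [Finset.sum_ite_eq', Finset.mem_range.mpr hm']

/-- the twist of a polynomial `∑_{n<N} a n x^n` in `x` is its sum of coefficients -/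
theorem twist_poly {N : ℕ} (hN : 0 < N) (a : ℕ → ℂ) {x : ℂ} (hx : x ≠ 0) :
    ∑ l ∈ Finset.range N, ((N : ℂ)⁻¹ * ∑ m ∈ Finset.range N,
        (Complex.exp (2 * Real.pi * Complex.I / N) ^ l * x)⁻¹ ^ m) *
      (∑ n ∈ Finset.range N, a n * (Complex.exp (2 * Real.pi * Complex.I / N) ^ l * x) ^ n) =
      ∑ n ∈ Finset.range N, a n := by
  have hN0 : (N : ℂ) ≠ 0 := Nat.cast_ne_zero.mpr hN.ne'
  have key : ∀ n ∈ Finset.range N, ∀ m ∈ Finset.range N,
      ∑ l ∈ Finset.range N, (Complex.exp (2 * Real.pi * Complex.I / N) ^ l * x)⁻¹ ^ m *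
        (Complex.exp (2 * Real.pi * Complex.I / N) ^ l * x) ^ n
      = if n = m then (N : ℂ) else 0 := by
    intro n hn m hm
    have h2 := rootOfUnity_orth hN (Finset.mem_range.mp hn) (Finset.mem_range.mp hm)
    by_cases hnm : n = m
    · subst hnm
      rw [if_pos rfl]
      have h3 : ∀ l ∈ Finset.range N,
          (Complex.exp (2 * Real.pi * Complex.I / N) ^ l * x)⁻¹ ^ n *
            (Complex.exp (2 * Real.pi * Complex.I / N) ^ l * x) ^ n = 1 := by
        intro l _
        rw [inv_pow, inv_mul_cancel₀ (pow_ne_zero _ (mul_ne_zero (pow_ne_zero _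
          (Complex.exp_ne_zero _)) hx))]
      rw [Finset.sum_congr rfl h3]
      simp
    · rw [if_neg hnm] at h2 ⊢
      have h3 : ∀ l ∈ Finset.range N,
          (Complex.exp (2 * Real.pi * Complex.I / N) ^ l * x)⁻¹ ^ m *
            (Complex.exp (2 * Real.pi * Complex.I / N) ^ l * x) ^ n
          = (x ^ n * (x ^ m)⁻¹) * (Complex.exp (2 * Real.pi * Complex.I / N) ^ (l * n) *
              (Complex.exp (2 * Real.pi * Complex.I / N) ^ (l * m))⁻¹) := by
        intro l _
        rw [inv_pow, mul_pow, mul_pow, mul_inv, ← pow_mul, ← pow_mul]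
        ring
      rw [Finset.sum_congr rfl h3, ← Finset.mul_sum, h2, mul_zero]
  calc ∑ l ∈ Finset.range N, ((N : ℂ)⁻¹ * ∑ m ∈ Finset.range N,
          (Complex.exp (2 * Real.pi * Complex.I / N) ^ l * x)⁻¹ ^ m) *
        (∑ n ∈ Finset.range N, a n * (Complex.exp (2 * Real.pi * Complex.I / N) ^ l * x) ^ n)
      = (N : ℂ)⁻¹ * ∑ n ∈ Finset.range N, a n * ∑ m ∈ Finset.range N,
          ∑ l ∈ Finset.range N, (Complex.exp (2 * Real.pi * Complex.I / N) ^ l * x)⁻¹ ^ m *
            (Complex.exp (2 * Real.pi * Complex.I / N) ^ l * x) ^ n := by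
        have hL : ∀ l ∈ Finset.range N,
            ((N : ℂ)⁻¹ * ∑ m ∈ Finset.range N,
              (Complex.exp (2 * Real.pi * Complex.I / N) ^ l * x)⁻¹ ^ m) *
            (∑ n ∈ Finset.range N,
              a n * (Complex.exp (2 * Real.pi * Complex.I / N) ^ l * x) ^ n)
            = ∑ n ∈ Finset.range N, ∑ m ∈ Finset.range N, (N : ℂ)⁻¹ * (a n *
                ((Complex.exp (2 * Real.pi * Complex.I / N) ^ l * x)⁻¹ ^ m *
                  (Complex.exp (2 * Real.pi * Complex.I / N) ^ l * x) ^ n)) := by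
          intro l _
          rw [Finset.mul_sum]
          refine Finset.sum_congr rfl fun n _ => ?_
          rw [Finset.mul_sum, Finset.sum_mul]
          refine Finset.sum_congr rfl fun m _ => ?_
          ring
        rw [Finset.sum_congr rfl hL, Finset.sum_comm, Finset.mul_sum]
        refine Finset.sum_congr rfl fun n _ => ?_
        rw [Finset.sum_comm, Finset.mul_sum, Finset.mul_sum]
        refine Finset.sum_congr rfl fun m _ => ?_
        rw [Finset.mul_sum, Finset.mul_sum]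
    _ = (N : ℂ)⁻¹ * ∑ n ∈ Finset.range N, a n * (N : ℂ) := by
        congr 1
        refine Finset.sum_congr rfl fun n hn => ?_
        congr 1
        rw [Finset.sum_congr rfl (key n hn)]
        simp [Finset.sum_ite_eq, hn]
    _ = ∑ n ∈ Finset.range N, a n := by
        rw [← Finset.sum_mul, mul_comm, mul_assoc, mul_inv_cancel₀ hN0, mul_one]

end Fermat.Agent.S20
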