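import Mathlib
import Fermat.Agent.S20.JetAnalyticDefs
import Fermat.Agent.S20.JetAnalyticB
import Fermat.Agent.S20.JetFourier

/-!
P8 / FREE (cusp part, note 100): the analytic part of the jet/twist argument at `i∞`:
the twist of an `N`-periodic holomorphic function converges to the sum of its first `N`
`q_N`-coefficients; `Δ · twistCoeff → 0`; vanishing of the first `N` coefficients gives `O(Δ)`.
-/

set_option autoImplicit false

namespace Fermat.Agent.S20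

open UpperHalfPlane ModularForm EisensteinSeries Filter Topology
open scoped MatrixGroups Manifold

namespace JetAnalytic

local notation "𝕢" => Function.Periodic.qParam

/-- `q_N(l + z) = ζ_N ^ l * q_N(z)` -/
theorem qParam_vadd (N l : ℕ) (hN : 0 < N) (z : ℍ) :
    𝕢 (N : ℝ) (((l : ℝ) +ᵥ z : ℍ) : ℂ) =
      Complex.exp (2 * Real.pi * Complex.I / N) ^ l * 𝕢 (N : ℝ) (z : ℂ) := by
  have hN' : (N : ℂ) ≠ 0 := Nat.cast_ne_zero.mpr hN.ne'
  rw [coe_vadd, Function.Periodic.qParam, Function.Periodic.qParam, ← Complex.exp_nat_mul,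
    ← Complex.exp_add]
  congr 1
  push_cast
  field_simp

theorem tendsto_vadd_atImInfty (l : ℕ) :
    Tendsto (fun z : ℍ => (l : ℝ) +ᵥ z) atImInfty atImInfty := by
  rw [atImInfty, tendsto_comap_iff]
  have : (UpperHalfPlane.im ∘ fun z : ℍ => (l : ℝ) +ᵥ z) = UpperHalfPlane.im := by
    funext z
    exact vadd_im _ z
  rw [this]
  exact tendsto_comap

theorem tendsto_zero_mul_bdd {f g : ℍ → ℂ} (hf : Tendsto f atImInfty (𝓝 0))
    (hg : IsBoundedAtImInfty g) : Tendsto (fun z => f z * g z) atImInfty (𝓝 0) :=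
  hf.zero_mul_isBoundedUnder_le (Asymptotics.IsBigO.isBoundedUnder_le hg)

/-- the tail of the `q_N`-expansion after the first `N` terms is `q_N ^ N` times a function
bounded at `i∞` -/
theorem exists_tail {N : ℕ} {φ : ℍ → ℂ} (hN : 0 < N) (h : IsPerHol N φ) :
    ∃ ψ : ℍ → ℂ, IsBoundedAtImInfty ψ ∧ ∀ z : ℍ,
      φ z = ∑ n ∈ Finset.range N, (qExpansion (N : ℝ) φ).coeff n * 𝕢 (N : ℝ) (z : ℂ) ^ n +
        𝕢 (N : ℝ) (z : ℂ) ^ N * ψ z := by
  have hh : (0 : ℝ) < N := by exact_mod_cast hN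
  let ψ : ℍ → ℂ := fun z =>
    (φ z - ∑ n ∈ Finset.range N, (qExpansion (N : ℝ) φ).coeff n * 𝕢 (N : ℝ) (z : ℂ) ^ n) *
      (𝕢 (N : ℝ) (z : ℂ) ^ N)⁻¹
  have hsum : ∀ z : ℍ, HasSum
      (fun m : ℕ => (qExpansion (N : ℝ) φ).coeff (m + N) • 𝕢 (N : ℝ) (z : ℂ) ^ m) (ψ z) := by
    intro z
    have hs := hasSum_qExpansion hh h.per h.hol h.bdd z
    have hs' := (hasSum_nat_add_iff' N).mpr hs
    have hq : 𝕢 (N : ℝ) (z : ℂ) ≠ 0 := Function.Periodic.qParam_ne_zero _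
    have hs'' := hs'.mul_right ((𝕢 (N : ℝ) (z : ℂ) ^ N)⁻¹)
    have hfun : (fun m : ℕ => (qExpansion (N : ℝ) φ).coeff (m + N) • 𝕢 (N : ℝ) (z : ℂ) ^ m) =
        fun i : ℕ => (qExpansion (N : ℝ) φ).coeff (i + N) • 𝕢 (N : ℝ) (z : ℂ) ^ (i + N) *
          (𝕢 (N : ℝ) (z : ℂ) ^ N)⁻¹ := by
      funext m
      simp only [smul_eq_mul]
      rw [pow_add]
      field_simp
    rw [hfun]
    exact hs''
  refine ⟨ψ, isBoundedAtImInfty_of_hasSum_qExpansion hh hsum, fun z => ?_⟩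
  have hq : 𝕢 (N : ℝ) (z : ℂ) ^ N ≠ 0 := pow_ne_zero _ (Function.Periodic.qParam_ne_zero _)
  simp only [ψ]
  field_simp
  ring

theorem norm_twistCoeff_mul_le {N : ℕ} (hN : 0 < N) (l : ℕ) (z : ℍ) :
    ‖twistCoeff N l z * 𝕢 (N : ℝ) (z : ℂ) ^ N‖ ≤ ‖𝕢 (N : ℝ) (z : ℂ)‖ := by
  have hh : (0 : ℝ) < N := by exact_mod_cast hN
  obtain ⟨ρ, hρ⟩ : ∃ ρ : ℝ, ρ = ‖𝕢 (N : ℝ) (z : ℂ)‖ := ⟨_, rfl⟩
  have hρ0 : 0 < ρ := by
    rw [hρ]
    exact norm_pos_iff.mpr (Function.Periodic.qParam_ne_zero _)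
  have hρ1 : ρ < 1 := by
    rw [hρ]
    exact Function.Periodic.norm_qParam_lt_one hh z.im_pos
  have hnorm : ‖𝕢 (N : ℝ) (((l : ℝ) +ᵥ z : ℍ) : ℂ)‖ = ρ := by
    rw [hρ, Function.Periodic.norm_qParam, Function.Periodic.norm_qParam, coe_vadd]
    simp
  have hsum : ‖∑ m ∈ Finset.range N, (𝕢 (N : ℝ) (((l : ℝ) +ᵥ z : ℍ) : ℂ))⁻¹ ^ m‖ ≤
      N * (ρ⁻¹) ^ (N - 1) := by
    calc ‖∑ m ∈ Finset.range N, (𝕢 (N : ℝ) (((l : ℝ) +ᵥ z : ℍ) : ℂ))⁻¹ ^ m‖
        ≤ ∑ m ∈ Finset.range N, ‖(𝕢 (N : ℝ) (((l : ℝ) +ᵥ z : ℍ) : ℂ))⁻¹ ^ m‖ := norm_sum_le _ _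
      _ ≤ ∑ _m ∈ Finset.range N, (ρ⁻¹) ^ (N - 1) := by
          refine Finset.sum_le_sum fun m hm => ?_
          rw [norm_pow, norm_inv, hnorm]
          exact pow_le_pow_right₀ ((one_le_inv₀ hρ0).mpr hρ1.le)
            (by have := Finset.mem_range.mp hm; omega)
      _ = N * (ρ⁻¹) ^ (N - 1) := by simp
  have hNC : ‖(N : ℂ)‖ = N := by simp
  rw [twistCoeff, norm_mul, norm_mul, norm_inv, norm_pow, ← hρ, hNC]
  have hNpos : (0 : ℝ) < N := hh
  calc (N : ℝ)⁻¹ * ‖∑ m ∈ Finset.range N, (𝕢 (N : ℝ) (((l : ℝ) +ᵥ z : ℍ) : ℂ))⁻¹ ^ m‖ * ρ ^ N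
      ≤ (N : ℝ)⁻¹ * (N * (ρ⁻¹) ^ (N - 1)) * ρ ^ N := by gcongr
    _ = ρ := by
        have h1 : ρ ^ N = ρ ^ (N - 1) * ρ := by
          rw [← pow_succ]
          congr 1
          omega
        rw [h1, inv_pow]
        field_simp

theorem tendsto_twistCoeff_mul {N : ℕ} (hN : 0 < N) (l : ℕ) :
    Tendsto (fun z : ℍ => twistCoeff N l z * 𝕢 (N : ℝ) (z : ℂ) ^ N) atImInfty (𝓝 0) := by
  have hh : (0 : ℝ) < N := by exact_mod_cast hN
  refine squeeze_zero_norm (norm_twistCoeff_mul_le hN l) ?_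
  exact tendsto_zero_iff_norm_tendsto_zero.mp (qParam_tendsto_atImInfty hh)

end JetAnalytic

local notation "𝕢" => Function.Periodic.qParam

variable {N : ℕ} {φ : ℍ → ℂ}

/-- the twist converges to the sum of the first `N` coefficients -/
theorem IsPerHol.tendsto_twist (hN : 0 < N) (h : IsPerHol N φ) :
    Tendsto (twist N φ) atImInfty (𝓝 (jetSum N φ)) := by
  have hh : (0 : ℝ) < N := by exact_mod_cast hN
  obtain ⟨ψ, hψ, hφ⟩ := JetAnalytic.exists_tail hN h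
  have hζN : Complex.exp (2 * Real.pi * Complex.I / N) ^ N = 1 :=
    (Complex.isPrimitiveRoot_exp N hN.ne').pow_eq_one
  have key : ∀ z : ℍ, twist N φ z = jetSum N φ + ∑ l ∈ Finset.range N,
      (twistCoeff N l z * 𝕢 (N : ℝ) (z : ℂ) ^ N) * ψ ((l : ℝ) +ᵥ z) := by
    intro z
    have hq : 𝕢 (N : ℝ) (z : ℂ) ≠ 0 := Function.Periodic.qParam_ne_zero _
    have h1 : ∀ l ∈ Finset.range N, twistCoeff N l z * φ ((l : ℝ) +ᵥ z) =
        ((N : ℂ)⁻¹ * ∑ m ∈ Finset.range N,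
            (Complex.exp (2 * Real.pi * Complex.I / N) ^ l * 𝕢 (N : ℝ) (z : ℂ))⁻¹ ^ m) *
          (∑ n ∈ Finset.range N, (qExpansion (N : ℝ) φ).coeff n *
            (Complex.exp (2 * Real.pi * Complex.I / N) ^ l * 𝕢 (N : ℝ) (z : ℂ)) ^ n) +
        (twistCoeff N l z * 𝕢 (N : ℝ) (z : ℂ) ^ N) * ψ ((l : ℝ) +ᵥ z) := by
      intro l _
      rw [hφ ((l : ℝ) +ᵥ z), twistCoeff, JetAnalytic.qParam_vadd N l hN z, mul_add]
      congr 1
      rw [mul_pow, ← pow_mul, mul_comm l N, pow_mul, hζN, one_pow, one_mul]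
      ring
    rw [twist, Finset.sum_congr rfl h1, Finset.sum_add_distrib, twist_poly hN _ hq]
    rfl
  have hlim : Tendsto (fun z : ℍ => jetSum N φ + ∑ l ∈ Finset.range N,
      (twistCoeff N l z * 𝕢 (N : ℝ) (z : ℂ) ^ N) * ψ ((l : ℝ) +ᵥ z)) atImInfty
      (𝓝 (jetSum N φ + ∑ _l ∈ Finset.range N, (0 : ℂ))) := by
    refine tendsto_const_nhds.add (tendsto_finsetSum _ fun l _ => ?_)
    exact JetAnalytic.tendsto_zero_mul_bdd (JetAnalytic.tendsto_twistCoeff_mul hN l)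
      (hψ.comp_tendsto (JetAnalytic.tendsto_vadd_atImInfty l))
  simp only [Finset.sum_const_zero, add_zero] at hlim
  exact hlim.congr fun z => (key z).symm

theorem tendsto_discriminant_mul_twistCoeff (N l : ℕ) (hN : 0 < N) :
    Tendsto (fun z : ℍ => ModularForm.discriminant z * twistCoeff N l z) atImInfty (𝓝 0) := by
  have hh : (0 : ℝ) < N := by exact_mod_cast hN
  have hΔ : (ModularForm.discriminant : ℍ → ℂ) =O[atImInfty]
      fun z : ℍ => 𝕢 (N : ℝ) (z : ℂ) ^ N := by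
    have h1 := CuspFormClass.exp_decay_atImInfty (f := CuspForm.discriminant) (h := 1) one_pos
      one_mem_strictPeriods_SL
    refine h1.trans (Asymptotics.IsBigO.of_bound 1 (Eventually.of_forall fun z => ?_))
    rw [norm_pow, Function.Periodic.norm_qParam, ← Real.exp_nat_mul, one_mul, Real.norm_eq_abs,
      Real.abs_exp]
    apply le_of_eq
    congr 1
    simp only [coe_im]
    field_simp
  have h2 : (fun z : ℍ => ModularForm.discriminant z * twistCoeff N l z) =O[atImInfty]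
      fun z : ℍ => 𝕢 (N : ℝ) (z : ℂ) ^ N * twistCoeff N l z :=
    hΔ.mul (Asymptotics.isBigO_refl _ _)
  refine h2.trans_tendsto ?_
  simpa [mul_comm] using JetAnalytic.tendsto_twistCoeff_mul hN l

/-- if the first `N` coefficients of the `q_N`-expansion vanish then `φ = O(Δ)` at `i∞` -/
theorem IsPerHol.isBoundedAtImInfty_div_discriminant (hN : 0 < N) (h : IsPerHol N φ)
    (h0 : ∀ m < N, (qExpansion (N : ℝ) φ).coeff m = 0) :
    IsBoundedAtImInfty (fun z => φ z / ModularForm.discriminant z) := by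
  have hh : (0 : ℝ) < N := by exact_mod_cast hN
  obtain ⟨ψ, hψ, hφ⟩ := JetAnalytic.exists_tail hN h
  have hφ' : φ = fun z : ℍ => 𝕢 (N : ℝ) (z : ℂ) ^ N * ψ z := by
    funext z
    rw [hφ z, Finset.sum_eq_zero (fun n hn => by rw [h0 n (Finset.mem_range.mp hn), zero_mul]),
      zero_add]
  have hq : (fun z : ℍ => 𝕢 (N : ℝ) (z : ℂ) ^ N) =O[atImInfty]
      (ModularForm.discriminant : ℍ → ℂ) := by
    refine Asymptotics.IsBigO.trans
      (Asymptotics.IsBigO.of_bound 1 (Eventually.of_forall fun z => ?_))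
      ModularForm.exp_isBigO_discriminant
    rw [norm_pow, Function.Periodic.norm_qParam, ← Real.exp_nat_mul, one_mul, Real.norm_eq_abs,
      Real.abs_exp]
    apply le_of_eq
    congr 1
    simp only [coe_im]
    field_simp
  have h1 : φ =O[atImInfty] (ModularForm.discriminant : ℍ → ℂ) := by
    have hψ' : ψ =O[atImInfty] (fun _ : ℍ => (1 : ℂ)) :=
      Asymptotics.IsBigO.trans hψ
        (Asymptotics.IsBigO.of_bound 1 (Eventually.of_forall fun z => by simp))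
    have h2 := hq.mul hψ'
    rw [hφ']
    simpa using h2
  obtain ⟨C, hC⟩ := h1.bound
  refine Asymptotics.IsBigO.of_bound C (hC.mono fun z hz => ?_)
  rw [norm_div, Pi.one_apply, norm_one, mul_one,
    div_le_iff₀ (norm_pos_iff.mpr (discriminant_ne_zero z))]
  exact hz

end Fermat.Agent.S20
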