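import Fermat.Agent.S20.PointIndep
import Fermat.Agent.S20.Division
import Fermat.Agent.S20.BundlePer
import Fermat.Agent.S20.JetAnalytic
import Fermat.Agent.S20.JetAnalyticB
import Fermat.Agent.S20.FinrankMF
import Fermat.Agent.S20.LevelOneJ
import Fermat.Agent.S24.JBasic

/-!
P8 / FREE (cusp part): jet injectivity.  The first `N` coefficients of the `q_N`-expansions of
all translates determine the coefficients of a constant combination of a free family.
-/

set_option autoImplicit false

namespace Fermat.Agent.S20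

open UpperHalfPlane ModularForm EisensteinSeries Filter Topology
open Fermat.Agent.S23 Fermat.Agent.S24
open scoped MatrixGroups Manifold

/-- a level-one form of even weight `w = 0` or `w ≥ 4` with value `1` at `i∞` -/
theorem exists_levelOne_tendsto_one {w : ℤ} (hw : Even w) (hw' : w = 0 ∨ 4 ≤ w) :
    ∃ a : ModularForm 𝒮ℒ w, Tendsto (⇑a) atImInfty (𝓝 1) := by
  have key : ∀ (a b : ℕ) (hab : w = 4 * (a : ℤ) + 6 * (b : ℤ)),
      Tendsto (⇑(monoE a b w hab)) atImInfty (𝓝 1) := by
    intro a b hab
    have h := ((Fermat.Agent.S24.tendsto_E₄_atImInfty).pow a).mul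
      ((Fermat.Agent.S24.tendsto_E₆_atImInfty).pow b)
    simp only [one_pow, mul_one] at h
    refine h.congr fun z => ?_
    rw [monoE_apply]
  obtain ⟨r, hr⟩ := hw
  rcases Int.emod_two_eq_zero_or_one r with h0 | h1
  · obtain ⟨a, ha⟩ := Int.eq_ofNat_of_zero_le (show 0 ≤ r / 2 by omega)
    exact ⟨_, key a 0 (by omega)⟩
  · obtain ⟨a, ha⟩ := Int.eq_ofNat_of_zero_le (show 0 ≤ (r - 3) / 2 by omega)
    exact ⟨_, key a 1 (by omega)⟩

theorem slash_levelOne_mul {w κ' k : ℤ} (hk : w + κ' = k) (a : ModularForm 𝒮ℒ w) (f : ℍ → ℂ)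
    (γ : SL(2, ℤ)) : ((⇑a : ℍ → ℂ) * f) ∣[k] γ = ⇑a * (f ∣[κ'] γ) := by
  subst hk
  rw [mul_slash_SL2]
  congr 1
  rw [SL_slash]
  exact SlashInvariantForm.slash_action_eqn a _ ⟨γ, rfl⟩

/-- if a level-one form tends to `1` at `i∞` then `a - 1 = O(Δ)` -/
theorem isBoundedAtImInfty_levelOne_sub_one_div {w : ℤ} (a : ModularForm 𝒮ℒ w)
    (ha : Tendsto (⇑a) atImInfty (𝓝 1)) :
    IsBoundedAtImInfty (fun z => (a z - 1) / ModularForm.discriminant z) := by
  have hper : IsPerHol 1 (fun z => a z - 1) := by
    refine ⟨?_, ?_, ?_⟩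
    · intro x
      have h := SlashInvariantFormClass.periodic_comp_ofComplex a one_mem_strictPeriods_SL x
      simp only [Function.comp_apply, Nat.cast_one] at h ⊢
      rw [h]
    · exact (ModularFormClass.holo a).sub mdifferentiable_const
    · exact (ModularFormClass.bdd_at_infty a).sub (Filter.const_boundedAtFilter _ 1)
  have h0 : (qExpansion ((1 : ℕ) : ℝ) (fun z => a z - 1)).coeff 0 = 0 := by
    have h1 := hper.tendsto one_pos
    have h2 : Tendsto (fun z => a z - 1) atImInfty (𝓝 0) := by simpa using ha.sub_const 1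
    exact tendsto_nhds_unique h1 h2
  exact hper.isBoundedAtImInfty_div_discriminant one_pos (fun m hm => by
    obtain rfl : m = 0 := by omega
    exact h0)

section
variable {N : ℕ} [NeZero N] {ι : Type} {κ : ι → ℤ} {g : (i : ι) → ModularForm (Γ0 N) (κ i)}

theorem tr_combMap [Fintype ι] (g : (i : ι) → ModularForm (Γ0 N) (κ i)) (k : ℤ)
    (a : (i : ι) → ModularForm 𝒮ℒ (k - κ i)) (q : Q N) (z : ℍ) :
    tr (combMap g k a) q z = ∑ i, a i z * tr (g i) q z := by
  obtain ⟨γ, hγ⟩ := PointIndep.exists_SL_tr q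
  have h1 : (⇑(combMap g k a) : ℍ → ℂ) = ∑ i, (⇑(a i) : ℍ → ℂ) * ⇑(g i) := by
    funext z
    rw [combMap_apply, Finset.sum_apply]
    rfl
  rw [hγ, h1, SlashAction.sum_slash, Finset.sum_apply]
  refine Finset.sum_congr rfl fun i _ => ?_
  rw [slash_levelOne_mul (by ring : (k - κ i) + κ i = k), hγ]
  rfl

theorem isPerHol_tr {k : ℤ} (f : ModularForm (Γ0 N) k) (q : Q N) : IsPerHol N (tr f q) :=
  ⟨ef_periodic (isEquivFamily_tr f) q, (isEquivFamily_tr f).holo q, (isEquivFamily_tr f).bdd q⟩

/-- the jets of `tr f ((permQ T)⁻¹ q)` and of `tr f q` -/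
theorem coeff_tr_permQ_T {k : ℤ} (f : ModularForm (Γ0 N) k) (q : Q N) (m : ℕ) :
    (qExpansion (N : ℝ) (tr f ((permQ N ModularGroup.T)⁻¹ q))).coeff m =
      Complex.exp (2 * Real.pi * Complex.I / N) ^ m * (qExpansion (N : ℝ) (tr f q)).coeff m := by
  have h : tr f ((permQ N ModularGroup.T)⁻¹ q) = fun z => tr f q ((1 : ℝ) +ᵥ z) := by
    funext z
    exact (ef_vadd_one (isEquivFamily_tr f) q z).symm
  rw [h]
  exact (isPerHol_tr f q).coeff_vadd_one (NeZero.pos N) m

/-- jet injectivity: the first `N` coefficients of the `q_N`-expansions of all translates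
determine the coefficients of a constant combination of the free family -/
theorem IsFreeFamily.coeff_injective [Fintype ι] (h : IsFreeFamily N κ g) (v : ι → ℂ)
    (hv : ∀ (q : Q N) (m : ℕ), m < N →
      ∑ j, v j * (qExpansion (N : ℝ) (tr (g j) q)).coeff m = 0) : v = 0 := by
  classical
  have hN : 0 < N := NeZero.pos N
  -- choose the weight
  obtain ⟨B, hB⟩ : ∃ B : ℤ, ∀ i, κ i ≤ B := by
    obtain ⟨B, hB⟩ := (Set.finite_range κ).bddAbove
    exact ⟨B, fun i => hB (Set.mem_range_self i)⟩
  obtain ⟨k, hk⟩ : ∃ k : ℤ, k = 2 * |B| + 4 := ⟨_, rfl⟩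
  have hk1 : ∀ i, Even (k - κ i) := fun i => by
    have h1 := h.weight_even i
    have h2 : Even k := ⟨|B| + 2, by rw [hk]; ring⟩
    exact h2.sub h1
  have hk2 : ∀ i, 4 ≤ k - κ i := fun i => by
    have h1 := hB i
    have h2 := le_abs_self B
    have h3 := abs_nonneg B
    omega
  choose a ha using fun i => exists_levelOne_tendsto_one (hk1 i) (Or.inr (hk2 i))
  obtain ⟨F, hF⟩ : ∃ F : ModularForm (Γ0 N) k, F = combMap g k (fun i => v i • a i) := ⟨_, rfl⟩
  have htr : ∀ q z, tr F q z = ∑ i, v i * (a i z * tr (g i) q z) := by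
    intro q z
    rw [hF, tr_combMap]
    refine Finset.sum_congr rfl fun i _ => ?_
    rw [smul_apply, smul_eq_mul, mul_assoc]
  have hbdd : ∀ q : Q N,
      IsBoundedAtImInfty (fun z => tr F q z / ModularForm.discriminant z) := by
    intro q
    have h1 : IsPerHol N (∑ i, v i • tr (g i) q) :=
      IsPerHol.sum _ _ fun i _ => (isPerHol_tr (g i) q).smul (v i)
    have h1' : IsBoundedAtImInfty
        (fun z => (∑ i, v i • tr (g i) q) z / ModularForm.discriminant z) := by
      refine h1.isBoundedAtImInfty_div_discriminant hN fun m hm => ?_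
      rw [IsPerHol.coeff_sum hN _ _ _ (fun i _ => isPerHol_tr (g i) q)]
      exact hv q m hm
    have h2 : ∀ i, IsBoundedAtImInfty
        (fun z => v i * ((a i z - 1) / ModularForm.discriminant z * tr (g i) q z)) := by
      intro i
      exact Asymptotics.IsBigO.const_mul_left
        ((isBoundedAtImInfty_levelOne_sub_one_div (a i) (ha i)).mul
          ((isEquivFamily_tr (g i)).bdd q)) (v i)
    have h3 : IsBoundedAtImInfty
        (fun z => ∑ i, v i * ((a i z - 1) / ModularForm.discriminant z * tr (g i) q z)) := by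
      have h3' := Asymptotics.IsBigO.sum (s := Finset.univ) fun i _ => h2 i
      have h3'' : (∑ i, fun z => v i * ((a i z - 1) / ModularForm.discriminant z *
          tr (g i) q z)) = fun z => ∑ i, v i * ((a i z - 1) / ModularForm.discriminant z *
          tr (g i) q z) := by
        funext z
        rw [Finset.sum_apply]
      rw [h3''] at h3'
      exact h3'
    have h4 : (fun z => tr F q z / ModularForm.discriminant z) =
        (fun z => (∑ i, v i • tr (g i) q) z / ModularForm.discriminant z) +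
        (fun z => ∑ i, v i * ((a i z - 1) / ModularForm.discriminant z * tr (g i) q z)) := by
      funext z
      have hΔ := ModularForm.discriminant_ne_zero z
      rw [htr, Pi.add_apply, Finset.sum_apply, Finset.sum_div, Finset.sum_div,
        ← Finset.sum_add_distrib]
      refine Finset.sum_congr rfl fun i _ => ?_
      rw [Pi.smul_apply, smul_eq_mul]
      field_simp
      ring
    rw [h4]
    exact h1'.add h3
  obtain ⟨F', hF'⟩ := exists_div_discriminant N F hbdd
  obtain ⟨a', ha'⟩ := h.combMap_surjective (k - 12) F'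
  -- the level-one forms `Δ * a' i` of weight `k - κ i`
  let b : (i : ι) → ModularForm 𝒮ℒ (k - κ i) := fun i =>
    CuspForm.toModularFormₗ (CuspForm.ofMulDiscriminant (ModularForm.mcast (by ring) (a' i)))
  have hb : ∀ i z, b i z = ModularForm.discriminant z * a' i z := fun i z => rfl
  have hcomb : combMap g k (fun i => v i • a i) = combMap g k b := by
    ext z
    rw [← hF, hF' z, ← ha', combMap_apply, combMap_apply, Finset.mul_sum]
    refine Finset.sum_congr rfl fun i _ => ?_
    rw [hb]
    ring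
  have heq := h.combMap_injective k hcomb
  funext i
  have hi : ∀ z, v i * a i z = ModularForm.discriminant z * a' i z := by
    intro z
    have h1 := congrFun heq i
    have h2 := congrArg (fun f : ModularForm 𝒮ℒ (k - κ i) => f z) h1
    simpa [hb] using h2
  have hl1 : Tendsto (fun z => v i * a i z) atImInfty (𝓝 (v i * 1)) := (ha i).const_mul (v i)
  have hl2 : Tendsto (fun z => ModularForm.discriminant z * a' i z) atImInfty (𝓝 0) :=
    ModularForm.discriminant_isZeroAtImInfty.mul_boundedAtFilter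
      (ModularFormClass.bdd_at_infty (a' i))
  have h5 := tendsto_nhds_unique hl1 (hl2.congr (fun z => (hi z).symm))
  simpa using h5

theorem IsFreeFamily.jetSum_injective [Fintype ι] (h : IsFreeFamily N κ g) (v : ι → ℂ)
    (hv : ∀ q : Q N, ∑ j, v j * jetSum N (tr (g j) q) = 0) : v = 0 := by
  have hN : 0 < N := NeZero.pos N
  refine h.coeff_injective v fun q m' hm' => ?_
  have hiter : ∀ (l : ℕ) {k : ℤ} (f : ModularForm (Γ0 N) k) (q : Q N) (m : ℕ),
      (qExpansion (N : ℝ) (tr f (((permQ N ModularGroup.T) ^ l)⁻¹ q))).coeff m =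
        Complex.exp (2 * Real.pi * Complex.I / N) ^ (l * m) *
          (qExpansion (N : ℝ) (tr f q)).coeff m := by
    intro l
    induction l with
    | zero => intro k f q m; simp
    | succ l ih =>
      intro k f q m
      have h1 : ((permQ N ModularGroup.T) ^ (l + 1))⁻¹ q =
          (permQ N ModularGroup.T)⁻¹ (((permQ N ModularGroup.T) ^ l)⁻¹ q) := by
        rw [pow_succ, mul_inv_rev]
        rfl
      rw [h1, coeff_tr_permQ_T, ih, ← mul_assoc, ← pow_add]
      congr 2
      ring
  obtain ⟨u, hu⟩ : ∃ u : ℕ → ℂ,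
      u = fun m => ∑ j, v j * (qExpansion (N : ℝ) (tr (g j) q)).coeff m := ⟨_, rfl⟩
  have key : ∀ l : ℕ, ∑ m ∈ Finset.range N,
      Complex.exp (2 * Real.pi * Complex.I / N) ^ (l * m) * u m = 0 := by
    intro l
    have h1 := hv (((permQ N ModularGroup.T) ^ l)⁻¹ q)
    simp only [jetSum, hiter] at h1
    rw [← h1]
    simp only [hu, Finset.mul_sum]
    rw [Finset.sum_comm]
    refine Finset.sum_congr rfl fun j _ => Finset.sum_congr rfl fun m _ => by ring
  have hfi := fourier_inversion hN u m' hm'
  simp only [key, mul_zero, Finset.sum_const_zero] at hfi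
  have hN' : (N : ℂ) ≠ 0 := Nat.cast_ne_zero.mpr hN.ne'
  have h6 : u m' = 0 := (mul_eq_zero.mp hfi.symm).resolve_left hN'
  rw [hu] at h6
  exact h6

end

end Fermat.Agent.S20
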