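import Mathlib

/-!
P8 / FREE-CUSP: a limit lemma for matrices.
If `B x * D x = Y x`, `B → A` entrywise with `det A ≠ 0` and `Y → 0` entrywise,
then `D → 0` entrywise.
-/

set_option autoImplicit false

namespace Fermat.Agent.S20

open Filter Topology

/-- if `B x * D x = Y x`, `B → A` invertible and `Y → 0` entrywise, then `D → 0` entrywise -/
theorem matrix_tendsto_zero_of_mul {m n α : Type*} [Fintype m] [DecidableEq m] [Fintype n]
    {l : Filter α} (B : α → Matrix m m ℂ) (D Y : α → Matrix m n ℂ) (A : Matrix m m ℂ)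
    (hA : A.det ≠ 0) (hB : ∀ i j, Tendsto (fun x => B x i j) l (𝓝 (A i j)))
    (hY : ∀ i j, Tendsto (fun x => Y x i j) l (𝓝 0)) (hBD : ∀ x, B x * D x = Y x) :
    ∀ i j, Tendsto (fun x => D x i j) l (𝓝 0) := by
  have hB' : Tendsto B l (𝓝 A) := by
    have h1 : Tendsto (fun x => (fun i j => B x i j : m → m → ℂ)) l
        (𝓝 (fun i j => A i j : m → m → ℂ)) :=
      tendsto_pi_nhds.mpr fun i => tendsto_pi_nhds.mpr fun j => hB i j
    exact h1
  have hdet : Tendsto (fun x => (B x).det) l (𝓝 A.det) :=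
    ((continuous_id.matrix_det (A := fun M : Matrix m m ℂ => M)).tendsto A).comp hB'
  have hadj : ∀ i k, Tendsto (fun x => (B x).adjugate i k) l (𝓝 (A.adjugate i k)) := by
    intro i k
    have h1 : Continuous fun M : Matrix m m ℂ => M.adjugate i k :=
      (continuous_apply k).comp ((continuous_apply i).comp
        (continuous_id.matrix_adjugate (A := fun M : Matrix m m ℂ => M)))
    exact (h1.tendsto A).comp hB'
  have hinv : Tendsto (fun x => ((B x).det)⁻¹) l (𝓝 (A.det)⁻¹) := hdet.inv₀ hA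
  have hkey : ∀ x, (B x).det • D x = (B x).adjugate * Y x := by
    intro x
    rw [← hBD x, ← Matrix.mul_assoc, Matrix.adjugate_mul, Matrix.smul_mul, Matrix.one_mul]
  intro i j
  have hij : Tendsto (fun x => ∑ k, (B x).adjugate i k * Y x k j) l (𝓝 0) := by
    have h2 : Tendsto (fun x => ∑ k, (B x).adjugate i k * Y x k j) l
        (𝓝 (∑ k, A.adjugate i k * 0)) :=
      tendsto_finsetSum _ fun k _ => (hadj i k).mul (hY k j)
    simpa using h2
  have hlim : Tendsto (fun x => ((B x).det)⁻¹ * ∑ k, (B x).adjugate i k * Y x k j) l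
      (𝓝 ((A.det)⁻¹ * 0)) := hinv.mul hij
  rw [mul_zero] at hlim
  refine hlim.congr' ?_
  filter_upwards [hdet.eventually_ne hA] with x hx
  have h1 := congrFun (congrFun (hkey x) i) j
  rw [Matrix.smul_apply, smul_eq_mul, Matrix.mul_apply] at h1
  rw [← h1, ← mul_assoc, inv_mul_cancel₀ hx, one_mul]

end Fermat.Agent.S20
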