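import Fermat.Agent.S20.LevelOneAux
import Fermat.Agent.S20.Card
import Fermat.Agent.S20.Bundle
import Fermat.Agent.S20.BundlePer
import Fermat.Agent.S20.BundleFin
import Fermat.Agent.S20.JetAnalytic
import Fermat.Agent.S20.JetInj
import Fermat.Agent.S20.DualAlg
import Fermat.Agent.S20.MatLimit

/-!
P8 / FREE (cusp part): the dual family `Δ · G⁻¹` of a free family is cuspidal.

* `IsFreeFamily.exists_dual_family`, `IsFreeFamily.exists_dual`: cusp forms `d i` of weight
  `12 - κ i` with `∑_q tr (d i) q · tr (g j) q = δ_ij Δ`;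
* `IsFreeFamily.weight_le_ten`: the weights of a free family are at most `10`;
* `IsFreeFamily.card_weight_ten_le`: the dual forms of weight `2` are linearly independent.
-/

set_option autoImplicit false

namespace Fermat.Agent.S20

open UpperHalfPlane ModularForm EisensteinSeries Filter Topology
open Fermat.Agent.S23 Fermat.Agent.S24
open scoped MatrixGroups Manifold

section
variable {N : ℕ} [NeZero N] {ι : Type} {κ : ι → ℤ} {g : (i : ι) → ModularForm (Γ0 N) (κ i)}

omit [NeZero N] in
/-- the translates of a form whose underlying function vanishes -/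
theorem tr_eq_zero_of_coe_eq_zero {k : ℤ} {F : Type*} [FunLike F ℍ ℂ]
    [SlashInvariantFormClass F (Γ0 N) k] (f : F) (hf : (f : ℍ → ℂ) = 0) (q : Q N) :
    tr f q = 0 := by
  obtain ⟨γ, hγ⟩ := exists_tr_eq_slash f q
  rw [hγ, hf]
  exact SlashAction.zero_slash _ _

/-- The dual family of a free family: equivariant of weight `12 - κ i`, vanishing at `i∞`. -/
theorem IsFreeFamily.exists_dual_family [Fintype ι] [DecidableEq ι] (h : IsFreeFamily N κ g) :
    ∃ d : ι → Q N → ℍ → ℂ, (∀ i, IsEquivFamily N (12 - κ i) (d i)) ∧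
      (∀ i q, IsZeroAtImInfty (d i q)) ∧
      ∀ (i j : ι) (z : ℍ),
        ∑ q : Q N, d i q z * tr (g j) q z = if i = j then ModularForm.discriminant z else 0 := by
  classical
  have hN : 0 < N := Nat.pos_of_ne_zero (NeZero.ne N)
  have hcard : Fintype.card ι = Fintype.card (Q N) := by
    have := h.card_eq
    rwa [Nat.card_eq_fintype_card, Nat.card_eq_fintype_card] at this
  have hind : ∀ (z₀ : ℍ) (c : ι → ℂ), (∀ q : Q N, ∑ i, c i * tr (g i) q z₀ = 0) → c = 0 := by
    intro z₀ c hc
    funext i
    exact h.pointwise_indep z₀ Finset.univ c hc i (Finset.mem_univ i)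
  obtain ⟨d, hd_hol, hd_slash, hd_dual, hd_diag, hd_off⟩ := exists_dual_alg g hcard hind
  have hzero : ∀ i q, IsZeroAtImInfty (d i q) := by
    let e : ι ≃ Q N := Fintype.equivOfCardEq hcard
    let σ : Equiv.Perm (Q N) := permQ N ModularGroup.T
    let B : ℍ → Matrix (Q N) (Q N) ℂ := fun z q q₁ => twist N (tr (g (e.symm q₁)) q) z
    let D : ℍ → Matrix (Q N) (Q N) ℂ := fun z q₁ q' => d (e.symm q₁) q' z
    let Y : ℍ → Matrix (Q N) (Q N) ℂ := fun z q q' =>
      ∑ l ∈ Finset.range N, (ModularForm.discriminant z * twistCoeff N l z) *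
        (if (σ ^ l)⁻¹ q = q' then 1 else 0)
    let A : Matrix (Q N) (Q N) ℂ := fun q q₁ => jetSum N (tr (g (e.symm q₁)) q)
    have hA : A.det ≠ 0 := by
      intro h0
      obtain ⟨v, hv0, hv⟩ := Matrix.exists_mulVec_eq_zero_iff.mpr h0
      apply hv0
      have hv' : (fun j : ι => v (e j)) = 0 := by
        apply h.jetSum_injective
        intro q
        have h1 := congrFun hv q
        simp only [Matrix.mulVec, dotProduct, Pi.zero_apply] at h1
        rw [← h1, ← Equiv.sum_comp e.symm (fun j : ι => v (e j) * jetSum N (tr (g j) q))]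
        refine Finset.sum_congr rfl fun q₁ _ => ?_
        simp only [A, Equiv.apply_symm_apply]
        ring
      funext q₁
      have := congrFun hv' (e.symm q₁)
      simpa using this
    have hB : ∀ q q₁, Tendsto (fun z => B z q q₁) atImInfty (𝓝 (A q q₁)) := fun q q₁ =>
      (isPerHol_tr (g (e.symm q₁)) q).tendsto_twist hN
    have hY : ∀ q q', Tendsto (fun z => Y z q q') atImInfty (𝓝 0) := by
      intro q q'
      have h0 : (0 : ℂ) = ∑ l ∈ Finset.range N,
          (0 : ℂ) * (if (σ ^ l)⁻¹ q = q' then 1 else 0) := by simp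
      rw [h0]
      exact tendsto_finsetSum _ fun l _ =>
        (tendsto_discriminant_mul_twistCoeff N l hN).mul_const _
    have hBD : ∀ z, B z * D z = Y z := by
      intro z
      ext q q'
      rw [Matrix.mul_apply]
      have h1 : ∑ q₁, B z q q₁ * D z q₁ q' = ∑ i, twist N (tr (g i) q) z * d i q' z := by
        rw [← Equiv.sum_comp e.symm (fun i : ι => twist N (tr (g i) q) z * d i q' z)]
      rw [h1]
      have h2 : ∀ i, twist N (tr (g i) q) z * d i q' z =
          ∑ l ∈ Finset.range N, twistCoeff N l z * (tr (g i) ((σ ^ l)⁻¹ q) z * d i q' z) := by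
        intro i
        unfold twist
        rw [Finset.sum_mul]
        refine Finset.sum_congr rfl fun l _ => ?_
        rw [ef_vadd_nat (isEquivFamily_tr (g i)) l q z]
        ring
      simp_rw [h2]
      rw [Finset.sum_comm]
      refine Finset.sum_congr rfl fun l _ => ?_
      rw [← Finset.mul_sum]
      by_cases hq : (σ ^ l)⁻¹ q = q'
      · rw [if_pos hq, ← hq, hd_diag]
        ring
      · rw [if_neg hq, hd_off _ _ z hq]
        ring
    intro i q
    have := matrix_tendsto_zero_of_mul B D Y A hA hB hY hBD (e i) q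
    simpa [D, IsZeroAtImInfty, ZeroAtFilter] using this
  refine ⟨d, fun i => ⟨?_, hd_hol i, fun q => (hzero i q).isBoundedAtImInfty⟩, hzero, hd_dual⟩
  intro h' q
  obtain ⟨γ, rfl⟩ := exists_slElt_eq h'
  exact hd_slash i γ q

/-- The dual cusp forms of a free family. -/
theorem IsFreeFamily.exists_dual [Fintype ι] [DecidableEq ι] (h : IsFreeFamily N κ g) :
    ∃ d : (i : ι) → CuspForm (Γ0 N) (12 - κ i), ∀ (i j : ι) (z : ℍ),
      ∑ q : Q N, tr (d i) q z * tr (g j) q z = if i = j then ModularForm.discriminant z else 0 := by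
  obtain ⟨d, hfam, hzero, hdual⟩ := h.exists_dual_family
  choose F hF using fun i => ef_exists_cuspForm (hfam i) (hzero i)
  refine ⟨F, fun i j z => ?_⟩
  rw [hF i]
  exact hdual i j z

/-- The weights of a free family are at most `10`. -/
theorem IsFreeFamily.weight_le_ten (h : IsFreeFamily N κ g) (i : ι) : κ i ≤ 10 := by
  classical
  have := h.finite
  haveI := Fintype.ofFinite ι
  obtain ⟨d, hd⟩ := h.exists_dual
  by_contra hlt
  rw [not_le] at hlt
  have h12 : 12 - κ i ≤ 0 := by
    obtain ⟨r, hr⟩ := h.weight_even i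
    omega
  have hz : d i = 0 := Γ0_cuspForm_eq_zero_of_weight_nonpos N h12 (d i)
  have h1 := hd i i UpperHalfPlane.I
  rw [if_pos rfl] at h1
  have h2 : ∀ q : Q N, tr (d i) q = 0 := fun q =>
    tr_eq_zero_of_coe_eq_zero (d i) (by rw [hz]; rfl) q
  simp only [h2, Pi.zero_apply, zero_mul, Finset.sum_const_zero] at h1
  exact discriminant_ne_zero _ h1.symm

/-- The dual cusp forms of weight `2` are linearly independent: the number of members of weight
`10` of a free family is at most `dim S₂(Γ₀(N))`. -/
theorem IsFreeFamily.card_weight_ten_le (h : IsFreeFamily N κ g) :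
    Nat.card {i : ι // κ i = 10} ≤ Module.finrank ℂ (CuspForm (Γ0 N) 2) := by
  classical
  have := h.finite
  haveI := Fintype.ofFinite ι
  obtain ⟨d, hfam, hzero, hdual⟩ := h.exists_dual_family
  have hfam2 : ∀ i : {i : ι // κ i = 10}, IsEquivFamily N 2 (d i) := fun i =>
    (hfam i).congr_weight (by rw [i.2]; norm_num)
  choose F hF using fun i : {i : ι // κ i = 10} => ef_exists_cuspForm (hfam2 i) (hzero i)
  have hli : LinearIndependent ℂ F := by
    rw [Fintype.linearIndependent_iff]
    intro c hc j
    -- the combination vanishes at the base coset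
    have h1 : ∑ i, c i • d i (QuotientGroup.mk 1) = 0 := by
      have h2 : ∀ i : {i : ι // κ i = 10}, d i (QuotientGroup.mk 1) = (F i : ℍ → ℂ) := fun i => by
        rw [← hF i, tr_one]
      simp_rw [h2]
      have h3 := congrArg (FunLike.coeAddMonoidHom (CuspForm (Γ0 N) 2) ℍ ℂ) hc
      rw [map_sum, map_zero] at h3
      exact h3
    -- hence at every coset
    have h2 : ∀ q : Q N, ∑ i, c i • d i q = 0 := by
      intro q
      induction q using Quotient.inductionOn with
      | h r =>
        obtain ⟨γ, hγ⟩ := exists_slElt_eq r⁻¹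
        have h3 : ∀ i : {i : ι // κ i = 10},
            d i (Quotient.mk _ r) = d i (QuotientGroup.mk 1) ∣[(2 : ℤ)] γ := by
          intro i
          rw [(hfam2 i).slash_SL γ, hγ, inv_inv]
          congr 1
          show _ = r • (QuotientGroup.mk 1 : Q N)
          rw [MulAction.Quotient.smul_mk, smul_eq_mul, mul_one]
        simp_rw [h3]
        have h4 : (∑ i, c i • d i (QuotientGroup.mk 1)) ∣[(2 : ℤ)] γ = 0 := by
          rw [h1]
          exact SlashAction.zero_slash _ _
        rw [SlashAction.sum_slash] at h4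
        simpa [ModularForm.SL_smul_slash] using h4
    -- pair with `g j`
    have h5 : ∀ z : ℍ, c j * ModularForm.discriminant z = 0 := by
      intro z
      have h6 : ∑ q : Q N, (∑ i, c i • d i q) z * tr (g j) q z = 0 :=
        Finset.sum_eq_zero fun q _ => by rw [h2 q, Pi.zero_apply, zero_mul]
      have h7 : ∑ q : Q N, (∑ i, c i • d i q) z * tr (g j) q z =
          ∑ i : {i : ι // κ i = 10}, c i * ∑ q : Q N, d i q z * tr (g j) q z := by
        simp only [Finset.sum_apply, Pi.smul_apply, smul_eq_mul, Finset.sum_mul, Finset.mul_sum]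
        rw [Finset.sum_comm]
        refine Finset.sum_congr rfl fun i _ => Finset.sum_congr rfl fun q _ => ?_
        ring
      rw [h7] at h6
      simp_rw [hdual] at h6
      rw [Finset.sum_eq_single j] at h6
      · simpa using h6
      · intro i _ hij
        rw [if_neg (fun hh => hij (Subtype.ext hh)), mul_zero]
      · intro hj
        exact absurd (Finset.mem_univ j) hj
    have := h5 UpperHalfPlane.I
    rcases mul_eq_zero.mp this with h8 | h8
    · exact h8
    · exact absurd h8 (discriminant_ne_zero _)
  have : Module.Finite ℂ (ModularForm (Γ0 N) 2) := finite_modularForm N 2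
  have : Module.Finite ℂ (CuspForm (Γ0 N) 2) :=
    Module.Finite.of_injective CuspForm.toModularFormₗ CuspForm.toModularFormₗ_injective
  have := hli.fintype_card_le_finrank
  rwa [Nat.card_eq_fintype_card]

end

end Fermat.Agent.S20
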